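import Fermat.Agent.S52.Klein.TDefs

set_option autoImplicit false
set_option linter.unusedSimpArgs false
set_option linter.unusedVariables false

namespace Fermat.Agent.S52

namespace KleinData

variable {R : Type*} [CommRing R]
/-- chord identity (x): `P - Q = Q∘S` -/
theorem chord_x (D : KleinData R) (u v : R) :
    5 * (5 ^ (5 : ℕ) * D.xP u v + D.XQ u v + D.XQS u v) * (5 ^ (5 : ℕ) * D.xP u v - D.XQ u v) ^ (2 : ℕ) = (5 ^ (8 : ℕ) * D.yP u v + D.s5 * D.YQ u v) ^ (2 : ℕ) := by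
  try simp only [s5, m1, m2, Mu, Mv, Su, Sv, b0, b1, b2, b3, b0c, xPP, yBB, yPP, xP, yP, PQ1, PQ2, XQ, YQ, XQS, YQS, klFF, klHH, klTT, klA, klB, klf, klH, klT]
  linear_combination (-7119140625000000 * D.z ^ (8 : ℕ) * u ^ (30 : ℕ)
      - 199335937500000000 * D.z ^ (8 : ℕ) * u ^ (25 : ℕ) * v ^ (5 : ℕ)
      - 1850976562500000000 * D.z ^ (8 : ℕ) * u ^ (20 : ℕ) * v ^ (10 : ℕ)
      - 6336035156250000000 * D.z ^ (8 : ℕ) * u ^ (15 : ℕ) * v ^ (15 : ℕ)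
      - 6691992187500000000 * D.z ^ (8 : ℕ) * u ^ (10 : ℕ) * v ^ (20 : ℕ)
      + 1366875000000000000 * D.z ^ (8 : ℕ) * u ^ (5 : ℕ) * v ^ (25 : ℕ)
      - 64072265625000000 * D.z ^ (8 : ℕ) * v ^ (30 : ℕ)
      - 49833984375000000 * D.z ^ (7 : ℕ) * u ^ (30 : ℕ)
      - 1252968750000000000 * D.z ^ (7 : ℕ) * u ^ (25 : ℕ) * v ^ (5 : ℕ)
      - 9397265625000000000 * D.z ^ (7 : ℕ) * u ^ (20 : ℕ) * v ^ (10 : ℕ)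
      - 18011425781250000000 * D.z ^ (7 : ℕ) * u ^ (15 : ℕ) * v ^ (15 : ℕ)
      + 854296875000000000 * D.z ^ (7 : ℕ) * u ^ (10 : ℕ) * v ^ (20 : ℕ)
      + 313242187500000000 * D.z ^ (7 : ℕ) * u ^ (5 : ℕ) * v ^ (25 : ℕ)
      - 21357421875000000 * D.z ^ (7 : ℕ) * v ^ (30 : ℕ)
      - 156621093750000000 * D.z ^ (6 : ℕ) * u ^ (30 : ℕ)
      - 3673476562500000000 * D.z ^ (6 : ℕ) * u ^ (25 : ℕ) * v ^ (5 : ℕ)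
      - 23635546875000000000 * D.z ^ (6 : ℕ) * u ^ (20 : ℕ) * v ^ (10 : ℕ)
      - 23350781250000000000 * D.z ^ (6 : ℕ) * u ^ (15 : ℕ) * v ^ (15 : ℕ)
      + 6549609375000000000 * D.z ^ (6 : ℕ) * u ^ (10 : ℕ) * v ^ (20 : ℕ)
      - 541054687500000000 * D.z ^ (6 : ℕ) * u ^ (5 : ℕ) * v ^ (25 : ℕ)
      + 14238281250000000 * D.z ^ (6 : ℕ) * v ^ (30 : ℕ)
      - 270527343750000000 * D.z ^ (5 : ℕ) * u ^ (30 : ℕ)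
      - 35595703125000000 * D.z ^ (5 : ℕ) * u ^ (29 : ℕ) * v
      + 355957031250000000 * D.z ^ (5 : ℕ) * u ^ (28 : ℕ) * v ^ (2 : ℕ)
      - 640722656250000000 * D.z ^ (5 : ℕ) * u ^ (27 : ℕ) * v ^ (3 : ℕ)
      + 1067871093750000000 * D.z ^ (5 : ℕ) * u ^ (26 : ℕ) * v ^ (4 : ℕ)
      - 7823935546875000000 * D.z ^ (5 : ℕ) * u ^ (25 : ℕ) * v ^ (5 : ℕ)
      + 1779785156250000000 * D.z ^ (5 : ℕ) * u ^ (24 : ℕ) * v ^ (6 : ℕ)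
      + 4093505859375000000 * D.z ^ (5 : ℕ) * u ^ (23 : ℕ) * v ^ (7 : ℕ)
      - 8542968750000000000 * D.z ^ (5 : ℕ) * u ^ (22 : ℕ) * v ^ (8 : ℕ)
      + 14594238281250000000 * D.z ^ (5 : ℕ) * u ^ (21 : ℕ) * v ^ (9 : ℕ)
      - 59302441406250000000 * D.z ^ (5 : ℕ) * u ^ (20 : ℕ) * v ^ (10 : ℕ)
      + 29010498046875000000 * D.z ^ (5 : ℕ) * u ^ (19 : ℕ) * v ^ (11 : ℕ)
      - 2491699218750000000 * D.z ^ (5 : ℕ) * u ^ (18 : ℕ) * v ^ (12 : ℕ)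
      - 14594238281250000000 * D.z ^ (5 : ℕ) * u ^ (17 : ℕ) * v ^ (13 : ℕ)
      + 29188476562500000000 * D.z ^ (5 : ℕ) * u ^ (16 : ℕ) * v ^ (14 : ℕ)
      - 65460498046875000000 * D.z ^ (5 : ℕ) * u ^ (15 : ℕ) * v ^ (15 : ℕ)
      + 53037597656250000000 * D.z ^ (5 : ℕ) * u ^ (14 : ℕ) * v ^ (16 : ℕ)
      - 45028564453125000000 * D.z ^ (5 : ℕ) * u ^ (13 : ℕ) * v ^ (17 : ℕ)
      + 14594238281250000000 * D.z ^ (5 : ℕ) * u ^ (12 : ℕ) * v ^ (18 : ℕ)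
      - 14594238281250000000 * D.z ^ (5 : ℕ) * u ^ (11 : ℕ) * v ^ (19 : ℕ)
      - 11533007812500000000 * D.z ^ (5 : ℕ) * u ^ (10 : ℕ) * v ^ (20 : ℕ)
      - 13704345703125000000 * D.z ^ (5 : ℕ) * u ^ (9 : ℕ) * v ^ (21 : ℕ)
      + 6051269531250000000 * D.z ^ (5 : ℕ) * u ^ (8 : ℕ) * v ^ (22 : ℕ)
      - 3559570312500000000 * D.z ^ (5 : ℕ) * u ^ (7 : ℕ) * v ^ (23 : ℕ)
      + 1067871093750000000 * D.z ^ (5 : ℕ) * u ^ (6 : ℕ) * v ^ (24 : ℕ)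
      + 3353115234375000000 * D.z ^ (5 : ℕ) * u ^ (5 : ℕ) * v ^ (25 : ℕ)
      + 783105468750000000 * D.z ^ (5 : ℕ) * u ^ (4 : ℕ) * v ^ (26 : ℕ)
      - 177978515625000000 * D.z ^ (5 : ℕ) * u ^ (3 : ℕ) * v ^ (27 : ℕ)
      + 213574218750000000 * D.z ^ (5 : ℕ) * u ^ (2 : ℕ) * v ^ (28 : ℕ)
      - 156621093750000000 * D.z ^ (5 : ℕ) * v ^ (30 : ℕ)
      - 263408203125000000 * D.z ^ (4 : ℕ) * u ^ (30 : ℕ)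
      - 213574218750000000 * D.z ^ (4 : ℕ) * u ^ (29 : ℕ) * v
      + 1210253906250000000 * D.z ^ (4 : ℕ) * u ^ (28 : ℕ) * v ^ (2 : ℕ)
      - 2669677734375000000 * D.z ^ (4 : ℕ) * u ^ (27 : ℕ) * v ^ (3 : ℕ)
      + 4271484375000000000 * D.z ^ (4 : ℕ) * u ^ (26 : ℕ) * v ^ (4 : ℕ)
      - 12857167968750000000 * D.z ^ (4 : ℕ) * u ^ (25 : ℕ) * v ^ (5 : ℕ)
      + 6407226562500000000 * D.z ^ (4 : ℕ) * u ^ (24 : ℕ) * v ^ (6 : ℕ)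
      + 8720947265625000000 * D.z ^ (4 : ℕ) * u ^ (23 : ℕ) * v ^ (7 : ℕ)
      - 30078369140625000000 * D.z ^ (4 : ℕ) * u ^ (22 : ℕ) * v ^ (8 : ℕ)
      + 47698242187500000000 * D.z ^ (4 : ℕ) * u ^ (21 : ℕ) * v ^ (9 : ℕ)
      - 111912890625000000000 * D.z ^ (4 : ℕ) * u ^ (20 : ℕ) * v ^ (10 : ℕ)
      + 97888183593750000000 * D.z ^ (4 : ℕ) * u ^ (19 : ℕ) * v ^ (11 : ℕ)
      - 54105468750000000000 * D.z ^ (4 : ℕ) * u ^ (18 : ℕ) * v ^ (12 : ℕ)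
      - 4093505859375000000 * D.z ^ (4 : ℕ) * u ^ (17 : ℕ) * v ^ (13 : ℕ)
      + 2847656250000000000 * D.z ^ (4 : ℕ) * u ^ (16 : ℕ) * v ^ (14 : ℕ)
      - 18367382812500000000 * D.z ^ (4 : ℕ) * u ^ (15 : ℕ) * v ^ (15 : ℕ)
      + 5695312500000000000 * D.z ^ (4 : ℕ) * u ^ (14 : ℕ) * v ^ (16 : ℕ)
      - 21535400390625000000 * D.z ^ (4 : ℕ) * u ^ (13 : ℕ) * v ^ (17 : ℕ)
      + 12280517578125000000 * D.z ^ (4 : ℕ) * u ^ (12 : ℕ) * v ^ (18 : ℕ)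
      - 8542968750000000000 * D.z ^ (4 : ℕ) * u ^ (11 : ℕ) * v ^ (19 : ℕ)
      + 7973437500000000000 * D.z ^ (4 : ℕ) * u ^ (10 : ℕ) * v ^ (20 : ℕ)
      - 6051269531250000000 * D.z ^ (4 : ℕ) * u ^ (9 : ℕ) * v ^ (21 : ℕ)
      + 3559570312500000000 * D.z ^ (4 : ℕ) * u ^ (8 : ℕ) * v ^ (22 : ℕ)
      - 3025634765625000000 * D.z ^ (4 : ℕ) * u ^ (7 : ℕ) * v ^ (23 : ℕ)
      + 711914062500000000 * D.z ^ (4 : ℕ) * u ^ (6 : ℕ) * v ^ (24 : ℕ)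
      - 1039394531250000000 * D.z ^ (4 : ℕ) * u ^ (5 : ℕ) * v ^ (25 : ℕ)
      + 427148437500000000 * D.z ^ (4 : ℕ) * u ^ (4 : ℕ) * v ^ (26 : ℕ)
      - 106787109375000000 * D.z ^ (4 : ℕ) * u ^ (3 : ℕ) * v ^ (27 : ℕ)
      + 177978515625000000 * D.z ^ (4 : ℕ) * u ^ (2 : ℕ) * v ^ (28 : ℕ)
      + 49833984375000000 * D.z ^ (4 : ℕ) * v ^ (30 : ℕ)
      - 113906250000000000 * D.z ^ (3 : ℕ) * u ^ (30 : ℕ)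
      - 391552734375000000 * D.z ^ (3 : ℕ) * u ^ (29 : ℕ) * v
      + 1637402343750000000 * D.z ^ (3 : ℕ) * u ^ (28 : ℕ) * v ^ (2 : ℕ)
      - 3951123046875000000 * D.z ^ (3 : ℕ) * u ^ (27 : ℕ) * v ^ (3 : ℕ)
      + 6585205078125000000 * D.z ^ (3 : ℕ) * u ^ (26 : ℕ) * v ^ (4 : ℕ)
      - 13298554687500000000 * D.z ^ (3 : ℕ) * u ^ (25 : ℕ) * v ^ (5 : ℕ)
      + 8542968750000000000 * D.z ^ (3 : ℕ) * u ^ (24 : ℕ) * v ^ (6 : ℕ)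
      + 7653076171875000000 * D.z ^ (3 : ℕ) * u ^ (23 : ℕ) * v ^ (7 : ℕ)
      - 40757080078125000000 * D.z ^ (3 : ℕ) * u ^ (22 : ℕ) * v ^ (8 : ℕ)
      + 70123535156250000000 * D.z ^ (3 : ℕ) * u ^ (21 : ℕ) * v ^ (9 : ℕ)
      - 129995507812500000000 * D.z ^ (3 : ℕ) * u ^ (20 : ℕ) * v ^ (10 : ℕ)
      + 135085693359375000000 * D.z ^ (3 : ℕ) * u ^ (19 : ℕ) * v ^ (11 : ℕ)
      - 112482421875000000000 * D.z ^ (3 : ℕ) * u ^ (18 : ℕ) * v ^ (12 : ℕ)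
      + 32926025390625000000 * D.z ^ (3 : ℕ) * u ^ (17 : ℕ) * v ^ (13 : ℕ)
      - 31502197265625000000 * D.z ^ (3 : ℕ) * u ^ (16 : ℕ) * v ^ (14 : ℕ)
      + 38158593750000000000 * D.z ^ (3 : ℕ) * u ^ (15 : ℕ) * v ^ (15 : ℕ)
      - 85429687500000000000 * D.z ^ (3 : ℕ) * u ^ (14 : ℕ) * v ^ (16 : ℕ)
      + 44316650390625000000 * D.z ^ (3 : ℕ) * u ^ (13 : ℕ) * v ^ (17 : ℕ)
      - 11212646484375000000 * D.z ^ (3 : ℕ) * u ^ (12 : ℕ) * v ^ (18 : ℕ)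
      + 8187011718750000000 * D.z ^ (3 : ℕ) * u ^ (11 : ℕ) * v ^ (19 : ℕ)
      - 4556250000000000000 * D.z ^ (3 : ℕ) * u ^ (10 : ℕ) * v ^ (20 : ℕ)
      + 13704345703125000000 * D.z ^ (3 : ℕ) * u ^ (9 : ℕ) * v ^ (21 : ℕ)
      - 4271484375000000000 * D.z ^ (3 : ℕ) * u ^ (8 : ℕ) * v ^ (22 : ℕ)
      + 1957763671875000000 * D.z ^ (3 : ℕ) * u ^ (7 : ℕ) * v ^ (23 : ℕ)
      - 533935546875000000 * D.z ^ (3 : ℕ) * u ^ (6 : ℕ) * v ^ (24 : ℕ)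
      + 512578125000000000 * D.z ^ (3 : ℕ) * u ^ (5 : ℕ) * v ^ (25 : ℕ)
      - 640722656250000000 * D.z ^ (3 : ℕ) * u ^ (4 : ℕ) * v ^ (26 : ℕ)
      + 106787109375000000 * D.z ^ (3 : ℕ) * u ^ (3 : ℕ) * v ^ (27 : ℕ)
      - 106787109375000000 * D.z ^ (3 : ℕ) * u ^ (2 : ℕ) * v ^ (28 : ℕ)
      - 28476562500000000 * D.z ^ (3 : ℕ) * v ^ (30 : ℕ)
      - 320361328125000000 * D.z ^ (2 : ℕ) * u ^ (29 : ℕ) * v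
      + 605126953125000000 * D.z ^ (2 : ℕ) * u ^ (28 : ℕ) * v ^ (2 : ℕ)
      - 284765625000000000 * D.z ^ (2 : ℕ) * u ^ (27 : ℕ) * v ^ (3 : ℕ)
      - 3203613281250000000 * D.z ^ (2 : ℕ) * u ^ (26 : ℕ) * v ^ (4 : ℕ)
      + 13063623046875000000 * D.z ^ (2 : ℕ) * u ^ (25 : ℕ) * v ^ (5 : ℕ)
      - 43960693359375000000 * D.z ^ (2 : ℕ) * u ^ (24 : ℕ) * v ^ (6 : ℕ)
      + 98600097656250000000 * D.z ^ (2 : ℕ) * u ^ (23 : ℕ) * v ^ (7 : ℕ)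
      - 186699462890625000000 * D.z ^ (2 : ℕ) * u ^ (22 : ℕ) * v ^ (8 : ℕ)
      + 289037109375000000000 * D.z ^ (2 : ℕ) * u ^ (21 : ℕ) * v ^ (9 : ℕ)
      - 404189208984375000000 * D.z ^ (2 : ℕ) * u ^ (20 : ℕ) * v ^ (10 : ℕ)
      + 445480224609375000000 * D.z ^ (2 : ℕ) * u ^ (19 : ℕ) * v ^ (11 : ℕ)
      - 434801513671875000000 * D.z ^ (2 : ℕ) * u ^ (18 : ℕ) * v ^ (12 : ℕ)
      + 316089843750000000000 * D.z ^ (2 : ℕ) * u ^ (17 : ℕ) * v ^ (13 : ℕ)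
      - 211260498046875000000 * D.z ^ (2 : ℕ) * u ^ (16 : ℕ) * v ^ (14 : ℕ)
      + 75996826171875000000 * D.z ^ (2 : ℕ) * u ^ (15 : ℕ) * v ^ (15 : ℕ)
      - 70479492187500000000 * D.z ^ (2 : ℕ) * u ^ (14 : ℕ) * v ^ (16 : ℕ)
      + 24916992187500000000 * D.z ^ (2 : ℕ) * u ^ (13 : ℕ) * v ^ (17 : ℕ)
      - 49300048828125000000 * D.z ^ (2 : ℕ) * u ^ (12 : ℕ) * v ^ (18 : ℕ)
      + 15306152343750000000 * D.z ^ (2 : ℕ) * u ^ (11 : ℕ) * v ^ (19 : ℕ)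
      - 32036132812500000000 * D.z ^ (2 : ℕ) * u ^ (10 : ℕ) * v ^ (20 : ℕ)
      - 5161376953125000000 * D.z ^ (2 : ℕ) * u ^ (9 : ℕ) * v ^ (21 : ℕ)
      + 1067871093750000000 * D.z ^ (2 : ℕ) * u ^ (8 : ℕ) * v ^ (22 : ℕ)
      - 1423828125000000000 * D.z ^ (2 : ℕ) * u ^ (7 : ℕ) * v ^ (23 : ℕ)
      - 533935546875000000 * D.z ^ (2 : ℕ) * u ^ (6 : ℕ) * v ^ (24 : ℕ)
      + 3737548828125000000 * D.z ^ (2 : ℕ) * u ^ (5 : ℕ) * v ^ (25 : ℕ)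
      + 462744140625000000 * D.z ^ (2 : ℕ) * u ^ (4 : ℕ) * v ^ (26 : ℕ)
      - 142382812500000000 * D.z ^ (2 : ℕ) * u ^ (3 : ℕ) * v ^ (27 : ℕ)
      + 213574218750000000 * D.z ^ (2 : ℕ) * u ^ (2 : ℕ) * v ^ (28 : ℕ)
      - 142382812500000000 * D.z ^ (2 : ℕ) * v ^ (30 : ℕ)
      - 462744140625000000 * D.z * u ^ (28 : ℕ) * v ^ (2 : ℕ)
      + 2634082031250000000 * D.z * u ^ (27 : ℕ) * v ^ (3 : ℕ)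
      - 8542968750000000000 * D.z * u ^ (26 : ℕ) * v ^ (4 : ℕ)
      + 22104931640625000000 * D.z * u ^ (25 : ℕ) * v ^ (5 : ℕ)
      - 50367919921875000000 * D.z * u ^ (24 : ℕ) * v ^ (6 : ℕ)
      + 96642333984375000000 * D.z * u ^ (23 : ℕ) * v ^ (7 : ℕ)
      - 156443115234375000000 * D.z * u ^ (22 : ℕ) * v ^ (8 : ℕ)
      + 226744628906250000000 * D.z * u ^ (21 : ℕ) * v ^ (9 : ℕ)
      - 294020507812500000000 * D.z * u ^ (20 : ℕ) * v ^ (10 : ℕ)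
      + 331751953125000000000 * D.z * u ^ (19 : ℕ) * v ^ (11 : ℕ)
      - 321251220703125000000 * D.z * u ^ (18 : ℕ) * v ^ (12 : ℕ)
      + 293664550781250000000 * D.z * u ^ (17 : ℕ) * v ^ (13 : ℕ)
      - 243296630859375000000 * D.z * u ^ (16 : ℕ) * v ^ (14 : ℕ)
      + 187411376953125000000 * D.z * u ^ (15 : ℕ) * v ^ (15 : ℕ)
      - 105363281250000000000 * D.z * u ^ (14 : ℕ) * v ^ (16 : ℕ)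
      + 67809814453125000000 * D.z * u ^ (13 : ℕ) * v ^ (17 : ℕ)
      - 37909423828125000000 * D.z * u ^ (12 : ℕ) * v ^ (18 : ℕ)
      + 38443359375000000000 * D.z * u ^ (11 : ℕ) * v ^ (19 : ℕ)
      - 14416259765625000000 * D.z * u ^ (10 : ℕ) * v ^ (20 : ℕ)
      + 9966796875000000000 * D.z * u ^ (9 : ℕ) * v ^ (21 : ℕ)
      - 5695312500000000000 * D.z * u ^ (8 : ℕ) * v ^ (22 : ℕ)
      - 711914062500000000 * D.z * u ^ (7 : ℕ) * v ^ (23 : ℕ)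
      - 2313720703125000000 * D.z * u ^ (6 : ℕ) * v ^ (24 : ℕ)
      - 1601806640625000000 * D.z * u ^ (5 : ℕ) * v ^ (25 : ℕ)
      - 533935546875000000 * D.z * u ^ (4 : ℕ) * v ^ (26 : ℕ)
      + 35595703125000000 * D.z * u ^ (3 : ℕ) * v ^ (27 : ℕ)
      + 71191406250000000 * D.z * u ^ (2 : ℕ) * v ^ (28 : ℕ)
      + 106787109375000000 * D.z * v ^ (30 : ℕ) - 28476562500000000 * u ^ (30 : ℕ)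
      + 71191406250000000 * u ^ (29 : ℕ) * v + 35595703125000000 * u ^ (28 : ℕ) * v ^ (2 : ℕ)
      - 961083984375000000 * u ^ (27 : ℕ) * v ^ (3 : ℕ)
      + 4627441406250000000 * u ^ (26 : ℕ) * v ^ (4 : ℕ)
      - 15640751953125000000 * u ^ (25 : ℕ) * v ^ (5 : ℕ)
      + 40757080078125000000 * u ^ (24 : ℕ) * v ^ (6 : ℕ)
      - 88277343750000000000 * u ^ (23 : ℕ) * v ^ (7 : ℕ)
      + 164808105468750000000 * u ^ (22 : ℕ) * v ^ (8 : ℕ)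
      - 266611816406250000000 * u ^ (21 : ℕ) * v ^ (9 : ℕ)
      + 371868310546875000000 * u ^ (20 : ℕ) * v ^ (10 : ℕ)
      - 448149902343750000000 * u ^ (19 : ℕ) * v ^ (11 : ℕ)
      + 465413818359375000000 * u ^ (18 : ℕ) * v ^ (12 : ℕ)
      - 403477294921875000000 * u ^ (17 : ℕ) * v ^ (13 : ℕ)
      + 282807861328125000000 * u ^ (16 : ℕ) * v ^ (14 : ℕ)
      - 158294091796875000000 * u ^ (15 : ℕ) * v ^ (15 : ℕ)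
      + 94328613281250000000 * u ^ (14 : ℕ) * v ^ (16 : ℕ)
      - 80446289062500000000 * u ^ (13 : ℕ) * v ^ (17 : ℕ)
      + 72971191406250000000 * u ^ (12 : ℕ) * v ^ (18 : ℕ)
      - 37731445312500000000 * u ^ (11 : ℕ) * v ^ (19 : ℕ)
      + 10607519531250000000 * u ^ (10 : ℕ) * v ^ (20 : ℕ)
      - 2491699218750000000 * u ^ (9 : ℕ) * v ^ (21 : ℕ)
      + 6051269531250000000 * u ^ (8 : ℕ) * v ^ (22 : ℕ)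
      - 1957763671875000000 * u ^ (7 : ℕ) * v ^ (23 : ℕ)
      + 1957763671875000000 * u ^ (6 : ℕ) * v ^ (24 : ℕ)
      + 1729951171875000000 * u ^ (5 : ℕ) * v ^ (25 : ℕ)
      + 35595703125000000 * u ^ (4 : ℕ) * v ^ (26 : ℕ)
      - 71191406250000000 * u ^ (3 : ℕ) * v ^ (27 : ℕ)
      - 35595703125000000 * u ^ (2 : ℕ) * v ^ (28 : ℕ) - 113906250000000000 * v ^ (30 : ℕ)) * D.hz

/-- chord identity (y): `P - Q = Q∘S` -/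
theorem chord_y (D : KleinData R) (u v : R) :
    (D.s5 * D.YQS u v + 5 ^ (8 : ℕ) * D.yP u v) * (D.XQ u v - 5 ^ (5 : ℕ) * D.xP u v) = (D.s5 * D.YQ u v + 5 ^ (8 : ℕ) * D.yP u v) * (D.XQS u v - 5 ^ (5 : ℕ) * D.xP u v) := by
  try simp only [s5, m1, m2, Mu, Mv, Su, Sv, b0, b1, b2, b3, b0c, xPP, yBB, yPP, xP, yP, PQ1, PQ2, XQ, YQ, XQS, YQS, klFF, klHH, klTT, klA, klB, klf, klH, klT]
  linear_combination (94921875000000 * D.z ^ (5 : ℕ) * u ^ (24 : ℕ) * v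
      + 284765625000000 * D.z ^ (5 : ℕ) * u ^ (23 : ℕ) * v ^ (2 : ℕ)
      - 284765625000000 * D.z ^ (5 : ℕ) * u ^ (19 : ℕ) * v ^ (6 : ℕ)
      + 2467968750000000 * D.z ^ (5 : ℕ) * u ^ (18 : ℕ) * v ^ (7 : ℕ)
      - 14807812500000000 * D.z ^ (5 : ℕ) * u ^ (14 : ℕ) * v ^ (11 : ℕ)
      - 7403906250000000 * D.z ^ (5 : ℕ) * u ^ (13 : ℕ) * v ^ (12 : ℕ)
      + 284765625000000 * D.z ^ (5 : ℕ) * u ^ (9 : ℕ) * v ^ (16 : ℕ)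
      + 2752734375000000 * D.z ^ (5 : ℕ) * u ^ (8 : ℕ) * v ^ (17 : ℕ)
      + 94921875000000 * D.z ^ (5 : ℕ) * u ^ (4 : ℕ) * v ^ (21 : ℕ)
      - 189843750000000 * D.z ^ (5 : ℕ) * u ^ (3 : ℕ) * v ^ (22 : ℕ)
      + 284765625000000 * D.z ^ (4 : ℕ) * u ^ (24 : ℕ) * v
      + 474609375000000 * D.z ^ (4 : ℕ) * u ^ (23 : ℕ) * v ^ (2 : ℕ)
      - 569531250000000 * D.z ^ (4 : ℕ) * u ^ (22 : ℕ) * v ^ (3 : ℕ)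
      + 94921875000000 * D.z ^ (4 : ℕ) * u ^ (19 : ℕ) * v ^ (6 : ℕ)
      + 4271484375000000 * D.z ^ (4 : ℕ) * u ^ (18 : ℕ) * v ^ (7 : ℕ)
      - 6359765625000000 * D.z ^ (4 : ℕ) * u ^ (17 : ℕ) * v ^ (8 : ℕ)
      - 33507421875000000 * D.z ^ (4 : ℕ) * u ^ (14 : ℕ) * v ^ (11 : ℕ)
      - 10916015625000000 * D.z ^ (4 : ℕ) * u ^ (13 : ℕ) * v ^ (12 : ℕ)
      - 379687500000000 * D.z ^ (4 : ℕ) * u ^ (12 : ℕ) * v ^ (13 : ℕ)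
      + 5125781250000000 * D.z ^ (4 : ℕ) * u ^ (9 : ℕ) * v ^ (16 : ℕ)
      + 949218750000000 * D.z ^ (4 : ℕ) * u ^ (8 : ℕ) * v ^ (17 : ℕ)
      + 1139062500000000 * D.z ^ (4 : ℕ) * u ^ (7 : ℕ) * v ^ (18 : ℕ)
      - 189843750000000 * D.z ^ (4 : ℕ) * u ^ (4 : ℕ) * v ^ (21 : ℕ)
      - 94921875000000 * D.z ^ (4 : ℕ) * u ^ (2 : ℕ) * v ^ (23 : ℕ)
      + 379687500000000 * D.z ^ (3 : ℕ) * u ^ (24 : ℕ) * v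
      + 94921875000000 * D.z ^ (3 : ℕ) * u ^ (23 : ℕ) * v ^ (2 : ℕ)
      - 854296875000000 * D.z ^ (3 : ℕ) * u ^ (22 : ℕ) * v ^ (3 : ℕ)
      + 949218750000000 * D.z ^ (3 : ℕ) * u ^ (21 : ℕ) * v ^ (4 : ℕ)
      + 2183203125000000 * D.z ^ (3 : ℕ) * u ^ (19 : ℕ) * v ^ (6 : ℕ)
      + 2088281250000000 * D.z ^ (3 : ℕ) * u ^ (18 : ℕ) * v ^ (7 : ℕ)
      - 8827734375000000 * D.z ^ (3 : ℕ) * u ^ (17 : ℕ) * v ^ (8 : ℕ)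
      + 10916015625000000 * D.z ^ (3 : ℕ) * u ^ (16 : ℕ) * v ^ (9 : ℕ)
      - 22211718750000000 * D.z ^ (3 : ℕ) * u ^ (14 : ℕ) * v ^ (11 : ℕ)
      + 11295703125000000 * D.z ^ (3 : ℕ) * u ^ (13 : ℕ) * v ^ (12 : ℕ)
      + 7024218750000000 * D.z ^ (3 : ℕ) * u ^ (12 : ℕ) * v ^ (13 : ℕ)
      + 4271484375000000 * D.z ^ (3 : ℕ) * u ^ (11 : ℕ) * v ^ (14 : ℕ)
      + 3037500000000000 * D.z ^ (3 : ℕ) * u ^ (9 : ℕ) * v ^ (16 : ℕ)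
      - 2088281250000000 * D.z ^ (3 : ℕ) * u ^ (8 : ℕ) * v ^ (17 : ℕ)
      - 1613671875000000 * D.z ^ (3 : ℕ) * u ^ (7 : ℕ) * v ^ (18 : ℕ)
      - 474609375000000 * D.z ^ (3 : ℕ) * u ^ (6 : ℕ) * v ^ (19 : ℕ)
      - 94921875000000 * D.z ^ (3 : ℕ) * u ^ (4 : ℕ) * v ^ (21 : ℕ)
      + 94921875000000 * D.z ^ (3 : ℕ) * u ^ (3 : ℕ) * v ^ (22 : ℕ)
      + 94921875000000 * D.z ^ (3 : ℕ) * u ^ (2 : ℕ) * v ^ (23 : ℕ)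
      + 237304687500000 * D.z ^ (2 : ℕ) * u ^ (24 : ℕ) * v
      + 47460937500000 * D.z ^ (2 : ℕ) * u ^ (23 : ℕ) * v ^ (2 : ℕ)
      - 284765625000000 * D.z ^ (2 : ℕ) * u ^ (22 : ℕ) * v ^ (3 : ℕ)
      + 949218750000000 * D.z ^ (2 : ℕ) * u ^ (21 : ℕ) * v ^ (4 : ℕ)
      + 1661132812500000 * D.z ^ (2 : ℕ) * u ^ (19 : ℕ) * v ^ (6 : ℕ)
      + 1518750000000000 * D.z ^ (2 : ℕ) * u ^ (18 : ℕ) * v ^ (7 : ℕ)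
      - 2467968750000000 * D.z ^ (2 : ℕ) * u ^ (17 : ℕ) * v ^ (8 : ℕ)
      + 10916015625000000 * D.z ^ (2 : ℕ) * u ^ (16 : ℕ) * v ^ (9 : ℕ)
      - 10916015625000000 * D.z ^ (2 : ℕ) * u ^ (14 : ℕ) * v ^ (11 : ℕ)
      + 11105859375000000 * D.z ^ (2 : ℕ) * u ^ (13 : ℕ) * v ^ (12 : ℕ)
      + 7403906250000000 * D.z ^ (2 : ℕ) * u ^ (12 : ℕ) * v ^ (13 : ℕ)
      + 4271484375000000 * D.z ^ (2 : ℕ) * u ^ (11 : ℕ) * v ^ (14 : ℕ)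
      - 1661132812500000 * D.z ^ (2 : ℕ) * u ^ (9 : ℕ) * v ^ (16 : ℕ)
      + 1091601562500000 * D.z ^ (2 : ℕ) * u ^ (8 : ℕ) * v ^ (17 : ℕ)
      - 2752734375000000 * D.z ^ (2 : ℕ) * u ^ (7 : ℕ) * v ^ (18 : ℕ)
      - 474609375000000 * D.z ^ (2 : ℕ) * u ^ (6 : ℕ) * v ^ (19 : ℕ)
      + 237304687500000 * D.z ^ (2 : ℕ) * u ^ (4 : ℕ) * v ^ (21 : ℕ)
      - 189843750000000 * D.z ^ (2 : ℕ) * u ^ (3 : ℕ) * v ^ (22 : ℕ)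
      + 189843750000000 * D.z ^ (2 : ℕ) * u ^ (2 : ℕ) * v ^ (23 : ℕ)
      + 94921875000000 * D.z * u ^ (24 : ℕ) * v + 94921875000000 * D.z * u ^ (23 : ℕ) * v ^ (2 : ℕ)
      - 284765625000000 * D.z * u ^ (22 : ℕ) * v ^ (3 : ℕ)
      + 189843750000000 * D.z * u ^ (19 : ℕ) * v ^ (6 : ℕ)
      + 901757812500000 * D.z * u ^ (18 : ℕ) * v ^ (7 : ℕ)
      - 3179882812500000 * D.z * u ^ (17 : ℕ) * v ^ (8 : ℕ)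
      - 9349804687500000 * D.z * u ^ (14 : ℕ) * v ^ (11 : ℕ)
      - 1756054687500000 * D.z * u ^ (13 : ℕ) * v ^ (12 : ℕ)
      - 189843750000000 * D.z * u ^ (12 : ℕ) * v ^ (13 : ℕ)
      + 2420507812500000 * D.z * u ^ (9 : ℕ) * v ^ (16 : ℕ)
      - 901757812500000 * D.z * u ^ (8 : ℕ) * v ^ (17 : ℕ)
      + 569531250000000 * D.z * u ^ (7 : ℕ) * v ^ (18 : ℕ)
      - 142382812500000 * D.z * u ^ (4 : ℕ) * v ^ (21 : ℕ)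
      + 94921875000000 * D.z * u ^ (3 : ℕ) * v ^ (22 : ℕ)
      - 47460937500000 * D.z * u ^ (2 : ℕ) * v ^ (23 : ℕ) + 94921875000000 * u ^ (24 : ℕ) * v
      - 47460937500000 * u ^ (23 : ℕ) * v ^ (2 : ℕ) - 142382812500000 * u ^ (22 : ℕ) * v ^ (3 : ℕ)
      + 474609375000000 * u ^ (21 : ℕ) * v ^ (4 : ℕ) + 901757812500000 * u ^ (19 : ℕ) * v ^ (6 : ℕ)
      + 142382812500000 * u ^ (18 : ℕ) * v ^ (7 : ℕ) - 1233984375000000 * u ^ (17 : ℕ) * v ^ (8 : ℕ)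
      + 5458007812500000 * u ^ (16 : ℕ) * v ^ (9 : ℕ)
      - 1756054687500000 * u ^ (14 : ℕ) * v ^ (11 : ℕ)
      + 7403906250000000 * u ^ (13 : ℕ) * v ^ (12 : ℕ)
      + 3701953125000000 * u ^ (12 : ℕ) * v ^ (13 : ℕ)
      + 2135742187500000 * u ^ (11 : ℕ) * v ^ (14 : ℕ)
      - 901757812500000 * u ^ (9 : ℕ) * v ^ (16 : ℕ) - 142382812500000 * u ^ (8 : ℕ) * v ^ (17 : ℕ)
      - 1376367187500000 * u ^ (7 : ℕ) * v ^ (18 : ℕ) - 237304687500000 * u ^ (6 : ℕ) * v ^ (19 : ℕ)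
      + 94921875000000 * u ^ (4 : ℕ) * v ^ (21 : ℕ) - 47460937500000 * u ^ (3 : ℕ) * v ^ (22 : ℕ)
      + 94921875000000 * u ^ (2 : ℕ) * v ^ (23 : ℕ)) * D.hz

/-- cofactor for `XQ - 5⁵ xP ∣ 562500 f²` -/
def C1 (D : KleinData R) (u v : R) : R :=
  D.z ^ (3 : ℕ) * u ^ (12 : ℕ) * v ^ (2 : ℕ) + 5 * D.z ^ (3 : ℕ) * u ^ (11 : ℕ) * v ^ (3 : ℕ)
    + 10 * D.z ^ (3 : ℕ) * u ^ (10 : ℕ) * v ^ (4 : ℕ)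
    + 10 * D.z ^ (3 : ℕ) * u ^ (9 : ℕ) * v ^ (5 : ℕ)
    - 14 * D.z ^ (3 : ℕ) * u ^ (7 : ℕ) * v ^ (7 : ℕ)
    - 10 * D.z ^ (3 : ℕ) * u ^ (6 : ℕ) * v ^ (8 : ℕ) + 5 * D.z ^ (3 : ℕ) * u ^ (5 : ℕ) * v ^ (9 : ℕ)
    + 5 * D.z ^ (3 : ℕ) * u ^ (4 : ℕ) * v ^ (10 : ℕ) - D.z ^ (3 : ℕ) * u ^ (2 : ℕ) * v ^ (12 : ℕ)
    + D.z ^ (2 : ℕ) * u ^ (12 : ℕ) * v ^ (2 : ℕ) + 5 * D.z ^ (2 : ℕ) * u ^ (11 : ℕ) * v ^ (3 : ℕ)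
    + 10 * D.z ^ (2 : ℕ) * u ^ (10 : ℕ) * v ^ (4 : ℕ)
    + 10 * D.z ^ (2 : ℕ) * u ^ (9 : ℕ) * v ^ (5 : ℕ)
    - 14 * D.z ^ (2 : ℕ) * u ^ (7 : ℕ) * v ^ (7 : ℕ)
    - 10 * D.z ^ (2 : ℕ) * u ^ (6 : ℕ) * v ^ (8 : ℕ) + 5 * D.z ^ (2 : ℕ) * u ^ (5 : ℕ) * v ^ (9 : ℕ)
    + 5 * D.z ^ (2 : ℕ) * u ^ (4 : ℕ) * v ^ (10 : ℕ) - D.z ^ (2 : ℕ) * u ^ (2 : ℕ) * v ^ (12 : ℕ)
    + 3 * u ^ (12 : ℕ) * v ^ (2 : ℕ) + 10 * u ^ (11 : ℕ) * v ^ (3 : ℕ)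
    + 15 * u ^ (10 : ℕ) * v ^ (4 : ℕ) + 15 * u ^ (9 : ℕ) * v ^ (5 : ℕ)
    - 7 * u ^ (7 : ℕ) * v ^ (7 : ℕ) + 5 * u ^ (6 : ℕ) * v ^ (8 : ℕ) - 5 * u ^ (5 : ℕ) * v ^ (9 : ℕ)
    - 5 * u ^ (4 : ℕ) * v ^ (10 : ℕ) + 2 * u ^ (2 : ℕ) * v ^ (12 : ℕ)

/-- cofactor for `XQ - 5⁵ xP∘U ∣ 562500 f²` -/
def C2 (D : KleinData R) (u v : R) : R :=
  -D.z ^ (3 : ℕ) * u ^ (12 : ℕ) * v ^ (2 : ℕ) - 5 * D.z ^ (3 : ℕ) * u ^ (11 : ℕ) * v ^ (3 : ℕ)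
    - 10 * D.z ^ (3 : ℕ) * u ^ (10 : ℕ) * v ^ (4 : ℕ)
    - 10 * D.z ^ (3 : ℕ) * u ^ (9 : ℕ) * v ^ (5 : ℕ)
    + 14 * D.z ^ (3 : ℕ) * u ^ (7 : ℕ) * v ^ (7 : ℕ)
    + 10 * D.z ^ (3 : ℕ) * u ^ (6 : ℕ) * v ^ (8 : ℕ) - 5 * D.z ^ (3 : ℕ) * u ^ (5 : ℕ) * v ^ (9 : ℕ)
    - 5 * D.z ^ (3 : ℕ) * u ^ (4 : ℕ) * v ^ (10 : ℕ) + D.z ^ (3 : ℕ) * u ^ (2 : ℕ) * v ^ (12 : ℕ)
    - D.z ^ (2 : ℕ) * u ^ (12 : ℕ) * v ^ (2 : ℕ) - 5 * D.z ^ (2 : ℕ) * u ^ (11 : ℕ) * v ^ (3 : ℕ)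
    - 10 * D.z ^ (2 : ℕ) * u ^ (10 : ℕ) * v ^ (4 : ℕ)
    - 10 * D.z ^ (2 : ℕ) * u ^ (9 : ℕ) * v ^ (5 : ℕ)
    + 14 * D.z ^ (2 : ℕ) * u ^ (7 : ℕ) * v ^ (7 : ℕ)
    + 10 * D.z ^ (2 : ℕ) * u ^ (6 : ℕ) * v ^ (8 : ℕ) - 5 * D.z ^ (2 : ℕ) * u ^ (5 : ℕ) * v ^ (9 : ℕ)
    - 5 * D.z ^ (2 : ℕ) * u ^ (4 : ℕ) * v ^ (10 : ℕ) + D.z ^ (2 : ℕ) * u ^ (2 : ℕ) * v ^ (12 : ℕ)
    + 2 * u ^ (12 : ℕ) * v ^ (2 : ℕ) + 5 * u ^ (11 : ℕ) * v ^ (3 : ℕ)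
    + 5 * u ^ (10 : ℕ) * v ^ (4 : ℕ) + 5 * u ^ (9 : ℕ) * v ^ (5 : ℕ) + 7 * u ^ (7 : ℕ) * v ^ (7 : ℕ)
    + 15 * u ^ (6 : ℕ) * v ^ (8 : ℕ) - 10 * u ^ (5 : ℕ) * v ^ (9 : ℕ)
    - 10 * u ^ (4 : ℕ) * v ^ (10 : ℕ) + 3 * u ^ (2 : ℕ) * v ^ (12 : ℕ)

theorem indep1 (D : KleinData R) (u v : R) :
    (D.XQ u v - 5 ^ (5 : ℕ) * D.xP u v) * D.C1 u v = 562500 * klf u v ^ (2 : ℕ) := by
  try simp only [s5, m1, m2, Mu, Mv, Su, Sv, b0, b1, b2, b3, b0c, xPP, yBB, yPP, xP, yP, PQ1, PQ2, XQ, YQ, XQS, YQS, klFF, klHH, klTT, klA, klB, klf, klH, klT, C1, C2]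
  linear_combination (-112500 * D.z ^ (2 : ℕ) * u ^ (22 : ℕ) * v ^ (2 : ℕ)
      - 562500 * D.z ^ (2 : ℕ) * u ^ (21 : ℕ) * v ^ (3 : ℕ)
      - 1125000 * D.z ^ (2 : ℕ) * u ^ (20 : ℕ) * v ^ (4 : ℕ)
      - 1125000 * D.z ^ (2 : ℕ) * u ^ (19 : ℕ) * v ^ (5 : ℕ)
      + 337500 * D.z ^ (2 : ℕ) * u ^ (17 : ℕ) * v ^ (7 : ℕ)
      - 5062500 * D.z ^ (2 : ℕ) * u ^ (16 : ℕ) * v ^ (8 : ℕ)
      - 12937500 * D.z ^ (2 : ℕ) * u ^ (15 : ℕ) * v ^ (9 : ℕ)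
      - 12937500 * D.z ^ (2 : ℕ) * u ^ (14 : ℕ) * v ^ (10 : ℕ)
      + 17550000 * D.z ^ (2 : ℕ) * u ^ (12 : ℕ) * v ^ (12 : ℕ)
      + 12937500 * D.z ^ (2 : ℕ) * u ^ (11 : ℕ) * v ^ (13 : ℕ)
      - 5062500 * D.z ^ (2 : ℕ) * u ^ (10 : ℕ) * v ^ (14 : ℕ)
      - 5062500 * D.z ^ (2 : ℕ) * u ^ (9 : ℕ) * v ^ (15 : ℕ)
      - 337500 * D.z ^ (2 : ℕ) * u ^ (7 : ℕ) * v ^ (17 : ℕ)
      - 1125000 * D.z ^ (2 : ℕ) * u ^ (6 : ℕ) * v ^ (18 : ℕ)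
      + 562500 * D.z ^ (2 : ℕ) * u ^ (5 : ℕ) * v ^ (19 : ℕ)
      + 562500 * D.z ^ (2 : ℕ) * u ^ (4 : ℕ) * v ^ (20 : ℕ)
      - 112500 * D.z ^ (2 : ℕ) * u ^ (2 : ℕ) * v ^ (22 : ℕ)
      - 112500 * D.z * u ^ (22 : ℕ) * v ^ (2 : ℕ) - 562500 * D.z * u ^ (21 : ℕ) * v ^ (3 : ℕ)
      - 1125000 * D.z * u ^ (20 : ℕ) * v ^ (4 : ℕ) - 1125000 * D.z * u ^ (19 : ℕ) * v ^ (5 : ℕ)
      + 337500 * D.z * u ^ (17 : ℕ) * v ^ (7 : ℕ) - 5062500 * D.z * u ^ (16 : ℕ) * v ^ (8 : ℕ)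
      - 12937500 * D.z * u ^ (15 : ℕ) * v ^ (9 : ℕ) - 12937500 * D.z * u ^ (14 : ℕ) * v ^ (10 : ℕ)
      + 17550000 * D.z * u ^ (12 : ℕ) * v ^ (12 : ℕ) + 12937500 * D.z * u ^ (11 : ℕ) * v ^ (13 : ℕ)
      - 5062500 * D.z * u ^ (10 : ℕ) * v ^ (14 : ℕ) - 5062500 * D.z * u ^ (9 : ℕ) * v ^ (15 : ℕ)
      - 337500 * D.z * u ^ (7 : ℕ) * v ^ (17 : ℕ) - 1125000 * D.z * u ^ (6 : ℕ) * v ^ (18 : ℕ)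
      + 562500 * D.z * u ^ (5 : ℕ) * v ^ (19 : ℕ) + 562500 * D.z * u ^ (4 : ℕ) * v ^ (20 : ℕ)
      - 112500 * D.z * u ^ (2 : ℕ) * v ^ (22 : ℕ) + 112500 * u ^ (22 : ℕ) * v ^ (2 : ℕ)
      + 562500 * u ^ (21 : ℕ) * v ^ (3 : ℕ) + 1125000 * u ^ (20 : ℕ) * v ^ (4 : ℕ)
      + 1125000 * u ^ (19 : ℕ) * v ^ (5 : ℕ) - 337500 * u ^ (17 : ℕ) * v ^ (7 : ℕ)
      + 5062500 * u ^ (16 : ℕ) * v ^ (8 : ℕ) + 12937500 * u ^ (15 : ℕ) * v ^ (9 : ℕ)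
      + 12937500 * u ^ (14 : ℕ) * v ^ (10 : ℕ) - 17550000 * u ^ (12 : ℕ) * v ^ (12 : ℕ)
      - 12937500 * u ^ (11 : ℕ) * v ^ (13 : ℕ) + 5062500 * u ^ (10 : ℕ) * v ^ (14 : ℕ)
      + 5062500 * u ^ (9 : ℕ) * v ^ (15 : ℕ) + 337500 * u ^ (7 : ℕ) * v ^ (17 : ℕ)
      + 1125000 * u ^ (6 : ℕ) * v ^ (18 : ℕ) - 562500 * u ^ (5 : ℕ) * v ^ (19 : ℕ)
      - 562500 * u ^ (4 : ℕ) * v ^ (20 : ℕ) + 112500 * u ^ (2 : ℕ) * v ^ (22 : ℕ)) * D.hz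

theorem indep2 (D : KleinData R) (u v : R) :
    (D.XQ u v - 5 ^ (5 : ℕ) * D.xPP (-v ^ (5 : ℕ)) (u ^ (5 : ℕ))) * D.C2 u v = 562500 * klf u v ^ (2 : ℕ) := by
  try simp only [s5, m1, m2, Mu, Mv, Su, Sv, b0, b1, b2, b3, b0c, xPP, yBB, yPP, xP, yP, PQ1, PQ2, XQ, YQ, XQS, YQS, klFF, klHH, klTT, klA, klB, klf, klH, klT, C1, C2]
  linear_combination (-112500 * D.z ^ (2 : ℕ) * u ^ (22 : ℕ) * v ^ (2 : ℕ)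
      - 562500 * D.z ^ (2 : ℕ) * u ^ (21 : ℕ) * v ^ (3 : ℕ)
      - 1125000 * D.z ^ (2 : ℕ) * u ^ (20 : ℕ) * v ^ (4 : ℕ)
      - 1125000 * D.z ^ (2 : ℕ) * u ^ (19 : ℕ) * v ^ (5 : ℕ)
      + 337500 * D.z ^ (2 : ℕ) * u ^ (17 : ℕ) * v ^ (7 : ℕ)
      - 5062500 * D.z ^ (2 : ℕ) * u ^ (16 : ℕ) * v ^ (8 : ℕ)
      - 12937500 * D.z ^ (2 : ℕ) * u ^ (15 : ℕ) * v ^ (9 : ℕ)
      - 12937500 * D.z ^ (2 : ℕ) * u ^ (14 : ℕ) * v ^ (10 : ℕ)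
      + 17550000 * D.z ^ (2 : ℕ) * u ^ (12 : ℕ) * v ^ (12 : ℕ)
      + 12937500 * D.z ^ (2 : ℕ) * u ^ (11 : ℕ) * v ^ (13 : ℕ)
      - 5062500 * D.z ^ (2 : ℕ) * u ^ (10 : ℕ) * v ^ (14 : ℕ)
      - 5062500 * D.z ^ (2 : ℕ) * u ^ (9 : ℕ) * v ^ (15 : ℕ)
      - 337500 * D.z ^ (2 : ℕ) * u ^ (7 : ℕ) * v ^ (17 : ℕ)
      - 1125000 * D.z ^ (2 : ℕ) * u ^ (6 : ℕ) * v ^ (18 : ℕ)
      + 562500 * D.z ^ (2 : ℕ) * u ^ (5 : ℕ) * v ^ (19 : ℕ)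
      + 562500 * D.z ^ (2 : ℕ) * u ^ (4 : ℕ) * v ^ (20 : ℕ)
      - 112500 * D.z ^ (2 : ℕ) * u ^ (2 : ℕ) * v ^ (22 : ℕ)
      - 112500 * D.z * u ^ (22 : ℕ) * v ^ (2 : ℕ) - 562500 * D.z * u ^ (21 : ℕ) * v ^ (3 : ℕ)
      - 1125000 * D.z * u ^ (20 : ℕ) * v ^ (4 : ℕ) - 1125000 * D.z * u ^ (19 : ℕ) * v ^ (5 : ℕ)
      + 337500 * D.z * u ^ (17 : ℕ) * v ^ (7 : ℕ) - 5062500 * D.z * u ^ (16 : ℕ) * v ^ (8 : ℕ)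
      - 12937500 * D.z * u ^ (15 : ℕ) * v ^ (9 : ℕ) - 12937500 * D.z * u ^ (14 : ℕ) * v ^ (10 : ℕ)
      + 17550000 * D.z * u ^ (12 : ℕ) * v ^ (12 : ℕ) + 12937500 * D.z * u ^ (11 : ℕ) * v ^ (13 : ℕ)
      - 5062500 * D.z * u ^ (10 : ℕ) * v ^ (14 : ℕ) - 5062500 * D.z * u ^ (9 : ℕ) * v ^ (15 : ℕ)
      - 337500 * D.z * u ^ (7 : ℕ) * v ^ (17 : ℕ) - 1125000 * D.z * u ^ (6 : ℕ) * v ^ (18 : ℕ)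
      + 562500 * D.z * u ^ (5 : ℕ) * v ^ (19 : ℕ) + 562500 * D.z * u ^ (4 : ℕ) * v ^ (20 : ℕ)
      - 112500 * D.z * u ^ (2 : ℕ) * v ^ (22 : ℕ) + 112500 * u ^ (22 : ℕ) * v ^ (2 : ℕ)
      + 562500 * u ^ (21 : ℕ) * v ^ (3 : ℕ) + 1125000 * u ^ (20 : ℕ) * v ^ (4 : ℕ)
      + 1125000 * u ^ (19 : ℕ) * v ^ (5 : ℕ) - 337500 * u ^ (17 : ℕ) * v ^ (7 : ℕ)
      + 5062500 * u ^ (16 : ℕ) * v ^ (8 : ℕ) + 12937500 * u ^ (15 : ℕ) * v ^ (9 : ℕ)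
      + 12937500 * u ^ (14 : ℕ) * v ^ (10 : ℕ) - 17550000 * u ^ (12 : ℕ) * v ^ (12 : ℕ)
      - 12937500 * u ^ (11 : ℕ) * v ^ (13 : ℕ) + 5062500 * u ^ (10 : ℕ) * v ^ (14 : ℕ)
      + 5062500 * u ^ (9 : ℕ) * v ^ (15 : ℕ) + 337500 * u ^ (7 : ℕ) * v ^ (17 : ℕ)
      + 1125000 * u ^ (6 : ℕ) * v ^ (18 : ℕ) - 562500 * u ^ (5 : ℕ) * v ^ (19 : ℕ)
      - 562500 * u ^ (4 : ℕ) * v ^ (20 : ℕ) + 112500 * u ^ (2 : ℕ) * v ^ (22 : ℕ)) * D.hz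


end KleinData

end Fermat.Agent.S52
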