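import Fermat.Agent.S52.Klein.TDefs

set_option autoImplicit false
set_option linter.unusedSimpArgs false
set_option linter.unusedVariables false

namespace Fermat.Agent.S52

namespace KleinData

variable {R : Type*} [CommRing R]
theorem Mu_pow_five (D : KleinData R) (u v : R) :
    D.Mu u v ^ (5 : ℕ) = D.PQ1 u v := by
  try simp only [s5, m1, m2, Mu, Mv, Su, Sv, b0, b1, b2, b3, b0c, xPP, yBB, yPP, xP, yP, PQ1, PQ2, XQ, YQ, XQS, YQS, klFF, klHH, klTT, klA, klB, klf, klH, klT]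
  linear_combination (-D.z ^ (11 : ℕ) * u ^ (5 : ℕ) - 5 * D.z ^ (11 : ℕ) * u ^ (4 : ℕ) * v
      - 10 * D.z ^ (11 : ℕ) * u ^ (3 : ℕ) * v ^ (2 : ℕ)
      - 10 * D.z ^ (11 : ℕ) * u ^ (2 : ℕ) * v ^ (3 : ℕ) - 5 * D.z ^ (11 : ℕ) * u * v ^ (4 : ℕ)
      - D.z ^ (11 : ℕ) * v ^ (5 : ℕ) - 4 * D.z ^ (10 : ℕ) * u ^ (5 : ℕ)
      - 10 * D.z ^ (10 : ℕ) * u ^ (4 : ℕ) * v + 20 * D.z ^ (10 : ℕ) * u ^ (2 : ℕ) * v ^ (3 : ℕ)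
      + 20 * D.z ^ (10 : ℕ) * u * v ^ (4 : ℕ) + 6 * D.z ^ (10 : ℕ) * v ^ (5 : ℕ)
      - 15 * D.z ^ (9 : ℕ) * u ^ (5 : ℕ) - 35 * D.z ^ (9 : ℕ) * u ^ (4 : ℕ) * v
      - 30 * D.z ^ (9 : ℕ) * u ^ (3 : ℕ) * v ^ (2 : ℕ)
      - 30 * D.z ^ (9 : ℕ) * u ^ (2 : ℕ) * v ^ (3 : ℕ) - 35 * D.z ^ (9 : ℕ) * u * v ^ (4 : ℕ)
      - 15 * D.z ^ (9 : ℕ) * v ^ (5 : ℕ) - 35 * D.z ^ (8 : ℕ) * u ^ (5 : ℕ)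
      - 40 * D.z ^ (8 : ℕ) * u ^ (4 : ℕ) * v + 30 * D.z ^ (8 : ℕ) * u ^ (3 : ℕ) * v ^ (2 : ℕ)
      + 60 * D.z ^ (8 : ℕ) * u ^ (2 : ℕ) * v ^ (3 : ℕ) + 45 * D.z ^ (8 : ℕ) * u * v ^ (4 : ℕ)
      + 20 * D.z ^ (8 : ℕ) * v ^ (5 : ℕ) - 70 * D.z ^ (7 : ℕ) * u ^ (5 : ℕ)
      - 55 * D.z ^ (7 : ℕ) * u ^ (4 : ℕ) * v - 50 * D.z ^ (7 : ℕ) * u ^ (2 : ℕ) * v ^ (3 : ℕ)
      - 50 * D.z ^ (7 : ℕ) * u * v ^ (4 : ℕ) - 15 * D.z ^ (7 : ℕ) * v ^ (5 : ℕ)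
      - 107 * D.z ^ (6 : ℕ) * u ^ (5 : ℕ) - 15 * D.z ^ (6 : ℕ) * u ^ (4 : ℕ) * v
      + 50 * D.z ^ (6 : ℕ) * u ^ (3 : ℕ) * v ^ (2 : ℕ)
      + 10 * D.z ^ (6 : ℕ) * u ^ (2 : ℕ) * v ^ (3 : ℕ) + 25 * D.z ^ (6 : ℕ) * u * v ^ (4 : ℕ)
      + 5 * D.z ^ (6 : ℕ) * v ^ (5 : ℕ) - 133 * D.z ^ (5 : ℕ) * u ^ (5 : ℕ)
      + 35 * D.z ^ (5 : ℕ) * u ^ (4 : ℕ) * v + 20 * D.z ^ (5 : ℕ) * u ^ (3 : ℕ) * v ^ (2 : ℕ)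
      + 25 * D.z ^ (5 : ℕ) * u * v ^ (4 : ℕ) + 5 * D.z ^ (5 : ℕ) * v ^ (5 : ℕ)
      - 130 * D.z ^ (4 : ℕ) * u ^ (5 : ℕ) + 65 * D.z ^ (4 : ℕ) * u ^ (4 : ℕ) * v
      - 60 * D.z ^ (4 : ℕ) * u ^ (3 : ℕ) * v ^ (2 : ℕ)
      - 50 * D.z ^ (4 : ℕ) * u ^ (2 : ℕ) * v ^ (3 : ℕ) - 50 * D.z ^ (4 : ℕ) * u * v ^ (4 : ℕ)
      - 15 * D.z ^ (4 : ℕ) * v ^ (5 : ℕ) - 90 * D.z ^ (3 : ℕ) * u ^ (5 : ℕ)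
      + 80 * D.z ^ (3 : ℕ) * u ^ (4 : ℕ) * v + 100 * D.z ^ (3 : ℕ) * u ^ (2 : ℕ) * v ^ (3 : ℕ)
      + 50 * D.z ^ (3 : ℕ) * u * v ^ (4 : ℕ) + 20 * D.z ^ (3 : ℕ) * v ^ (5 : ℕ)
      - 40 * D.z ^ (2 : ℕ) * u ^ (5 : ℕ) + 5 * D.z ^ (2 : ℕ) * u ^ (4 : ℕ) * v
      - 50 * D.z ^ (2 : ℕ) * u ^ (3 : ℕ) * v ^ (2 : ℕ)
      - 50 * D.z ^ (2 : ℕ) * u ^ (2 : ℕ) * v ^ (3 : ℕ) - 50 * D.z ^ (2 : ℕ) * u * v ^ (4 : ℕ)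
      - 15 * D.z ^ (2 : ℕ) * v ^ (5 : ℕ) + D.z * u ^ (5 : ℕ) - 25 * D.z * u ^ (4 : ℕ) * v
      + 50 * D.z * u ^ (3 : ℕ) * v ^ (2 : ℕ) + 25 * D.z * u * v ^ (4 : ℕ) + 5 * D.z * v ^ (5 : ℕ)
      + 9 * u ^ (5 : ℕ) - 25 * u ^ (4 : ℕ) * v + 50 * u ^ (3 : ℕ) * v ^ (2 : ℕ)
      + 25 * u * v ^ (4 : ℕ) + 5 * v ^ (5 : ℕ)) * D.hz

theorem Mv_pow_five (D : KleinData R) (u v : R) :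
    D.Mv u v ^ (5 : ℕ) = D.PQ2 u v := by
  try simp only [s5, m1, m2, Mu, Mv, Su, Sv, b0, b1, b2, b3, b0c, xPP, yBB, yPP, xP, yP, PQ1, PQ2, XQ, YQ, XQS, YQS, klFF, klHH, klTT, klA, klB, klf, klH, klT]
  linear_combination (-D.z ^ (11 : ℕ) * u ^ (5 : ℕ) + 5 * D.z ^ (11 : ℕ) * u ^ (4 : ℕ) * v
      - 10 * D.z ^ (11 : ℕ) * u ^ (3 : ℕ) * v ^ (2 : ℕ)
      + 10 * D.z ^ (11 : ℕ) * u ^ (2 : ℕ) * v ^ (3 : ℕ) - 5 * D.z ^ (11 : ℕ) * u * v ^ (4 : ℕ)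
      + D.z ^ (11 : ℕ) * v ^ (5 : ℕ) + 6 * D.z ^ (10 : ℕ) * u ^ (5 : ℕ)
      - 20 * D.z ^ (10 : ℕ) * u ^ (4 : ℕ) * v + 20 * D.z ^ (10 : ℕ) * u ^ (3 : ℕ) * v ^ (2 : ℕ)
      - 10 * D.z ^ (10 : ℕ) * u * v ^ (4 : ℕ) + 4 * D.z ^ (10 : ℕ) * v ^ (5 : ℕ)
      - 15 * D.z ^ (9 : ℕ) * u ^ (5 : ℕ) + 35 * D.z ^ (9 : ℕ) * u ^ (4 : ℕ) * v
      - 30 * D.z ^ (9 : ℕ) * u ^ (3 : ℕ) * v ^ (2 : ℕ)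
      + 30 * D.z ^ (9 : ℕ) * u ^ (2 : ℕ) * v ^ (3 : ℕ) - 35 * D.z ^ (9 : ℕ) * u * v ^ (4 : ℕ)
      + 15 * D.z ^ (9 : ℕ) * v ^ (5 : ℕ) + 20 * D.z ^ (8 : ℕ) * u ^ (5 : ℕ)
      - 45 * D.z ^ (8 : ℕ) * u ^ (4 : ℕ) * v + 60 * D.z ^ (8 : ℕ) * u ^ (3 : ℕ) * v ^ (2 : ℕ)
      - 30 * D.z ^ (8 : ℕ) * u ^ (2 : ℕ) * v ^ (3 : ℕ) - 40 * D.z ^ (8 : ℕ) * u * v ^ (4 : ℕ)
      + 35 * D.z ^ (8 : ℕ) * v ^ (5 : ℕ) - 15 * D.z ^ (7 : ℕ) * u ^ (5 : ℕ)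
      + 50 * D.z ^ (7 : ℕ) * u ^ (4 : ℕ) * v - 50 * D.z ^ (7 : ℕ) * u ^ (3 : ℕ) * v ^ (2 : ℕ)
      - 55 * D.z ^ (7 : ℕ) * u * v ^ (4 : ℕ) + 70 * D.z ^ (7 : ℕ) * v ^ (5 : ℕ)
      + 5 * D.z ^ (6 : ℕ) * u ^ (5 : ℕ) - 25 * D.z ^ (6 : ℕ) * u ^ (4 : ℕ) * v
      + 10 * D.z ^ (6 : ℕ) * u ^ (3 : ℕ) * v ^ (2 : ℕ)
      - 50 * D.z ^ (6 : ℕ) * u ^ (2 : ℕ) * v ^ (3 : ℕ) - 15 * D.z ^ (6 : ℕ) * u * v ^ (4 : ℕ)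
      + 107 * D.z ^ (6 : ℕ) * v ^ (5 : ℕ) + 5 * D.z ^ (5 : ℕ) * u ^ (5 : ℕ)
      - 25 * D.z ^ (5 : ℕ) * u ^ (4 : ℕ) * v - 20 * D.z ^ (5 : ℕ) * u ^ (2 : ℕ) * v ^ (3 : ℕ)
      + 35 * D.z ^ (5 : ℕ) * u * v ^ (4 : ℕ) + 133 * D.z ^ (5 : ℕ) * v ^ (5 : ℕ)
      - 15 * D.z ^ (4 : ℕ) * u ^ (5 : ℕ) + 50 * D.z ^ (4 : ℕ) * u ^ (4 : ℕ) * v
      - 50 * D.z ^ (4 : ℕ) * u ^ (3 : ℕ) * v ^ (2 : ℕ)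
      + 60 * D.z ^ (4 : ℕ) * u ^ (2 : ℕ) * v ^ (3 : ℕ) + 65 * D.z ^ (4 : ℕ) * u * v ^ (4 : ℕ)
      + 130 * D.z ^ (4 : ℕ) * v ^ (5 : ℕ) + 20 * D.z ^ (3 : ℕ) * u ^ (5 : ℕ)
      - 50 * D.z ^ (3 : ℕ) * u ^ (4 : ℕ) * v + 100 * D.z ^ (3 : ℕ) * u ^ (3 : ℕ) * v ^ (2 : ℕ)
      + 80 * D.z ^ (3 : ℕ) * u * v ^ (4 : ℕ) + 90 * D.z ^ (3 : ℕ) * v ^ (5 : ℕ)
      - 15 * D.z ^ (2 : ℕ) * u ^ (5 : ℕ) + 50 * D.z ^ (2 : ℕ) * u ^ (4 : ℕ) * v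
      - 50 * D.z ^ (2 : ℕ) * u ^ (3 : ℕ) * v ^ (2 : ℕ)
      + 50 * D.z ^ (2 : ℕ) * u ^ (2 : ℕ) * v ^ (3 : ℕ) + 5 * D.z ^ (2 : ℕ) * u * v ^ (4 : ℕ)
      + 40 * D.z ^ (2 : ℕ) * v ^ (5 : ℕ) + 5 * D.z * u ^ (5 : ℕ) - 25 * D.z * u ^ (4 : ℕ) * v
      - 50 * D.z * u ^ (2 : ℕ) * v ^ (3 : ℕ) - 25 * D.z * u * v ^ (4 : ℕ) - D.z * v ^ (5 : ℕ)
      + 5 * u ^ (5 : ℕ) - 25 * u ^ (4 : ℕ) * v - 50 * u ^ (2 : ℕ) * v ^ (3 : ℕ)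
      - 25 * u * v ^ (4 : ℕ) - 9 * v ^ (5 : ℕ)) * D.hz

theorem xPP_PQ (D : KleinData R) (u v : R) :
    D.xPP (D.PQ1 u v) (D.PQ2 u v) = D.XQ u v := by
  try simp only [s5, m1, m2, Mu, Mv, Su, Sv, b0, b1, b2, b3, b0c, xPP, yBB, yPP, xP, yP, PQ1, PQ2, XQ, YQ, XQS, YQS, klFF, klHH, klTT, klA, klB, klf, klH, klT]
  linear_combination (22500 * D.z ^ (5 : ℕ) * u ^ (10 : ℕ) - 45000 * D.z ^ (5 : ℕ) * u ^ (9 : ℕ) * v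
      + 270000 * D.z ^ (5 : ℕ) * u ^ (8 : ℕ) * v ^ (2 : ℕ)
      - 540000 * D.z ^ (5 : ℕ) * u ^ (7 : ℕ) * v ^ (3 : ℕ)
      + 135000 * D.z ^ (5 : ℕ) * u ^ (6 : ℕ) * v ^ (4 : ℕ)
      - 540000 * D.z ^ (5 : ℕ) * u ^ (5 : ℕ) * v ^ (5 : ℕ)
      - 135000 * D.z ^ (5 : ℕ) * u ^ (4 : ℕ) * v ^ (6 : ℕ)
      - 540000 * D.z ^ (5 : ℕ) * u ^ (3 : ℕ) * v ^ (7 : ℕ)
      - 270000 * D.z ^ (5 : ℕ) * u ^ (2 : ℕ) * v ^ (8 : ℕ) - 45000 * D.z ^ (5 : ℕ) * u * v ^ (9 : ℕ)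
      - 22500 * D.z ^ (5 : ℕ) * v ^ (10 : ℕ) + 90000 * D.z ^ (4 : ℕ) * u ^ (10 : ℕ)
      - 630000 * D.z ^ (4 : ℕ) * u ^ (9 : ℕ) * v
      + 1530000 * D.z ^ (4 : ℕ) * u ^ (8 : ℕ) * v ^ (2 : ℕ)
      - 3060000 * D.z ^ (4 : ℕ) * u ^ (7 : ℕ) * v ^ (3 : ℕ)
      + 1890000 * D.z ^ (4 : ℕ) * u ^ (6 : ℕ) * v ^ (4 : ℕ)
      - 4410000 * D.z ^ (4 : ℕ) * u ^ (5 : ℕ) * v ^ (5 : ℕ)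
      - 1890000 * D.z ^ (4 : ℕ) * u ^ (4 : ℕ) * v ^ (6 : ℕ)
      - 3060000 * D.z ^ (4 : ℕ) * u ^ (3 : ℕ) * v ^ (7 : ℕ)
      - 1530000 * D.z ^ (4 : ℕ) * u ^ (2 : ℕ) * v ^ (8 : ℕ)
      - 630000 * D.z ^ (4 : ℕ) * u * v ^ (9 : ℕ) - 90000 * D.z ^ (4 : ℕ) * v ^ (10 : ℕ)
      + 90000 * D.z ^ (3 : ℕ) * u ^ (10 : ℕ) - 630000 * D.z ^ (3 : ℕ) * u ^ (9 : ℕ) * v
      + 1530000 * D.z ^ (3 : ℕ) * u ^ (8 : ℕ) * v ^ (2 : ℕ)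
      - 3060000 * D.z ^ (3 : ℕ) * u ^ (7 : ℕ) * v ^ (3 : ℕ)
      + 1890000 * D.z ^ (3 : ℕ) * u ^ (6 : ℕ) * v ^ (4 : ℕ)
      - 4410000 * D.z ^ (3 : ℕ) * u ^ (5 : ℕ) * v ^ (5 : ℕ)
      - 1890000 * D.z ^ (3 : ℕ) * u ^ (4 : ℕ) * v ^ (6 : ℕ)
      - 3060000 * D.z ^ (3 : ℕ) * u ^ (3 : ℕ) * v ^ (7 : ℕ)
      - 1530000 * D.z ^ (3 : ℕ) * u ^ (2 : ℕ) * v ^ (8 : ℕ)
      - 630000 * D.z ^ (3 : ℕ) * u * v ^ (9 : ℕ) - 90000 * D.z ^ (3 : ℕ) * v ^ (10 : ℕ)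
      + 15000 * D.z ^ (2 : ℕ) * u ^ (10 : ℕ) - 180000 * D.z ^ (2 : ℕ) * u ^ (9 : ℕ) * v
      + 292500 * D.z ^ (2 : ℕ) * u ^ (8 : ℕ) * v ^ (2 : ℕ)
      - 810000 * D.z ^ (2 : ℕ) * u ^ (7 : ℕ) * v ^ (3 : ℕ)
      + 90000 * D.z ^ (2 : ℕ) * u ^ (6 : ℕ) * v ^ (4 : ℕ)
      - 1935000 * D.z ^ (2 : ℕ) * u ^ (5 : ℕ) * v ^ (5 : ℕ)
      - 1665000 * D.z ^ (2 : ℕ) * u ^ (4 : ℕ) * v ^ (6 : ℕ)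
      - 1710000 * D.z ^ (2 : ℕ) * u ^ (3 : ℕ) * v ^ (7 : ℕ)
      - 967500 * D.z ^ (2 : ℕ) * u ^ (2 : ℕ) * v ^ (8 : ℕ)
      - 405000 * D.z ^ (2 : ℕ) * u * v ^ (9 : ℕ) - 52500 * D.z ^ (2 : ℕ) * v ^ (10 : ℕ)
      + 52500 * D.z * u ^ (10 : ℕ) - 630000 * D.z * u ^ (9 : ℕ) * v
      + 1192500 * D.z * u ^ (8 : ℕ) * v ^ (2 : ℕ) - 2160000 * D.z * u ^ (7 : ℕ) * v ^ (3 : ℕ)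
      + 2340000 * D.z * u ^ (6 : ℕ) * v ^ (4 : ℕ) - 3060000 * D.z * u ^ (5 : ℕ) * v ^ (5 : ℕ)
      - 765000 * D.z * u ^ (4 : ℕ) * v ^ (6 : ℕ) - 1260000 * D.z * u ^ (3 : ℕ) * v ^ (7 : ℕ)
      - 517500 * D.z * u ^ (2 : ℕ) * v ^ (8 : ℕ) - 405000 * D.z * u * v ^ (9 : ℕ)
      - 15000 * D.z * v ^ (10 : ℕ) - 45000 * u ^ (10 : ℕ) + 540000 * u ^ (9 : ℕ) * v
      - 1102500 * u ^ (8 : ℕ) * v ^ (2 : ℕ) + 1530000 * u ^ (7 : ℕ) * v ^ (3 : ℕ)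
      - 2970000 * u ^ (6 : ℕ) * v ^ (4 : ℕ) + 855000 * u ^ (5 : ℕ) * v ^ (5 : ℕ)
      - 1755000 * u ^ (4 : ℕ) * v ^ (6 : ℕ) - 1170000 * u ^ (3 : ℕ) * v ^ (7 : ℕ)
      - 922500 * u ^ (2 : ℕ) * v ^ (8 : ℕ) - 135000 * u * v ^ (9 : ℕ) - 67500 * v ^ (10 : ℕ)) * D.hz

theorem yPP_PQ (D : KleinData R) (u v : R) :
    D.yPP (D.PQ1 u v) (D.PQ2 u v) = D.YQ u v := by
  try simp only [s5, m1, m2, Mu, Mv, Su, Sv, b0, b1, b2, b3, b0c, xPP, yBB, yPP, xP, yP, PQ1, PQ2, XQ, YQ, XQS, YQS, klFF, klHH, klTT, klA, klB, klf, klH, klT]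
  linear_combination (6750000 * D.z ^ (11 : ℕ) * u ^ (15 : ℕ) - 33750000 * D.z ^ (11 : ℕ) * u ^ (14 : ℕ) * v
      + 148500000 * D.z ^ (11 : ℕ) * u ^ (13 : ℕ) * v ^ (2 : ℕ)
      - 472500000 * D.z ^ (11 : ℕ) * u ^ (12 : ℕ) * v ^ (3 : ℕ)
      + 884250000 * D.z ^ (11 : ℕ) * u ^ (11 : ℕ) * v ^ (4 : ℕ)
      - 1107000000 * D.z ^ (11 : ℕ) * u ^ (10 : ℕ) * v ^ (5 : ℕ)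
      + 1012500000 * D.z ^ (11 : ℕ) * u ^ (9 : ℕ) * v ^ (6 : ℕ)
      - 931500000 * D.z ^ (11 : ℕ) * u ^ (8 : ℕ) * v ^ (7 : ℕ)
      + 607500000 * D.z ^ (11 : ℕ) * u ^ (7 : ℕ) * v ^ (8 : ℕ)
      - 499500000 * D.z ^ (11 : ℕ) * u ^ (6 : ℕ) * v ^ (9 : ℕ)
      - 6750000 * D.z ^ (11 : ℕ) * u ^ (5 : ℕ) * v ^ (10 : ℕ)
      - 33750000 * D.z ^ (11 : ℕ) * u ^ (4 : ℕ) * v ^ (11 : ℕ)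
      - 81000000 * D.z ^ (11 : ℕ) * u ^ (3 : ℕ) * v ^ (12 : ℕ)
      - 6750000 * D.z ^ (11 : ℕ) * u * v ^ (14 : ℕ) + 27000000 * D.z ^ (10 : ℕ) * u ^ (15 : ℕ)
      - 270000000 * D.z ^ (10 : ℕ) * u ^ (14 : ℕ) * v
      + 1134000000 * D.z ^ (10 : ℕ) * u ^ (13 : ℕ) * v ^ (2 : ℕ)
      - 3105000000 * D.z ^ (10 : ℕ) * u ^ (12 : ℕ) * v ^ (3 : ℕ)
      + 5562000000 * D.z ^ (10 : ℕ) * u ^ (11 : ℕ) * v ^ (4 : ℕ)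
      - 7803000000 * D.z ^ (10 : ℕ) * u ^ (10 : ℕ) * v ^ (5 : ℕ)
      + 7965000000 * D.z ^ (10 : ℕ) * u ^ (9 : ℕ) * v ^ (6 : ℕ)
      - 6561000000 * D.z ^ (10 : ℕ) * u ^ (8 : ℕ) * v ^ (7 : ℕ)
      + 3240000000 * D.z ^ (10 : ℕ) * u ^ (7 : ℕ) * v ^ (8 : ℕ)
      - 2673000000 * D.z ^ (10 : ℕ) * u ^ (6 : ℕ) * v ^ (9 : ℕ)
      - 27000000 * D.z ^ (10 : ℕ) * u ^ (5 : ℕ) * v ^ (10 : ℕ)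
      - 675000000 * D.z ^ (10 : ℕ) * u ^ (4 : ℕ) * v ^ (11 : ℕ)
      - 189000000 * D.z ^ (10 : ℕ) * u ^ (3 : ℕ) * v ^ (12 : ℕ)
      - 135000000 * D.z ^ (10 : ℕ) * u ^ (2 : ℕ) * v ^ (13 : ℕ)
      - 27000000 * D.z ^ (10 : ℕ) * u * v ^ (14 : ℕ) + 47250000 * D.z ^ (9 : ℕ) * u ^ (15 : ℕ)
      - 371250000 * D.z ^ (9 : ℕ) * u ^ (14 : ℕ) * v
      + 1579500000 * D.z ^ (9 : ℕ) * u ^ (13 : ℕ) * v ^ (2 : ℕ)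
      - 4522500000 * D.z ^ (9 : ℕ) * u ^ (12 : ℕ) * v ^ (3 : ℕ)
      + 8214750000 * D.z ^ (9 : ℕ) * u ^ (11 : ℕ) * v ^ (4 : ℕ)
      - 11124000000 * D.z ^ (9 : ℕ) * u ^ (10 : ℕ) * v ^ (5 : ℕ)
      + 11002500000 * D.z ^ (9 : ℕ) * u ^ (9 : ℕ) * v ^ (6 : ℕ)
      - 9355500000 * D.z ^ (9 : ℕ) * u ^ (8 : ℕ) * v ^ (7 : ℕ)
      + 5062500000 * D.z ^ (9 : ℕ) * u ^ (7 : ℕ) * v ^ (8 : ℕ)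
      - 4171500000 * D.z ^ (9 : ℕ) * u ^ (6 : ℕ) * v ^ (9 : ℕ)
      - 47250000 * D.z ^ (9 : ℕ) * u ^ (5 : ℕ) * v ^ (10 : ℕ)
      - 776250000 * D.z ^ (9 : ℕ) * u ^ (4 : ℕ) * v ^ (11 : ℕ)
      - 432000000 * D.z ^ (9 : ℕ) * u ^ (3 : ℕ) * v ^ (12 : ℕ)
      - 135000000 * D.z ^ (9 : ℕ) * u ^ (2 : ℕ) * v ^ (13 : ℕ)
      - 47250000 * D.z ^ (9 : ℕ) * u * v ^ (14 : ℕ) + 111375000 * D.z ^ (8 : ℕ) * u ^ (15 : ℕ)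
      - 1029375000 * D.z ^ (8 : ℕ) * u ^ (14 : ℕ) * v
      + 4340250000 * D.z ^ (8 : ℕ) * u ^ (13 : ℕ) * v ^ (2 : ℕ)
      - 12048750000 * D.z ^ (8 : ℕ) * u ^ (12 : ℕ) * v ^ (3 : ℕ)
      + 21677625000 * D.z ^ (8 : ℕ) * u ^ (11 : ℕ) * v ^ (4 : ℕ)
      - 30078000000 * D.z ^ (8 : ℕ) * u ^ (10 : ℕ) * v ^ (5 : ℕ)
      + 30408750000 * D.z ^ (8 : ℕ) * u ^ (9 : ℕ) * v ^ (6 : ℕ)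
      - 25292250000 * D.z ^ (8 : ℕ) * u ^ (8 : ℕ) * v ^ (7 : ℕ)
      + 12858750000 * D.z ^ (8 : ℕ) * u ^ (7 : ℕ) * v ^ (8 : ℕ)
      - 10604250000 * D.z ^ (8 : ℕ) * u ^ (6 : ℕ) * v ^ (9 : ℕ)
      - 111375000 * D.z ^ (8 : ℕ) * u ^ (5 : ℕ) * v ^ (10 : ℕ)
      - 2446875000 * D.z ^ (8 : ℕ) * u ^ (4 : ℕ) * v ^ (11 : ℕ)
      - 864000000 * D.z ^ (8 : ℕ) * u ^ (3 : ℕ) * v ^ (12 : ℕ)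
      - 472500000 * D.z ^ (8 : ℕ) * u ^ (2 : ℕ) * v ^ (13 : ℕ)
      - 111375000 * D.z ^ (8 : ℕ) * u * v ^ (14 : ℕ) + 192375000 * D.z ^ (7 : ℕ) * u ^ (15 : ℕ)
      - 1906875000 * D.z ^ (7 : ℕ) * u ^ (14 : ℕ) * v
      + 8012250000 * D.z ^ (7 : ℕ) * u ^ (13 : ℕ) * v ^ (2 : ℕ)
      - 21971250000 * D.z ^ (7 : ℕ) * u ^ (12 : ℕ) * v ^ (3 : ℕ)
      + 39376125000 * D.z ^ (7 : ℕ) * u ^ (11 : ℕ) * v ^ (4 : ℕ)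
      - 55174500000 * D.z ^ (7 : ℕ) * u ^ (10 : ℕ) * v ^ (5 : ℕ)
      + 56261250000 * D.z ^ (7 : ℕ) * u ^ (9 : ℕ) * v ^ (6 : ℕ)
      - 46392750000 * D.z ^ (7 : ℕ) * u ^ (8 : ℕ) * v ^ (7 : ℕ)
      + 22983750000 * D.z ^ (7 : ℕ) * u ^ (7 : ℕ) * v ^ (8 : ℕ)
      - 18960750000 * D.z ^ (7 : ℕ) * u ^ (6 : ℕ) * v ^ (9 : ℕ)
      - 192375000 * D.z ^ (7 : ℕ) * u ^ (5 : ℕ) * v ^ (10 : ℕ)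
      - 4741875000 * D.z ^ (7 : ℕ) * u ^ (4 : ℕ) * v ^ (11 : ℕ)
      - 1363500000 * D.z ^ (7 : ℕ) * u ^ (3 : ℕ) * v ^ (12 : ℕ)
      - 945000000 * D.z ^ (7 : ℕ) * u ^ (2 : ℕ) * v ^ (13 : ℕ)
      - 192375000 * D.z ^ (7 : ℕ) * u * v ^ (14 : ℕ) + 209250000 * D.z ^ (6 : ℕ) * u ^ (15 : ℕ)
      - 1991250000 * D.z ^ (6 : ℕ) * u ^ (14 : ℕ) * v
      + 8383500000 * D.z ^ (6 : ℕ) * u ^ (13 : ℕ) * v ^ (2 : ℕ)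
      - 23152500000 * D.z ^ (6 : ℕ) * u ^ (12 : ℕ) * v ^ (3 : ℕ)
      + 41586750000 * D.z ^ (6 : ℕ) * u ^ (11 : ℕ) * v ^ (4 : ℕ)
      - 57942000000 * D.z ^ (6 : ℕ) * u ^ (10 : ℕ) * v ^ (5 : ℕ)
      + 58792500000 * D.z ^ (6 : ℕ) * u ^ (9 : ℕ) * v ^ (6 : ℕ)
      - 48721500000 * D.z ^ (6 : ℕ) * u ^ (8 : ℕ) * v ^ (7 : ℕ)
      + 24502500000 * D.z ^ (6 : ℕ) * u ^ (7 : ℕ) * v ^ (8 : ℕ)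
      - 20209500000 * D.z ^ (6 : ℕ) * u ^ (6 : ℕ) * v ^ (9 : ℕ)
      - 209250000 * D.z ^ (6 : ℕ) * u ^ (5 : ℕ) * v ^ (10 : ℕ)
      - 4826250000 * D.z ^ (6 : ℕ) * u ^ (4 : ℕ) * v ^ (11 : ℕ)
      - 1566000000 * D.z ^ (6 : ℕ) * u ^ (3 : ℕ) * v ^ (12 : ℕ)
      - 945000000 * D.z ^ (6 : ℕ) * u ^ (2 : ℕ) * v ^ (13 : ℕ)
      - 209250000 * D.z ^ (6 : ℕ) * u * v ^ (14 : ℕ) + 199125000 * D.z ^ (5 : ℕ) * u ^ (15 : ℕ)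
      - 2278125000 * D.z ^ (5 : ℕ) * u ^ (14 : ℕ) * v
      + 9510750000 * D.z ^ (5 : ℕ) * u ^ (13 : ℕ) * v ^ (2 : ℕ)
      - 25481250000 * D.z ^ (5 : ℕ) * u ^ (12 : ℕ) * v ^ (3 : ℕ)
      + 45322875000 * D.z ^ (5 : ℕ) * u ^ (11 : ℕ) * v ^ (4 : ℕ)
      - 64719000000 * D.z ^ (5 : ℕ) * u ^ (10 : ℕ) * v ^ (5 : ℕ)
      + 67061250000 * D.z ^ (5 : ℕ) * u ^ (9 : ℕ) * v ^ (6 : ℕ)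
      - 54411750000 * D.z ^ (5 : ℕ) * u ^ (8 : ℕ) * v ^ (7 : ℕ)
      + 25616250000 * D.z ^ (5 : ℕ) * u ^ (7 : ℕ) * v ^ (8 : ℕ)
      - 21147750000 * D.z ^ (5 : ℕ) * u ^ (6 : ℕ) * v ^ (9 : ℕ)
      - 199125000 * D.z ^ (5 : ℕ) * u ^ (5 : ℕ) * v ^ (10 : ℕ)
      - 6125625000 * D.z ^ (5 : ℕ) * u ^ (4 : ℕ) * v ^ (11 : ℕ)
      - 1107000000 * D.z ^ (5 : ℕ) * u ^ (3 : ℕ) * v ^ (12 : ℕ)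
      - 1282500000 * D.z ^ (5 : ℕ) * u ^ (2 : ℕ) * v ^ (13 : ℕ)
      - 199125000 * D.z ^ (5 : ℕ) * u * v ^ (14 : ℕ) + 138375000 * D.z ^ (4 : ℕ) * u ^ (15 : ℕ)
      - 1434375000 * D.z ^ (4 : ℕ) * u ^ (14 : ℕ) * v
      + 6014250000 * D.z ^ (4 : ℕ) * u ^ (13 : ℕ) * v ^ (2 : ℕ)
      - 16368750000 * D.z ^ (4 : ℕ) * u ^ (12 : ℕ) * v ^ (3 : ℕ)
      + 29264625000 * D.z ^ (4 : ℕ) * u ^ (11 : ℕ) * v ^ (4 : ℕ)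
      - 41256000000 * D.z ^ (4 : ℕ) * u ^ (10 : ℕ) * v ^ (5 : ℕ)
      + 42288750000 * D.z ^ (4 : ℕ) * u ^ (9 : ℕ) * v ^ (6 : ℕ)
      - 34688250000 * D.z ^ (4 : ℕ) * u ^ (8 : ℕ) * v ^ (7 : ℕ)
      + 16908750000 * D.z ^ (4 : ℕ) * u ^ (7 : ℕ) * v ^ (8 : ℕ)
      - 13952250000 * D.z ^ (4 : ℕ) * u ^ (6 : ℕ) * v ^ (9 : ℕ)
      - 138375000 * D.z ^ (4 : ℕ) * u ^ (5 : ℕ) * v ^ (10 : ℕ)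
      - 3661875000 * D.z ^ (4 : ℕ) * u ^ (4 : ℕ) * v ^ (11 : ℕ)
      - 918000000 * D.z ^ (4 : ℕ) * u ^ (3 : ℕ) * v ^ (12 : ℕ)
      - 742500000 * D.z ^ (4 : ℕ) * u ^ (2 : ℕ) * v ^ (13 : ℕ)
      - 138375000 * D.z ^ (4 : ℕ) * u * v ^ (14 : ℕ) + 74250000 * D.z ^ (3 : ℕ) * u ^ (15 : ℕ)
      - 776250000 * D.z ^ (3 : ℕ) * u ^ (14 : ℕ) * v
      + 3253500000 * D.z ^ (3 : ℕ) * u ^ (13 : ℕ) * v ^ (2 : ℕ)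
      - 8842500000 * D.z ^ (3 : ℕ) * u ^ (12 : ℕ) * v ^ (3 : ℕ)
      + 15801750000 * D.z ^ (3 : ℕ) * u ^ (11 : ℕ) * v ^ (4 : ℕ)
      - 22302000000 * D.z ^ (3 : ℕ) * u ^ (10 : ℕ) * v ^ (5 : ℕ)
      + 22882500000 * D.z ^ (3 : ℕ) * u ^ (9 : ℕ) * v ^ (6 : ℕ)
      - 18751500000 * D.z ^ (3 : ℕ) * u ^ (8 : ℕ) * v ^ (7 : ℕ)
      + 9112500000 * D.z ^ (3 : ℕ) * u ^ (7 : ℕ) * v ^ (8 : ℕ)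
      - 7519500000 * D.z ^ (3 : ℕ) * u ^ (6 : ℕ) * v ^ (9 : ℕ)
      - 74250000 * D.z ^ (3 : ℕ) * u ^ (5 : ℕ) * v ^ (10 : ℕ)
      - 1991250000 * D.z ^ (3 : ℕ) * u ^ (4 : ℕ) * v ^ (11 : ℕ)
      - 486000000 * D.z ^ (3 : ℕ) * u ^ (3 : ℕ) * v ^ (12 : ℕ)
      - 405000000 * D.z ^ (3 : ℕ) * u ^ (2 : ℕ) * v ^ (13 : ℕ)
      - 74250000 * D.z ^ (3 : ℕ) * u * v ^ (14 : ℕ) + 35437500 * D.z ^ (2 : ℕ) * u ^ (15 : ℕ)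
      - 362812500 * D.z ^ (2 : ℕ) * u ^ (14 : ℕ) * v
      + 1522125000 * D.z ^ (2 : ℕ) * u ^ (13 : ℕ) * v ^ (2 : ℕ)
      - 4151250000 * D.z ^ (2 : ℕ) * u ^ (12 : ℕ) * v ^ (3 : ℕ)
      + 7426687500 * D.z ^ (2 : ℕ) * u ^ (11 : ℕ) * v ^ (4 : ℕ)
      - 10452375000 * D.z ^ (2 : ℕ) * u ^ (10 : ℕ) * v ^ (5 : ℕ)
      + 10698750000 * D.z ^ (2 : ℕ) * u ^ (9 : ℕ) * v ^ (6 : ℕ)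
      - 8788500000 * D.z ^ (2 : ℕ) * u ^ (8 : ℕ) * v ^ (7 : ℕ)
      + 4303125000 * D.z ^ (2 : ℕ) * u ^ (7 : ℕ) * v ^ (8 : ℕ)
      - 3550500000 * D.z ^ (2 : ℕ) * u ^ (6 : ℕ) * v ^ (9 : ℕ)
      - 35437500 * D.z ^ (2 : ℕ) * u ^ (5 : ℕ) * v ^ (10 : ℕ)
      - 919687500 * D.z ^ (2 : ℕ) * u ^ (4 : ℕ) * v ^ (11 : ℕ)
      - 239625000 * D.z ^ (2 : ℕ) * u ^ (3 : ℕ) * v ^ (12 : ℕ)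
      - 185625000 * D.z ^ (2 : ℕ) * u ^ (2 : ℕ) * v ^ (13 : ℕ)
      - 35437500 * D.z ^ (2 : ℕ) * u * v ^ (14 : ℕ) + 11812500 * D.z * u ^ (15 : ℕ)
      + 92812500 * D.z * u ^ (14 : ℕ) * v - 347625000 * D.z * u ^ (13 : ℕ) * v ^ (2 : ℕ)
      + 540000000 * D.z * u ^ (12 : ℕ) * v ^ (3 : ℕ) - 730687500 * D.z * u ^ (11 : ℕ) * v ^ (4 : ℕ)
      + 1859625000 * D.z * u ^ (10 : ℕ) * v ^ (5 : ℕ) - 2632500000 * D.z * u ^ (9 : ℕ) * v ^ (6 : ℕ)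
      + 1559250000 * D.z * u ^ (8 : ℕ) * v ^ (7 : ℕ) + 151875000 * D.z * u ^ (7 : ℕ) * v ^ (8 : ℕ)
      - 114750000 * D.z * u ^ (6 : ℕ) * v ^ (9 : ℕ) - 11812500 * D.z * u ^ (5 : ℕ) * v ^ (10 : ℕ)
      + 548437500 * D.z * u ^ (4 : ℕ) * v ^ (11 : ℕ) - 293625000 * D.z * u ^ (3 : ℕ) * v ^ (12 : ℕ)
      + 151875000 * D.z * u ^ (2 : ℕ) * v ^ (13 : ℕ) - 11812500 * D.z * u * v ^ (14 : ℕ)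
      + 1687500 * u ^ (15 : ℕ) - 227812500 * u ^ (14 : ℕ) * v
      + 914625000 * u ^ (13 : ℕ) * v ^ (2 : ℕ) - 2092500000 * u ^ (12 : ℕ) * v ^ (3 : ℕ)
      + 3511687500 * u ^ (11 : ℕ) * v ^ (4 : ℕ) - 5761125000 * u ^ (10 : ℕ) * v ^ (5 : ℕ)
      + 6615000000 * u ^ (9 : ℕ) * v ^ (6 : ℕ) - 4839750000 * u ^ (8 : ℕ) * v ^ (7 : ℕ)
      + 1468125000 * u ^ (7 : ℕ) * v ^ (8 : ℕ) - 1221750000 * u ^ (6 : ℕ) * v ^ (9 : ℕ)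
      - 1687500 * u ^ (5 : ℕ) * v ^ (10 : ℕ) - 885937500 * u ^ (4 : ℕ) * v ^ (11 : ℕ)
      + 199125000 * u ^ (3 : ℕ) * v ^ (12 : ℕ) - 219375000 * u ^ (2 : ℕ) * v ^ (13 : ℕ)
      - 1687500 * u * v ^ (14 : ℕ)) * D.hz

theorem XQ_S (D : KleinData R) (u v : R) :
    D.XQ (D.Su u) (D.Sv v) = D.XQS u v := by
  try simp only [s5, m1, m2, Mu, Mv, Su, Sv, b0, b1, b2, b3, b0c, xPP, yBB, yPP, xP, yP, PQ1, PQ2, XQ, YQ, XQS, YQS, klFF, klHH, klTT, klA, klB, klf, klH, klT]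
  linear_combination (46875 * D.z ^ (26 : ℕ) * u ^ (10 : ℕ) - 46875 * D.z ^ (25 : ℕ) * u ^ (10 : ℕ)
      - 562500 * D.z ^ (25 : ℕ) * u ^ (9 : ℕ) * v + 562500 * D.z ^ (24 : ℕ) * u ^ (9 : ℕ) * v
      + 1125000 * D.z ^ (24 : ℕ) * u ^ (8 : ℕ) * v ^ (2 : ℕ)
      - 1125000 * D.z ^ (23 : ℕ) * u ^ (8 : ℕ) * v ^ (2 : ℕ)
      - 1687500 * D.z ^ (23 : ℕ) * u ^ (7 : ℕ) * v ^ (3 : ℕ)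
      + 1687500 * D.z ^ (22 : ℕ) * u ^ (7 : ℕ) * v ^ (3 : ℕ)
      + 2812500 * D.z ^ (22 : ℕ) * u ^ (6 : ℕ) * v ^ (4 : ℕ) + 46875 * D.z ^ (21 : ℕ) * u ^ (10 : ℕ)
      - 2812500 * D.z ^ (21 : ℕ) * u ^ (6 : ℕ) * v ^ (4 : ℕ)
      - 1406250 * D.z ^ (21 : ℕ) * u ^ (5 : ℕ) * v ^ (5 : ℕ) - 46875 * D.z ^ (20 : ℕ) * u ^ (10 : ℕ)
      - 562500 * D.z ^ (20 : ℕ) * u ^ (9 : ℕ) * v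
      + 1406250 * D.z ^ (20 : ℕ) * u ^ (5 : ℕ) * v ^ (5 : ℕ)
      + 1125000 * D.z ^ (20 : ℕ) * u ^ (4 : ℕ) * v ^ (6 : ℕ)
      + 562500 * D.z ^ (19 : ℕ) * u ^ (9 : ℕ) * v
      + 1125000 * D.z ^ (19 : ℕ) * u ^ (8 : ℕ) * v ^ (2 : ℕ)
      - 1125000 * D.z ^ (19 : ℕ) * u ^ (4 : ℕ) * v ^ (6 : ℕ)
      + 562500 * D.z ^ (19 : ℕ) * u ^ (3 : ℕ) * v ^ (7 : ℕ)
      - 1125000 * D.z ^ (18 : ℕ) * u ^ (8 : ℕ) * v ^ (2 : ℕ)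
      - 1687500 * D.z ^ (18 : ℕ) * u ^ (7 : ℕ) * v ^ (3 : ℕ)
      - 562500 * D.z ^ (18 : ℕ) * u ^ (3 : ℕ) * v ^ (7 : ℕ)
      + 562500 * D.z ^ (18 : ℕ) * u ^ (2 : ℕ) * v ^ (8 : ℕ)
      + 1687500 * D.z ^ (17 : ℕ) * u ^ (7 : ℕ) * v ^ (3 : ℕ)
      + 2812500 * D.z ^ (17 : ℕ) * u ^ (6 : ℕ) * v ^ (4 : ℕ)
      - 562500 * D.z ^ (17 : ℕ) * u ^ (2 : ℕ) * v ^ (8 : ℕ) + 46875 * D.z ^ (16 : ℕ) * u ^ (10 : ℕ)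
      - 2812500 * D.z ^ (16 : ℕ) * u ^ (6 : ℕ) * v ^ (4 : ℕ)
      - 1406250 * D.z ^ (16 : ℕ) * u ^ (5 : ℕ) * v ^ (5 : ℕ) + 46875 * D.z ^ (16 : ℕ) * v ^ (10 : ℕ)
      - 46875 * D.z ^ (15 : ℕ) * u ^ (10 : ℕ) - 562500 * D.z ^ (15 : ℕ) * u ^ (9 : ℕ) * v
      + 1406250 * D.z ^ (15 : ℕ) * u ^ (5 : ℕ) * v ^ (5 : ℕ)
      + 1125000 * D.z ^ (15 : ℕ) * u ^ (4 : ℕ) * v ^ (6 : ℕ) - 46875 * D.z ^ (15 : ℕ) * v ^ (10 : ℕ)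
      + 562500 * D.z ^ (14 : ℕ) * u ^ (9 : ℕ) * v
      + 1125000 * D.z ^ (14 : ℕ) * u ^ (8 : ℕ) * v ^ (2 : ℕ)
      - 1125000 * D.z ^ (14 : ℕ) * u ^ (4 : ℕ) * v ^ (6 : ℕ)
      + 562500 * D.z ^ (14 : ℕ) * u ^ (3 : ℕ) * v ^ (7 : ℕ)
      - 1125000 * D.z ^ (13 : ℕ) * u ^ (8 : ℕ) * v ^ (2 : ℕ)
      - 1687500 * D.z ^ (13 : ℕ) * u ^ (7 : ℕ) * v ^ (3 : ℕ)
      - 562500 * D.z ^ (13 : ℕ) * u ^ (3 : ℕ) * v ^ (7 : ℕ)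
      + 562500 * D.z ^ (13 : ℕ) * u ^ (2 : ℕ) * v ^ (8 : ℕ)
      + 1687500 * D.z ^ (12 : ℕ) * u ^ (7 : ℕ) * v ^ (3 : ℕ)
      + 2812500 * D.z ^ (12 : ℕ) * u ^ (6 : ℕ) * v ^ (4 : ℕ)
      - 562500 * D.z ^ (12 : ℕ) * u ^ (2 : ℕ) * v ^ (8 : ℕ) + 46875 * D.z ^ (11 : ℕ) * u ^ (10 : ℕ)
      - 2812500 * D.z ^ (11 : ℕ) * u ^ (6 : ℕ) * v ^ (4 : ℕ)
      - 1406250 * D.z ^ (11 : ℕ) * u ^ (5 : ℕ) * v ^ (5 : ℕ) + 46875 * D.z ^ (11 : ℕ) * v ^ (10 : ℕ)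
      - 46875 * D.z ^ (10 : ℕ) * u ^ (10 : ℕ) - 562500 * D.z ^ (10 : ℕ) * u ^ (9 : ℕ) * v
      + 1406250 * D.z ^ (10 : ℕ) * u ^ (5 : ℕ) * v ^ (5 : ℕ)
      + 1125000 * D.z ^ (10 : ℕ) * u ^ (4 : ℕ) * v ^ (6 : ℕ) - 46875 * D.z ^ (10 : ℕ) * v ^ (10 : ℕ)
      + 562500 * D.z ^ (9 : ℕ) * u ^ (9 : ℕ) * v
      + 1125000 * D.z ^ (9 : ℕ) * u ^ (8 : ℕ) * v ^ (2 : ℕ)
      - 1125000 * D.z ^ (9 : ℕ) * u ^ (4 : ℕ) * v ^ (6 : ℕ)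
      + 562500 * D.z ^ (9 : ℕ) * u ^ (3 : ℕ) * v ^ (7 : ℕ)
      - 1125000 * D.z ^ (8 : ℕ) * u ^ (8 : ℕ) * v ^ (2 : ℕ)
      - 1687500 * D.z ^ (8 : ℕ) * u ^ (7 : ℕ) * v ^ (3 : ℕ)
      - 562500 * D.z ^ (8 : ℕ) * u ^ (3 : ℕ) * v ^ (7 : ℕ)
      + 562500 * D.z ^ (8 : ℕ) * u ^ (2 : ℕ) * v ^ (8 : ℕ)
      + 1687500 * D.z ^ (7 : ℕ) * u ^ (7 : ℕ) * v ^ (3 : ℕ)
      + 2812500 * D.z ^ (7 : ℕ) * u ^ (6 : ℕ) * v ^ (4 : ℕ)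
      - 562500 * D.z ^ (7 : ℕ) * u ^ (2 : ℕ) * v ^ (8 : ℕ) + 46875 * D.z ^ (6 : ℕ) * u ^ (10 : ℕ)
      - 2812500 * D.z ^ (6 : ℕ) * u ^ (6 : ℕ) * v ^ (4 : ℕ)
      - 1406250 * D.z ^ (6 : ℕ) * u ^ (5 : ℕ) * v ^ (5 : ℕ) + 46875 * D.z ^ (6 : ℕ) * v ^ (10 : ℕ)
      - 46875 * D.z ^ (5 : ℕ) * u ^ (10 : ℕ) - 562500 * D.z ^ (5 : ℕ) * u ^ (9 : ℕ) * v
      + 1406250 * D.z ^ (5 : ℕ) * u ^ (5 : ℕ) * v ^ (5 : ℕ)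
      + 1125000 * D.z ^ (5 : ℕ) * u ^ (4 : ℕ) * v ^ (6 : ℕ) - 46875 * D.z ^ (5 : ℕ) * v ^ (10 : ℕ)
      + 562500 * D.z ^ (4 : ℕ) * u ^ (9 : ℕ) * v
      + 1125000 * D.z ^ (4 : ℕ) * u ^ (8 : ℕ) * v ^ (2 : ℕ)
      - 1125000 * D.z ^ (4 : ℕ) * u ^ (4 : ℕ) * v ^ (6 : ℕ)
      + 562500 * D.z ^ (4 : ℕ) * u ^ (3 : ℕ) * v ^ (7 : ℕ)
      - 1125000 * D.z ^ (3 : ℕ) * u ^ (8 : ℕ) * v ^ (2 : ℕ)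
      - 1687500 * D.z ^ (3 : ℕ) * u ^ (7 : ℕ) * v ^ (3 : ℕ)
      - 562500 * D.z ^ (3 : ℕ) * u ^ (3 : ℕ) * v ^ (7 : ℕ)
      + 562500 * D.z ^ (3 : ℕ) * u ^ (2 : ℕ) * v ^ (8 : ℕ)
      + 1687500 * D.z ^ (2 : ℕ) * u ^ (7 : ℕ) * v ^ (3 : ℕ)
      + 2812500 * D.z ^ (2 : ℕ) * u ^ (6 : ℕ) * v ^ (4 : ℕ)
      - 562500 * D.z ^ (2 : ℕ) * u ^ (2 : ℕ) * v ^ (8 : ℕ) + 46875 * D.z * u ^ (10 : ℕ)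
      - 2812500 * D.z * u ^ (6 : ℕ) * v ^ (4 : ℕ) - 1406250 * D.z * u ^ (5 : ℕ) * v ^ (5 : ℕ)
      + 46875 * D.z * v ^ (10 : ℕ) - 46875 * u ^ (10 : ℕ) - 562500 * u ^ (9 : ℕ) * v
      + 1406250 * u ^ (5 : ℕ) * v ^ (5 : ℕ) + 1125000 * u ^ (4 : ℕ) * v ^ (6 : ℕ)
      - 46875 * v ^ (10 : ℕ)) * D.hz

theorem YQ_S (D : KleinData R) (u v : R) :
    D.YQ (D.Su u) (D.Sv v) = D.YQS u v := by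
  try simp only [s5, m1, m2, Mu, Mv, Su, Sv, b0, b1, b2, b3, b0c, xPP, yBB, yPP, xP, yP, PQ1, PQ2, XQ, YQ, XQS, YQS, klFF, klHH, klTT, klA, klB, klf, klH, klT]
  linear_combination (-210937500 * D.z ^ (40 : ℕ) * u ^ (14 : ℕ) * v + 210937500 * D.z ^ (39 : ℕ) * u ^ (14 : ℕ) * v
      + 843750000 * D.z ^ (39 : ℕ) * u ^ (13 : ℕ) * v ^ (2 : ℕ)
      - 843750000 * D.z ^ (38 : ℕ) * u ^ (13 : ℕ) * v ^ (2 : ℕ)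
      - 1898437500 * D.z ^ (38 : ℕ) * u ^ (12 : ℕ) * v ^ (3 : ℕ)
      + 1898437500 * D.z ^ (37 : ℕ) * u ^ (12 : ℕ) * v ^ (3 : ℕ)
      + 3164062500 * D.z ^ (37 : ℕ) * u ^ (11 : ℕ) * v ^ (4 : ℕ)
      - 3164062500 * D.z ^ (36 : ℕ) * u ^ (11 : ℕ) * v ^ (4 : ℕ)
      - 5273437500 * D.z ^ (36 : ℕ) * u ^ (10 : ℕ) * v ^ (5 : ℕ)
      - 210937500 * D.z ^ (35 : ℕ) * u ^ (14 : ℕ) * v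
      + 5273437500 * D.z ^ (35 : ℕ) * u ^ (10 : ℕ) * v ^ (5 : ℕ)
      + 6117187500 * D.z ^ (35 : ℕ) * u ^ (9 : ℕ) * v ^ (6 : ℕ)
      + 210937500 * D.z ^ (34 : ℕ) * u ^ (14 : ℕ) * v
      + 843750000 * D.z ^ (34 : ℕ) * u ^ (13 : ℕ) * v ^ (2 : ℕ)
      - 6117187500 * D.z ^ (34 : ℕ) * u ^ (9 : ℕ) * v ^ (6 : ℕ)
      - 4429687500 * D.z ^ (34 : ℕ) * u ^ (8 : ℕ) * v ^ (7 : ℕ)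
      - 843750000 * D.z ^ (33 : ℕ) * u ^ (13 : ℕ) * v ^ (2 : ℕ)
      - 1898437500 * D.z ^ (33 : ℕ) * u ^ (12 : ℕ) * v ^ (3 : ℕ)
      + 4429687500 * D.z ^ (33 : ℕ) * u ^ (8 : ℕ) * v ^ (7 : ℕ)
      + 1265625000 * D.z ^ (33 : ℕ) * u ^ (7 : ℕ) * v ^ (8 : ℕ)
      + 1898437500 * D.z ^ (32 : ℕ) * u ^ (12 : ℕ) * v ^ (3 : ℕ)
      + 3164062500 * D.z ^ (32 : ℕ) * u ^ (11 : ℕ) * v ^ (4 : ℕ)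
      - 1265625000 * D.z ^ (32 : ℕ) * u ^ (7 : ℕ) * v ^ (8 : ℕ)
      - 1054687500 * D.z ^ (32 : ℕ) * u ^ (6 : ℕ) * v ^ (9 : ℕ)
      - 3164062500 * D.z ^ (31 : ℕ) * u ^ (11 : ℕ) * v ^ (4 : ℕ)
      - 5273437500 * D.z ^ (31 : ℕ) * u ^ (10 : ℕ) * v ^ (5 : ℕ)
      + 1054687500 * D.z ^ (31 : ℕ) * u ^ (6 : ℕ) * v ^ (9 : ℕ)
      - 210937500 * D.z ^ (30 : ℕ) * u ^ (14 : ℕ) * v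
      + 5273437500 * D.z ^ (30 : ℕ) * u ^ (10 : ℕ) * v ^ (5 : ℕ)
      + 6117187500 * D.z ^ (30 : ℕ) * u ^ (9 : ℕ) * v ^ (6 : ℕ)
      - 843750000 * D.z ^ (30 : ℕ) * u ^ (4 : ℕ) * v ^ (11 : ℕ)
      + 210937500 * D.z ^ (29 : ℕ) * u ^ (14 : ℕ) * v
      + 843750000 * D.z ^ (29 : ℕ) * u ^ (13 : ℕ) * v ^ (2 : ℕ)
      - 6117187500 * D.z ^ (29 : ℕ) * u ^ (9 : ℕ) * v ^ (6 : ℕ)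
      - 4429687500 * D.z ^ (29 : ℕ) * u ^ (8 : ℕ) * v ^ (7 : ℕ)
      + 843750000 * D.z ^ (29 : ℕ) * u ^ (4 : ℕ) * v ^ (11 : ℕ)
      + 210937500 * D.z ^ (29 : ℕ) * u ^ (3 : ℕ) * v ^ (12 : ℕ)
      - 843750000 * D.z ^ (28 : ℕ) * u ^ (13 : ℕ) * v ^ (2 : ℕ)
      - 1898437500 * D.z ^ (28 : ℕ) * u ^ (12 : ℕ) * v ^ (3 : ℕ)
      + 4429687500 * D.z ^ (28 : ℕ) * u ^ (8 : ℕ) * v ^ (7 : ℕ)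
      + 1265625000 * D.z ^ (28 : ℕ) * u ^ (7 : ℕ) * v ^ (8 : ℕ)
      - 210937500 * D.z ^ (28 : ℕ) * u ^ (3 : ℕ) * v ^ (12 : ℕ)
      - 210937500 * D.z ^ (28 : ℕ) * u ^ (2 : ℕ) * v ^ (13 : ℕ)
      + 1898437500 * D.z ^ (27 : ℕ) * u ^ (12 : ℕ) * v ^ (3 : ℕ)
      + 3164062500 * D.z ^ (27 : ℕ) * u ^ (11 : ℕ) * v ^ (4 : ℕ)
      - 1265625000 * D.z ^ (27 : ℕ) * u ^ (7 : ℕ) * v ^ (8 : ℕ)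
      - 1054687500 * D.z ^ (27 : ℕ) * u ^ (6 : ℕ) * v ^ (9 : ℕ)
      + 210937500 * D.z ^ (27 : ℕ) * u ^ (2 : ℕ) * v ^ (13 : ℕ)
      - 3164062500 * D.z ^ (26 : ℕ) * u ^ (11 : ℕ) * v ^ (4 : ℕ)
      - 5273437500 * D.z ^ (26 : ℕ) * u ^ (10 : ℕ) * v ^ (5 : ℕ)
      + 1054687500 * D.z ^ (26 : ℕ) * u ^ (6 : ℕ) * v ^ (9 : ℕ)
      - 210937500 * D.z ^ (25 : ℕ) * u ^ (14 : ℕ) * v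
      + 5273437500 * D.z ^ (25 : ℕ) * u ^ (10 : ℕ) * v ^ (5 : ℕ)
      + 6117187500 * D.z ^ (25 : ℕ) * u ^ (9 : ℕ) * v ^ (6 : ℕ)
      - 843750000 * D.z ^ (25 : ℕ) * u ^ (4 : ℕ) * v ^ (11 : ℕ)
      + 210937500 * D.z ^ (24 : ℕ) * u ^ (14 : ℕ) * v
      + 843750000 * D.z ^ (24 : ℕ) * u ^ (13 : ℕ) * v ^ (2 : ℕ)
      - 6117187500 * D.z ^ (24 : ℕ) * u ^ (9 : ℕ) * v ^ (6 : ℕ)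
      - 4429687500 * D.z ^ (24 : ℕ) * u ^ (8 : ℕ) * v ^ (7 : ℕ)
      + 843750000 * D.z ^ (24 : ℕ) * u ^ (4 : ℕ) * v ^ (11 : ℕ)
      + 210937500 * D.z ^ (24 : ℕ) * u ^ (3 : ℕ) * v ^ (12 : ℕ)
      - 843750000 * D.z ^ (23 : ℕ) * u ^ (13 : ℕ) * v ^ (2 : ℕ)
      - 1898437500 * D.z ^ (23 : ℕ) * u ^ (12 : ℕ) * v ^ (3 : ℕ)
      + 4429687500 * D.z ^ (23 : ℕ) * u ^ (8 : ℕ) * v ^ (7 : ℕ)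
      + 1265625000 * D.z ^ (23 : ℕ) * u ^ (7 : ℕ) * v ^ (8 : ℕ)
      - 210937500 * D.z ^ (23 : ℕ) * u ^ (3 : ℕ) * v ^ (12 : ℕ)
      - 210937500 * D.z ^ (23 : ℕ) * u ^ (2 : ℕ) * v ^ (13 : ℕ)
      + 1898437500 * D.z ^ (22 : ℕ) * u ^ (12 : ℕ) * v ^ (3 : ℕ)
      + 3164062500 * D.z ^ (22 : ℕ) * u ^ (11 : ℕ) * v ^ (4 : ℕ)
      - 1265625000 * D.z ^ (22 : ℕ) * u ^ (7 : ℕ) * v ^ (8 : ℕ)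
      - 1054687500 * D.z ^ (22 : ℕ) * u ^ (6 : ℕ) * v ^ (9 : ℕ)
      + 210937500 * D.z ^ (22 : ℕ) * u ^ (2 : ℕ) * v ^ (13 : ℕ)
      - 3164062500 * D.z ^ (21 : ℕ) * u ^ (11 : ℕ) * v ^ (4 : ℕ)
      - 5273437500 * D.z ^ (21 : ℕ) * u ^ (10 : ℕ) * v ^ (5 : ℕ)
      + 1054687500 * D.z ^ (21 : ℕ) * u ^ (6 : ℕ) * v ^ (9 : ℕ)
      - 210937500 * D.z ^ (20 : ℕ) * u ^ (14 : ℕ) * v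
      + 5273437500 * D.z ^ (20 : ℕ) * u ^ (10 : ℕ) * v ^ (5 : ℕ)
      + 6117187500 * D.z ^ (20 : ℕ) * u ^ (9 : ℕ) * v ^ (6 : ℕ)
      - 843750000 * D.z ^ (20 : ℕ) * u ^ (4 : ℕ) * v ^ (11 : ℕ)
      + 210937500 * D.z ^ (19 : ℕ) * u ^ (14 : ℕ) * v
      + 843750000 * D.z ^ (19 : ℕ) * u ^ (13 : ℕ) * v ^ (2 : ℕ)
      - 6117187500 * D.z ^ (19 : ℕ) * u ^ (9 : ℕ) * v ^ (6 : ℕ)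
      - 4429687500 * D.z ^ (19 : ℕ) * u ^ (8 : ℕ) * v ^ (7 : ℕ)
      + 843750000 * D.z ^ (19 : ℕ) * u ^ (4 : ℕ) * v ^ (11 : ℕ)
      + 210937500 * D.z ^ (19 : ℕ) * u ^ (3 : ℕ) * v ^ (12 : ℕ)
      - 843750000 * D.z ^ (18 : ℕ) * u ^ (13 : ℕ) * v ^ (2 : ℕ)
      - 1898437500 * D.z ^ (18 : ℕ) * u ^ (12 : ℕ) * v ^ (3 : ℕ)
      + 4429687500 * D.z ^ (18 : ℕ) * u ^ (8 : ℕ) * v ^ (7 : ℕ)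
      + 1265625000 * D.z ^ (18 : ℕ) * u ^ (7 : ℕ) * v ^ (8 : ℕ)
      - 210937500 * D.z ^ (18 : ℕ) * u ^ (3 : ℕ) * v ^ (12 : ℕ)
      - 210937500 * D.z ^ (18 : ℕ) * u ^ (2 : ℕ) * v ^ (13 : ℕ)
      + 1898437500 * D.z ^ (17 : ℕ) * u ^ (12 : ℕ) * v ^ (3 : ℕ)
      + 3164062500 * D.z ^ (17 : ℕ) * u ^ (11 : ℕ) * v ^ (4 : ℕ)
      - 1265625000 * D.z ^ (17 : ℕ) * u ^ (7 : ℕ) * v ^ (8 : ℕ)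
      - 1054687500 * D.z ^ (17 : ℕ) * u ^ (6 : ℕ) * v ^ (9 : ℕ)
      + 210937500 * D.z ^ (17 : ℕ) * u ^ (2 : ℕ) * v ^ (13 : ℕ)
      - 3164062500 * D.z ^ (16 : ℕ) * u ^ (11 : ℕ) * v ^ (4 : ℕ)
      - 5273437500 * D.z ^ (16 : ℕ) * u ^ (10 : ℕ) * v ^ (5 : ℕ)
      + 1054687500 * D.z ^ (16 : ℕ) * u ^ (6 : ℕ) * v ^ (9 : ℕ)
      - 210937500 * D.z ^ (15 : ℕ) * u ^ (14 : ℕ) * v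
      + 5273437500 * D.z ^ (15 : ℕ) * u ^ (10 : ℕ) * v ^ (5 : ℕ)
      + 6117187500 * D.z ^ (15 : ℕ) * u ^ (9 : ℕ) * v ^ (6 : ℕ)
      - 843750000 * D.z ^ (15 : ℕ) * u ^ (4 : ℕ) * v ^ (11 : ℕ)
      + 210937500 * D.z ^ (14 : ℕ) * u ^ (14 : ℕ) * v
      + 843750000 * D.z ^ (14 : ℕ) * u ^ (13 : ℕ) * v ^ (2 : ℕ)
      - 6117187500 * D.z ^ (14 : ℕ) * u ^ (9 : ℕ) * v ^ (6 : ℕ)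
      - 4429687500 * D.z ^ (14 : ℕ) * u ^ (8 : ℕ) * v ^ (7 : ℕ)
      + 843750000 * D.z ^ (14 : ℕ) * u ^ (4 : ℕ) * v ^ (11 : ℕ)
      + 210937500 * D.z ^ (14 : ℕ) * u ^ (3 : ℕ) * v ^ (12 : ℕ)
      - 843750000 * D.z ^ (13 : ℕ) * u ^ (13 : ℕ) * v ^ (2 : ℕ)
      - 1898437500 * D.z ^ (13 : ℕ) * u ^ (12 : ℕ) * v ^ (3 : ℕ)
      + 4429687500 * D.z ^ (13 : ℕ) * u ^ (8 : ℕ) * v ^ (7 : ℕ)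
      + 1265625000 * D.z ^ (13 : ℕ) * u ^ (7 : ℕ) * v ^ (8 : ℕ)
      - 210937500 * D.z ^ (13 : ℕ) * u ^ (3 : ℕ) * v ^ (12 : ℕ)
      - 210937500 * D.z ^ (13 : ℕ) * u ^ (2 : ℕ) * v ^ (13 : ℕ)
      + 1898437500 * D.z ^ (12 : ℕ) * u ^ (12 : ℕ) * v ^ (3 : ℕ)
      + 3164062500 * D.z ^ (12 : ℕ) * u ^ (11 : ℕ) * v ^ (4 : ℕ)
      - 1265625000 * D.z ^ (12 : ℕ) * u ^ (7 : ℕ) * v ^ (8 : ℕ)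
      - 1054687500 * D.z ^ (12 : ℕ) * u ^ (6 : ℕ) * v ^ (9 : ℕ)
      + 210937500 * D.z ^ (12 : ℕ) * u ^ (2 : ℕ) * v ^ (13 : ℕ)
      - 3164062500 * D.z ^ (11 : ℕ) * u ^ (11 : ℕ) * v ^ (4 : ℕ)
      - 5273437500 * D.z ^ (11 : ℕ) * u ^ (10 : ℕ) * v ^ (5 : ℕ)
      + 1054687500 * D.z ^ (11 : ℕ) * u ^ (6 : ℕ) * v ^ (9 : ℕ)
      - 210937500 * D.z ^ (10 : ℕ) * u ^ (14 : ℕ) * v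
      + 5273437500 * D.z ^ (10 : ℕ) * u ^ (10 : ℕ) * v ^ (5 : ℕ)
      + 6117187500 * D.z ^ (10 : ℕ) * u ^ (9 : ℕ) * v ^ (6 : ℕ)
      - 843750000 * D.z ^ (10 : ℕ) * u ^ (4 : ℕ) * v ^ (11 : ℕ)
      + 210937500 * D.z ^ (9 : ℕ) * u ^ (14 : ℕ) * v
      + 843750000 * D.z ^ (9 : ℕ) * u ^ (13 : ℕ) * v ^ (2 : ℕ)
      - 6117187500 * D.z ^ (9 : ℕ) * u ^ (9 : ℕ) * v ^ (6 : ℕ)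
      - 4429687500 * D.z ^ (9 : ℕ) * u ^ (8 : ℕ) * v ^ (7 : ℕ)
      + 843750000 * D.z ^ (9 : ℕ) * u ^ (4 : ℕ) * v ^ (11 : ℕ)
      + 210937500 * D.z ^ (9 : ℕ) * u ^ (3 : ℕ) * v ^ (12 : ℕ)
      - 843750000 * D.z ^ (8 : ℕ) * u ^ (13 : ℕ) * v ^ (2 : ℕ)
      - 1898437500 * D.z ^ (8 : ℕ) * u ^ (12 : ℕ) * v ^ (3 : ℕ)
      + 4429687500 * D.z ^ (8 : ℕ) * u ^ (8 : ℕ) * v ^ (7 : ℕ)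
      + 1265625000 * D.z ^ (8 : ℕ) * u ^ (7 : ℕ) * v ^ (8 : ℕ)
      - 210937500 * D.z ^ (8 : ℕ) * u ^ (3 : ℕ) * v ^ (12 : ℕ)
      - 210937500 * D.z ^ (8 : ℕ) * u ^ (2 : ℕ) * v ^ (13 : ℕ)
      + 1898437500 * D.z ^ (7 : ℕ) * u ^ (12 : ℕ) * v ^ (3 : ℕ)
      + 3164062500 * D.z ^ (7 : ℕ) * u ^ (11 : ℕ) * v ^ (4 : ℕ)
      - 1265625000 * D.z ^ (7 : ℕ) * u ^ (7 : ℕ) * v ^ (8 : ℕ)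
      - 1054687500 * D.z ^ (7 : ℕ) * u ^ (6 : ℕ) * v ^ (9 : ℕ)
      + 210937500 * D.z ^ (7 : ℕ) * u ^ (2 : ℕ) * v ^ (13 : ℕ)
      - 3164062500 * D.z ^ (6 : ℕ) * u ^ (11 : ℕ) * v ^ (4 : ℕ)
      - 5273437500 * D.z ^ (6 : ℕ) * u ^ (10 : ℕ) * v ^ (5 : ℕ)
      + 1054687500 * D.z ^ (6 : ℕ) * u ^ (6 : ℕ) * v ^ (9 : ℕ)
      - 210937500 * D.z ^ (5 : ℕ) * u ^ (14 : ℕ) * v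
      + 5273437500 * D.z ^ (5 : ℕ) * u ^ (10 : ℕ) * v ^ (5 : ℕ)
      + 6117187500 * D.z ^ (5 : ℕ) * u ^ (9 : ℕ) * v ^ (6 : ℕ)
      - 843750000 * D.z ^ (5 : ℕ) * u ^ (4 : ℕ) * v ^ (11 : ℕ)
      + 210937500 * D.z ^ (4 : ℕ) * u ^ (14 : ℕ) * v
      + 843750000 * D.z ^ (4 : ℕ) * u ^ (13 : ℕ) * v ^ (2 : ℕ)
      - 6117187500 * D.z ^ (4 : ℕ) * u ^ (9 : ℕ) * v ^ (6 : ℕ)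
      - 4429687500 * D.z ^ (4 : ℕ) * u ^ (8 : ℕ) * v ^ (7 : ℕ)
      + 843750000 * D.z ^ (4 : ℕ) * u ^ (4 : ℕ) * v ^ (11 : ℕ)
      + 210937500 * D.z ^ (4 : ℕ) * u ^ (3 : ℕ) * v ^ (12 : ℕ)
      - 843750000 * D.z ^ (3 : ℕ) * u ^ (13 : ℕ) * v ^ (2 : ℕ)
      - 1898437500 * D.z ^ (3 : ℕ) * u ^ (12 : ℕ) * v ^ (3 : ℕ)
      + 4429687500 * D.z ^ (3 : ℕ) * u ^ (8 : ℕ) * v ^ (7 : ℕ)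
      + 1265625000 * D.z ^ (3 : ℕ) * u ^ (7 : ℕ) * v ^ (8 : ℕ)
      - 210937500 * D.z ^ (3 : ℕ) * u ^ (3 : ℕ) * v ^ (12 : ℕ)
      - 210937500 * D.z ^ (3 : ℕ) * u ^ (2 : ℕ) * v ^ (13 : ℕ)
      + 1898437500 * D.z ^ (2 : ℕ) * u ^ (12 : ℕ) * v ^ (3 : ℕ)
      + 3164062500 * D.z ^ (2 : ℕ) * u ^ (11 : ℕ) * v ^ (4 : ℕ)
      - 1265625000 * D.z ^ (2 : ℕ) * u ^ (7 : ℕ) * v ^ (8 : ℕ)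
      - 1054687500 * D.z ^ (2 : ℕ) * u ^ (6 : ℕ) * v ^ (9 : ℕ)
      + 210937500 * D.z ^ (2 : ℕ) * u ^ (2 : ℕ) * v ^ (13 : ℕ)
      - 3164062500 * D.z * u ^ (11 : ℕ) * v ^ (4 : ℕ)
      - 5273437500 * D.z * u ^ (10 : ℕ) * v ^ (5 : ℕ) + 1054687500 * D.z * u ^ (6 : ℕ) * v ^ (9 : ℕ)
      - 210937500 * u ^ (14 : ℕ) * v + 5273437500 * u ^ (10 : ℕ) * v ^ (5 : ℕ)
      + 6117187500 * u ^ (9 : ℕ) * v ^ (6 : ℕ) - 843750000 * u ^ (4 : ℕ) * v ^ (11 : ℕ)) * D.hz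


end KleinData

end Fermat.Agent.S52
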