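import Fermat.Agent.S52.Klein.TK1
import Fermat.Agent.S52.Klein.TNF
import Fermat.Agent.S52.Klein.TChord

/-!
# S52 (C), piece P-A2, algebra: the action of `T = (√5/5) • M` on Klein's forms (helper50)

Over a field `k` with `5 ≠ 0` and `D : KleinData k`:

* `Tu`, `Tv` : the two coordinates of `T w`, `T = (s5 / 5) • M`;
* `Tu_T`, `Tv_T` : `T (T w) = -w`;
* `xP_T`, `yP_T` : the coordinates of the universal point at `T w` are `XQ / 5⁵`, `s5 * YQ / 5⁸`;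
* `xP_TS`, `yP_TS` : the same at `T (S w)`, namely `XQS / 5⁵`, `s5 * YQS / 5⁸`.
-/

set_option autoImplicit false

namespace Fermat.Agent.S52

namespace KleinData

variable {k : Type*} [Field k]

/-- The scalar `c = √5 / 5` with `T = c • M`. -/
noncomputable def Tc (D : KleinData k) : k := D.s5 / 5

/-- First coordinate of `T w`. -/
noncomputable def Tu (D : KleinData k) (u v : k) : k := D.Tc * D.Mu u v

/-- Second coordinate of `T w`. -/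
noncomputable def Tv (D : KleinData k) (u v : k) : k := D.Tc * D.Mv u v

lemma Tc_sq (D : KleinData k) (h5 : (5 : k) ≠ 0) : D.Tc ^ (2 : ℕ) = 1 / 5 := by
  unfold Tc
  rw [div_pow, s5_sq]
  field_simp

lemma Tc_mul_s5 (D : KleinData k) (h5 : (5 : k) ≠ 0) : D.Tc * D.s5 = 1 := by
  unfold Tc
  have h := D.s5_sq
  field_simp
  linear_combination h

lemma Tc_ne_zero (D : KleinData k) (h5 : (5 : k) ≠ 0) : D.Tc ≠ 0 := by
  intro h0
  have h := D.Tc_mul_s5 h5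
  rw [h0, zero_mul] at h
  exact zero_ne_one h

lemma Tc_pow_ten (D : KleinData k) (h5 : (5 : k) ≠ 0) :
    D.Tc ^ (10 : ℕ) = 1 / 5 ^ (5 : ℕ) := by
  have h := D.Tc_sq h5
  calc D.Tc ^ (10 : ℕ) = (D.Tc ^ (2 : ℕ)) ^ (5 : ℕ) := by ring
    _ = 1 / 5 ^ (5 : ℕ) := by rw [h, div_pow, one_pow]

lemma Tc_pow_fifteen (D : KleinData k) (h5 : (5 : k) ≠ 0) :
    D.Tc ^ (15 : ℕ) = D.s5 / 5 ^ (8 : ℕ) := by
  have h := D.Tc_sq h5
  calc D.Tc ^ (15 : ℕ) = (D.Tc ^ (2 : ℕ)) ^ (7 : ℕ) * D.Tc := by ring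
    _ = D.s5 / 5 ^ (8 : ℕ) := by
        rw [h]
        unfold Tc
        field_simp

/-- `T (T w) = -w`, first coordinate. -/
lemma Tu_T (D : KleinData k) (h5 : (5 : k) ≠ 0) (u v : k) :
    D.Tu (D.Tu u v) (D.Tv u v) = -u := by
  have h1 := D.Tc_sq h5
  have h2 := D.m1_sq_add_m2_sq
  unfold Tu Tv Mu Mv
  have e : D.Tc * (D.m1 * (D.Tc * (D.m1 * u + D.m2 * v)) + D.m2 * (D.Tc * (D.m2 * u - D.m1 * v)))
      = D.Tc ^ (2 : ℕ) * ((D.m1 ^ (2 : ℕ) + D.m2 ^ (2 : ℕ)) * u) := by ring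
  rw [e, h1, h2]
  field_simp

/-- `T (T w) = -w`, second coordinate. -/
lemma Tv_T (D : KleinData k) (h5 : (5 : k) ≠ 0) (u v : k) :
    D.Tv (D.Tu u v) (D.Tv u v) = -v := by
  have h1 := D.Tc_sq h5
  have h2 := D.m1_sq_add_m2_sq
  unfold Tu Tv Mu Mv
  have e : D.Tc * (D.m2 * (D.Tc * (D.m1 * u + D.m2 * v)) - D.m1 * (D.Tc * (D.m2 * u - D.m1 * v)))
      = D.Tc ^ (2 : ℕ) * ((D.m1 ^ (2 : ℕ) + D.m2 ^ (2 : ℕ)) * v) := by ring
  rw [e, h1, h2]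
  field_simp

lemma xPP_smul (D : KleinData k) (c p q : k) :
    D.xPP (c * p) (c * q) = c ^ (2 : ℕ) * D.xPP p q := by
  unfold xPP; ring

lemma yPP_smul (D : KleinData k) (c p q : k) :
    D.yPP (c * p) (c * q) = c ^ (3 : ℕ) * D.yPP p q := by
  unfold yPP yBB; ring

lemma xP_smul (D : KleinData k) (c u v : k) :
    D.xP (c * u) (c * v) = c ^ (10 : ℕ) * D.xP u v := by
  unfold xP
  rw [mul_pow, mul_pow, xPP_smul]
  ring

lemma yP_smul (D : KleinData k) (c u v : k) :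
    D.yP (c * u) (c * v) = c ^ (15 : ℕ) * D.yP u v := by
  unfold yP
  rw [mul_pow, mul_pow, yPP_smul]
  ring

lemma xP_M (D : KleinData k) (u v : k) : D.xP (D.Mu u v) (D.Mv u v) = D.XQ u v := by
  unfold xP
  rw [Mu_pow_five, Mv_pow_five, xPP_PQ]

lemma yP_M (D : KleinData k) (u v : k) : D.yP (D.Mu u v) (D.Mv u v) = D.YQ u v := by
  unfold yP
  rw [Mu_pow_five, Mv_pow_five, yPP_PQ]

/-- `x(P(T w)) = XQ / 5⁵`. -/
lemma xP_T (D : KleinData k) (h5 : (5 : k) ≠ 0) (u v : k) :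
    D.xP (D.Tu u v) (D.Tv u v) = D.XQ u v / 5 ^ (5 : ℕ) := by
  unfold Tu Tv
  rw [xP_smul, xP_M, Tc_pow_ten D h5]
  ring

/-- `y(P(T w)) = s5 * YQ / 5⁸`. -/
lemma yP_T (D : KleinData k) (h5 : (5 : k) ≠ 0) (u v : k) :
    D.yP (D.Tu u v) (D.Tv u v) = D.s5 * D.YQ u v / 5 ^ (8 : ℕ) := by
  unfold Tu Tv
  rw [yP_smul, yP_M, Tc_pow_fifteen D h5]
  ring

/-- `x(P(T S w)) = XQS / 5⁵`. -/
lemma xP_TS (D : KleinData k) (h5 : (5 : k) ≠ 0) (u v : k) :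
    D.xP (D.Tu (D.Su u) (D.Sv v)) (D.Tv (D.Su u) (D.Sv v)) = D.XQS u v / 5 ^ (5 : ℕ) := by
  rw [xP_T D h5, XQ_S]

/-- `y(P(T S w)) = s5 * YQS / 5⁸`. -/
lemma yP_TS (D : KleinData k) (h5 : (5 : k) ≠ 0) (u v : k) :
    D.yP (D.Tu (D.Su u) (D.Sv v)) (D.Tv (D.Su u) (D.Sv v)) = D.s5 * D.YQS u v / 5 ^ (8 : ℕ) := by
  rw [yP_T D h5, YQ_S]

end KleinData

end Fermat.Agent.S52
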