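import Mathlib

/-!
# S52 (C), piece P-A2, generic lemmas on points of short Weierstrass curves (helper50)

* `short_sub_eq_some` : the chord formula for `P₁ - P₂` on a curve with `a₁ = a₂ = a₃ = 0`,
  from two polynomial identities between the coordinates;
* `not_mem_zmultiples_of_X_ne` : if `5 P = 0` and the `x`-coordinate of the affine point `Q` differs
  from those of `P` and `2P`, then `Q ∉ ⟨P⟩`.
-/

set_option autoImplicit false

namespace Fermat.Agent.S52

open WeierstrassCurve WeierstrassCurve.Affine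

variable {k : Type*} [Field k] [DecidableEq k] {W : WeierstrassCurve.Affine k}

/-- **Chord formula** on a short Weierstrass curve: if `x₁ ≠ x₂`,
`(y₁ + y₂)² = (x₁ + x₂ + x₃) (x₁ - x₂)²` and `(y₃ + y₁) (x₂ - x₁) = (y₂ + y₁) (x₃ - x₁)` then
`(x₁, y₁) - (x₂, y₂) = (x₃, y₃)`. -/
theorem short_sub_eq_some (h1 : W.a₁ = 0) (h2 : W.a₂ = 0) (h3 : W.a₃ = 0)
    {x₁ y₁ x₂ y₂ x₃ y₃ : k} (hP₁ : W.Nonsingular x₁ y₁) (hP₂ : W.Nonsingular x₂ y₂)
    (hP₃ : W.Nonsingular x₃ y₃) (hx : x₁ ≠ x₂)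
    (hcx : (y₁ + y₂) ^ 2 = (x₁ + x₂ + x₃) * (x₁ - x₂) ^ 2)
    (hcy : (y₃ + y₁) * (x₂ - x₁) = (y₂ + y₁) * (x₃ - x₁)) :
    Point.some x₁ y₁ hP₁ - Point.some x₂ y₂ hP₂ = Point.some x₃ y₃ hP₃ := by
  have hd : x₁ - x₂ ≠ 0 := sub_ne_zero.mpr hx
  rw [sub_eq_add_neg, Point.neg_some, Point.add_of_X_ne hx, Point.some.injEq]
  have hneg : W.negY x₂ y₂ = -y₂ := by simp [negY, h1, h3]
  have hsl : W.slope x₁ x₂ y₁ (W.negY x₂ y₂) = (y₁ + y₂) / (x₁ - x₂) := by
    rw [slope_of_X_ne hx, hneg, sub_neg_eq_add]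
  have hX : W.addX x₁ x₂ (W.slope x₁ x₂ y₁ (W.negY x₂ y₂)) = x₃ := by
    rw [hsl, addX, h1, h2, div_pow, hcx]
    field_simp
    ring
  refine ⟨hX, ?_⟩
  rw [addY, hX, negAddY, hX, hsl]
  simp only [negY, h1, h3]
  field_simp
  linear_combination hcy

/-- If `5 P = 0` then every multiple of `P` is one of `0, ±P, ±2P`. -/
lemma zsmul_mem_of_five_zsmul {G : Type*} [AddCommGroup G] {P : G} (h5 : (5 : ℤ) • P = 0)
    (n : ℤ) : n • P = 0 ∨ n • P = P ∨ n • P = -P ∨ n • P = P + P ∨ n • P = -(P + P) := by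
  have hn : n • P = (n % 5) • P := by
    conv_lhs => rw [← Int.emod_add_mul_ediv n 5]
    rw [add_zsmul, mul_comm, mul_smul, h5, smul_zero, add_zero]
  have h0 : 0 ≤ n % 5 := Int.emod_nonneg n (by norm_num)
  have h1 : n % 5 < 5 := Int.emod_lt_of_pos n (by norm_num)
  have h4 : (4 : ℤ) • P = -P := by
    have : (4 : ℤ) • P + P = 0 := by
      rw [← h5, show (5 : ℤ) = 4 + 1 by norm_num, add_zsmul, one_zsmul]
    exact eq_neg_of_add_eq_zero_left this
  have h3 : (3 : ℤ) • P = -(P + P) := by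
    have : (3 : ℤ) • P + (P + P) = 0 := by
      rw [← h5, show (5 : ℤ) = 3 + 1 + 1 by norm_num, add_zsmul, add_zsmul, one_zsmul]
      abel
    exact eq_neg_of_add_eq_zero_left this
  rw [hn]
  interval_cases (n % 5)
  · left; simp
  · right; left; simp
  · right; right; right; left
    rw [show (2 : ℤ) = 1 + 1 by norm_num, add_zsmul, one_zsmul]
  · right; right; right; right; exact h3
  · right; right; left; exact h4

/-- If `5 P = 0`, `P = (x, y)`, `2P = (x', y')` and `Q = (xq, yq)` with `xq ≠ x`, `xq ≠ x'`, then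
`Q ∉ ⟨P⟩`. -/
theorem not_mem_zmultiples_of_X_ne {P Q : W.Point} (h5 : (5 : ℤ) • P = 0)
    {x y x' y' xq yq : k} {h : W.Nonsingular x y} {h' : W.Nonsingular x' y'}
    {hq : W.Nonsingular xq yq} (hP : P = Point.some x y h) (h2P : P + P = Point.some x' y' h')
    (hQ : Q = Point.some xq yq hq) (hx : xq ≠ x) (hx' : xq ≠ x') :
    Q ∉ AddSubgroup.zmultiples P := by
  intro hmem
  rw [AddSubgroup.mem_zmultiples_iff] at hmem
  obtain ⟨n, hn⟩ := hmem
  rcases zsmul_mem_of_five_zsmul h5 n with h0 | h0 | h0 | h0 | h0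
  · rw [h0] at hn
    rw [hQ] at hn
    exact Point.some_ne_zero hq hn.symm
  · rw [h0, hP, hQ, Point.some.injEq] at hn
    exact hx hn.1.symm
  · rw [h0, hP, hQ, Point.neg_some, Point.some.injEq] at hn
    exact hx hn.1.symm
  · rw [h0, h2P, hQ, Point.some.injEq] at hn
    exact hx' hn.1.symm
  · rw [h0, h2P, hQ, Point.neg_some, Point.some.injEq] at hn
    exact hx' hn.1.symm

end Fermat.Agent.S52
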