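import Fermat.Agent.S52.Klein.TInvN

set_option autoImplicit false
set_option linter.unusedSimpArgs false
set_option linter.unusedVariables false

namespace Fermat.Agent.S52

namespace KleinData

variable {R : Type*} [CommRing R]
theorem klf_M_aux2 (D : KleinData R) (u v : R) :
    D.Mu u v * D.Mv u v * (D.N20 u v + 11 * D.N11 u v - D.N02 u v) = 5 ^ (6 : ℕ) * klf u v := by
  try simp only [s5, m1, m2, Mu, Mv, Su, Sv, b0, b1, b2, b3, b0c, xPP, yBB, yPP, xP, yP, PQ1, PQ2, XQ, YQ, XQS, YQS, klFF, klHH, klTT, klA, klB, klf, klH, klT, N20, N11, N02, klHH2, klTT2]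
  linear_combination (-6250 * D.z ^ (5 : ℕ) * u ^ (11 : ℕ) * v + 6250 * D.z ^ (5 : ℕ) * u ^ (10 : ℕ) * v ^ (2 : ℕ)
      - 6250 * D.z ^ (5 : ℕ) * u ^ (9 : ℕ) * v ^ (3 : ℕ)
      + 12500 * D.z ^ (5 : ℕ) * u ^ (8 : ℕ) * v ^ (4 : ℕ)
      - 18750 * D.z ^ (5 : ℕ) * u ^ (7 : ℕ) * v ^ (5 : ℕ)
      - 37500 * D.z ^ (5 : ℕ) * u ^ (6 : ℕ) * v ^ (6 : ℕ)
      + 18750 * D.z ^ (5 : ℕ) * u ^ (5 : ℕ) * v ^ (7 : ℕ)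
      + 12500 * D.z ^ (5 : ℕ) * u ^ (4 : ℕ) * v ^ (8 : ℕ)
      + 6250 * D.z ^ (5 : ℕ) * u ^ (3 : ℕ) * v ^ (9 : ℕ)
      + 6250 * D.z ^ (5 : ℕ) * u ^ (2 : ℕ) * v ^ (10 : ℕ) + 6250 * D.z ^ (5 : ℕ) * u * v ^ (11 : ℕ)
      + 25000 * D.z ^ (4 : ℕ) * u ^ (10 : ℕ) * v ^ (2 : ℕ)
      - 25000 * D.z ^ (4 : ℕ) * u ^ (9 : ℕ) * v ^ (3 : ℕ)
      + 50000 * D.z ^ (4 : ℕ) * u ^ (8 : ℕ) * v ^ (4 : ℕ)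
      - 75000 * D.z ^ (4 : ℕ) * u ^ (7 : ℕ) * v ^ (5 : ℕ)
      + 125000 * D.z ^ (4 : ℕ) * u ^ (6 : ℕ) * v ^ (6 : ℕ)
      + 75000 * D.z ^ (4 : ℕ) * u ^ (5 : ℕ) * v ^ (7 : ℕ)
      + 50000 * D.z ^ (4 : ℕ) * u ^ (4 : ℕ) * v ^ (8 : ℕ)
      + 25000 * D.z ^ (4 : ℕ) * u ^ (3 : ℕ) * v ^ (9 : ℕ)
      + 25000 * D.z ^ (4 : ℕ) * u ^ (2 : ℕ) * v ^ (10 : ℕ)
      + 25000 * D.z ^ (3 : ℕ) * u ^ (10 : ℕ) * v ^ (2 : ℕ)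
      - 25000 * D.z ^ (3 : ℕ) * u ^ (9 : ℕ) * v ^ (3 : ℕ)
      + 50000 * D.z ^ (3 : ℕ) * u ^ (8 : ℕ) * v ^ (4 : ℕ)
      - 75000 * D.z ^ (3 : ℕ) * u ^ (7 : ℕ) * v ^ (5 : ℕ)
      + 125000 * D.z ^ (3 : ℕ) * u ^ (6 : ℕ) * v ^ (6 : ℕ)
      + 75000 * D.z ^ (3 : ℕ) * u ^ (5 : ℕ) * v ^ (7 : ℕ)
      + 50000 * D.z ^ (3 : ℕ) * u ^ (4 : ℕ) * v ^ (8 : ℕ)
      + 25000 * D.z ^ (3 : ℕ) * u ^ (3 : ℕ) * v ^ (9 : ℕ)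
      + 25000 * D.z ^ (3 : ℕ) * u ^ (2 : ℕ) * v ^ (10 : ℕ) + 3125 * D.z ^ (2 : ℕ) * u ^ (11 : ℕ) * v
      + 9375 * D.z ^ (2 : ℕ) * u ^ (10 : ℕ) * v ^ (2 : ℕ)
      - 9375 * D.z ^ (2 : ℕ) * u ^ (9 : ℕ) * v ^ (3 : ℕ)
      + 18750 * D.z ^ (2 : ℕ) * u ^ (8 : ℕ) * v ^ (4 : ℕ)
      - 28125 * D.z ^ (2 : ℕ) * u ^ (7 : ℕ) * v ^ (5 : ℕ)
      + 81250 * D.z ^ (2 : ℕ) * u ^ (6 : ℕ) * v ^ (6 : ℕ)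
      + 28125 * D.z ^ (2 : ℕ) * u ^ (5 : ℕ) * v ^ (7 : ℕ)
      + 18750 * D.z ^ (2 : ℕ) * u ^ (4 : ℕ) * v ^ (8 : ℕ)
      + 9375 * D.z ^ (2 : ℕ) * u ^ (3 : ℕ) * v ^ (9 : ℕ)
      + 9375 * D.z ^ (2 : ℕ) * u ^ (2 : ℕ) * v ^ (10 : ℕ) - 3125 * D.z ^ (2 : ℕ) * u * v ^ (11 : ℕ)
      + 15625 * D.z * u ^ (11 : ℕ) * v + 9375 * D.z * u ^ (10 : ℕ) * v ^ (2 : ℕ)
      - 9375 * D.z * u ^ (9 : ℕ) * v ^ (3 : ℕ) + 18750 * D.z * u ^ (8 : ℕ) * v ^ (4 : ℕ)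
      - 28125 * D.z * u ^ (7 : ℕ) * v ^ (5 : ℕ) + 218750 * D.z * u ^ (6 : ℕ) * v ^ (6 : ℕ)
      + 28125 * D.z * u ^ (5 : ℕ) * v ^ (7 : ℕ) + 18750 * D.z * u ^ (4 : ℕ) * v ^ (8 : ℕ)
      + 9375 * D.z * u ^ (3 : ℕ) * v ^ (9 : ℕ) + 9375 * D.z * u ^ (2 : ℕ) * v ^ (10 : ℕ)
      - 15625 * D.z * u * v ^ (11 : ℕ) - 15625 * u ^ (11 : ℕ) * v
      + 3125 * u ^ (10 : ℕ) * v ^ (2 : ℕ) - 3125 * u ^ (9 : ℕ) * v ^ (3 : ℕ)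
      + 6250 * u ^ (8 : ℕ) * v ^ (4 : ℕ) - 9375 * u ^ (7 : ℕ) * v ^ (5 : ℕ)
      - 156250 * u ^ (6 : ℕ) * v ^ (6 : ℕ) + 9375 * u ^ (5 : ℕ) * v ^ (7 : ℕ)
      + 6250 * u ^ (4 : ℕ) * v ^ (8 : ℕ) + 3125 * u ^ (3 : ℕ) * v ^ (9 : ℕ)
      + 3125 * u ^ (2 : ℕ) * v ^ (10 : ℕ) + 15625 * u * v ^ (11 : ℕ)) * D.hz

theorem klf_M_aux (D : KleinData R) (u v : R) :
    D.Mu u v * D.Mv u v * klFF (D.PQ1 u v) (D.PQ2 u v) = 5 ^ (6 : ℕ) * klf u v := by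
  rw [← klf_M_aux2]
  simp only [klFF]
  rw [PQ1_sq, PQ2_sq, mul_assoc (11 : R), PQ1_mul_PQ2]
theorem Su_pow_five (D : KleinData R) (u : R) :
    D.Su u ^ (5 : ℕ) = -u ^ (5 : ℕ) := by
  try simp only [s5, m1, m2, Mu, Mv, Su, Sv, b0, b1, b2, b3, b0c, xPP, yBB, yPP, xP, yP, PQ1, PQ2, XQ, YQ, XQS, YQS, klFF, klHH, klTT, klA, klB, klf, klH, klT, N20, N11, N02, klHH2, klTT2]
  linear_combination (-D.z ^ (11 : ℕ) * u ^ (5 : ℕ) + D.z ^ (10 : ℕ) * u ^ (5 : ℕ) - D.z ^ (6 : ℕ) * u ^ (5 : ℕ)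
      + D.z ^ (5 : ℕ) * u ^ (5 : ℕ) - D.z * u ^ (5 : ℕ) + u ^ (5 : ℕ)) * D.hz

theorem Sv_pow_five (D : KleinData R) (v : R) :
    D.Sv v ^ (5 : ℕ) = -v ^ (5 : ℕ) := by
  try simp only [s5, m1, m2, Mu, Mv, Su, Sv, b0, b1, b2, b3, b0c, xPP, yBB, yPP, xP, yP, PQ1, PQ2, XQ, YQ, XQS, YQS, klFF, klHH, klTT, klA, klB, klf, klH, klT, N20, N11, N02, klHH2, klTT2]
  linear_combination (-D.z ^ (6 : ℕ) * v ^ (5 : ℕ) + D.z ^ (5 : ℕ) * v ^ (5 : ℕ) - D.z * v ^ (5 : ℕ) + v ^ (5 : ℕ)) * D.hz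

theorem Su_mul_Sv (D : KleinData R) (u v : R) :
    D.Su u * D.Sv v = u * v := by
  try simp only [s5, m1, m2, Mu, Mv, Su, Sv, b0, b1, b2, b3, b0c, xPP, yBB, yPP, xP, yP, PQ1, PQ2, XQ, YQ, XQS, YQS, klFF, klHH, klTT, klA, klB, klf, klH, klT, N20, N11, N02, klHH2, klTT2]
  linear_combination (D.z * u * v - u * v) * D.hz


end KleinData

end Fermat.Agent.S52
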