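import Fermat.Agent.S52.Klein.TInvN

set_option autoImplicit false
set_option linter.unusedSimpArgs false
set_option linter.unusedVariables false

namespace Fermat.Agent.S52

namespace KleinData

variable {R : Type*} [CommRing R]
theorem klHH2_N (D : KleinData R) (u v : R) :
    klHH2 (D.N20 u v) (D.N11 u v) (D.N02 u v) = 5 ^ (10 : ℕ) * klH u v := by
  try simp only [s5, m1, m2, Mu, Mv, Su, Sv, b0, b1, b2, b3, b0c, xPP, yBB, yPP, xP, yP, PQ1, PQ2, XQ, YQ, XQS, YQS, klFF, klHH, klTT, klA, klB, klf, klH, klT, N20, N11, N02, klHH2, klTT2]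
  linear_combination (-7656250 * D.z ^ (2 : ℕ) * u ^ (20 : ℕ) - 1875000 * D.z ^ (2 : ℕ) * u ^ (19 : ℕ) * v
      + 11250000 * D.z ^ (2 : ℕ) * u ^ (18 : ℕ) * v ^ (2 : ℕ)
      - 41250000 * D.z ^ (2 : ℕ) * u ^ (17 : ℕ) * v ^ (3 : ℕ)
      + 108750000 * D.z ^ (2 : ℕ) * u ^ (16 : ℕ) * v ^ (4 : ℕ)
      + 1567500000 * D.z ^ (2 : ℕ) * u ^ (15 : ℕ) * v ^ (5 : ℕ)
      + 339375000 * D.z ^ (2 : ℕ) * u ^ (14 : ℕ) * v ^ (6 : ℕ)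
      - 386250000 * D.z ^ (2 : ℕ) * u ^ (13 : ℕ) * v ^ (7 : ℕ)
      + 472500000 * D.z ^ (2 : ℕ) * u ^ (12 : ℕ) * v ^ (8 : ℕ)
      - 211875000 * D.z ^ (2 : ℕ) * u ^ (11 : ℕ) * v ^ (9 : ℕ)
      - 3397812500 * D.z ^ (2 : ℕ) * u ^ (10 : ℕ) * v ^ (10 : ℕ)
      + 211875000 * D.z ^ (2 : ℕ) * u ^ (9 : ℕ) * v ^ (11 : ℕ)
      + 472500000 * D.z ^ (2 : ℕ) * u ^ (8 : ℕ) * v ^ (12 : ℕ)
      + 386250000 * D.z ^ (2 : ℕ) * u ^ (7 : ℕ) * v ^ (13 : ℕ)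
      + 339375000 * D.z ^ (2 : ℕ) * u ^ (6 : ℕ) * v ^ (14 : ℕ)
      - 1567500000 * D.z ^ (2 : ℕ) * u ^ (5 : ℕ) * v ^ (15 : ℕ)
      + 108750000 * D.z ^ (2 : ℕ) * u ^ (4 : ℕ) * v ^ (16 : ℕ)
      + 41250000 * D.z ^ (2 : ℕ) * u ^ (3 : ℕ) * v ^ (17 : ℕ)
      + 11250000 * D.z ^ (2 : ℕ) * u ^ (2 : ℕ) * v ^ (18 : ℕ)
      + 1875000 * D.z ^ (2 : ℕ) * u * v ^ (19 : ℕ) - 7656250 * D.z ^ (2 : ℕ) * v ^ (20 : ℕ)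
      - 7656250 * D.z * u ^ (20 : ℕ) - 1875000 * D.z * u ^ (19 : ℕ) * v
      + 11250000 * D.z * u ^ (18 : ℕ) * v ^ (2 : ℕ) - 41250000 * D.z * u ^ (17 : ℕ) * v ^ (3 : ℕ)
      + 108750000 * D.z * u ^ (16 : ℕ) * v ^ (4 : ℕ) + 1567500000 * D.z * u ^ (15 : ℕ) * v ^ (5 : ℕ)
      + 339375000 * D.z * u ^ (14 : ℕ) * v ^ (6 : ℕ) - 386250000 * D.z * u ^ (13 : ℕ) * v ^ (7 : ℕ)
      + 472500000 * D.z * u ^ (12 : ℕ) * v ^ (8 : ℕ) - 211875000 * D.z * u ^ (11 : ℕ) * v ^ (9 : ℕ)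
      - 3397812500 * D.z * u ^ (10 : ℕ) * v ^ (10 : ℕ)
      + 211875000 * D.z * u ^ (9 : ℕ) * v ^ (11 : ℕ) + 472500000 * D.z * u ^ (8 : ℕ) * v ^ (12 : ℕ)
      + 386250000 * D.z * u ^ (7 : ℕ) * v ^ (13 : ℕ) + 339375000 * D.z * u ^ (6 : ℕ) * v ^ (14 : ℕ)
      - 1567500000 * D.z * u ^ (5 : ℕ) * v ^ (15 : ℕ) + 108750000 * D.z * u ^ (4 : ℕ) * v ^ (16 : ℕ)
      + 41250000 * D.z * u ^ (3 : ℕ) * v ^ (17 : ℕ) + 11250000 * D.z * u ^ (2 : ℕ) * v ^ (18 : ℕ)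
      + 1875000 * D.z * u * v ^ (19 : ℕ) - 7656250 * D.z * v ^ (20 : ℕ) + 7656250 * u ^ (20 : ℕ)
      + 1875000 * u ^ (19 : ℕ) * v - 11250000 * u ^ (18 : ℕ) * v ^ (2 : ℕ)
      + 41250000 * u ^ (17 : ℕ) * v ^ (3 : ℕ) - 108750000 * u ^ (16 : ℕ) * v ^ (4 : ℕ)
      - 1567500000 * u ^ (15 : ℕ) * v ^ (5 : ℕ) - 339375000 * u ^ (14 : ℕ) * v ^ (6 : ℕ)
      + 386250000 * u ^ (13 : ℕ) * v ^ (7 : ℕ) - 472500000 * u ^ (12 : ℕ) * v ^ (8 : ℕ)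
      + 211875000 * u ^ (11 : ℕ) * v ^ (9 : ℕ) + 3397812500 * u ^ (10 : ℕ) * v ^ (10 : ℕ)
      - 211875000 * u ^ (9 : ℕ) * v ^ (11 : ℕ) - 472500000 * u ^ (8 : ℕ) * v ^ (12 : ℕ)
      - 386250000 * u ^ (7 : ℕ) * v ^ (13 : ℕ) - 339375000 * u ^ (6 : ℕ) * v ^ (14 : ℕ)
      + 1567500000 * u ^ (5 : ℕ) * v ^ (15 : ℕ) - 108750000 * u ^ (4 : ℕ) * v ^ (16 : ℕ)
      - 41250000 * u ^ (3 : ℕ) * v ^ (17 : ℕ) - 11250000 * u ^ (2 : ℕ) * v ^ (18 : ℕ)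
      - 1875000 * u * v ^ (19 : ℕ) + 7656250 * v ^ (20 : ℕ)) * D.hz

theorem klHH_PQ (D : KleinData R) (u v : R) :
    klHH (D.PQ1 u v) (D.PQ2 u v) = 5 ^ (10 : ℕ) * klH u v := by
  rw [klHH_eq_klHH2, PQ1_sq, PQ1_mul_PQ2, PQ2_sq, klHH2_N]

end KleinData

end Fermat.Agent.S52
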