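import Fermat.Agent.S52.Klein.TInvT4

set_option autoImplicit false
set_option linter.unusedSimpArgs false
set_option linter.unusedVariables false
set_option maxRecDepth 1000000

namespace Fermat.Agent.S52

namespace KleinData

variable {R : Type*} [CommRing R]
theorem NTA_add_NTC (D : KleinData R) (u v : R) :
    D.NTA u v + D.NTC u v = 5 ^ (15 : ℕ) * klT u v := by
  simp only [NTA, NTC, klT, klTT]
  ring

theorem klTT2_N (D : KleinData R) (u v : R) :
    klTT2 (D.N20 u v) (D.N11 u v) (D.N02 u v) = 5 ^ (15 : ℕ) * klT u v := by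
  rw [← NTA_add_NTC, ← NA2_mul, ← NC2_mul, ← N20_sq, ← N02_sq]
  simp only [klTT2]
  ring

theorem klTT_PQ (D : KleinData R) (u v : R) :
    klTT (D.PQ1 u v) (D.PQ2 u v) = 5 ^ (15 : ℕ) * klT u v := by
  rw [klTT_eq_klTT2, PQ1_sq, PQ1_mul_PQ2, PQ2_sq, klTT2_N]

end KleinData

end Fermat.Agent.S52
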