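import Fermat.Agent.S52.Klein.Points
import Fermat.Agent.S52.Klein.PointsTAlg
import Fermat.Agent.S52.Klein.PointsTGen
import Fermat.Agent.S52.Klein.TInvH
import Fermat.Agent.S52.Klein.TInvT
import Fermat.Agent.S52.Klein.TInvF
import Fermat.Agent.S52.TorsionFive
import Fermat.Agent.S52.TorsionFiveSpan

/-!
# S52 (C), piece P-A2: the second basis point `kP(T w)` of `E[5]` on the Klein fibre (helper50)

`k` a field with `2, 3, 5 ≠ 0`, `D : KleinData k`, `T = (√5 / 5) • M` (`KleinData.Tu`, `Tv`).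

* `KleinData.klH_T`, `klT_T`, `klf_T` : the forms `H`, `T`, `f` are invariant under `T`;
* `KFib.T` : the Klein fibre is stable under `T`;  `KleinData.Tu_T`, `Tv_T` : `T (T w) = -w`;
* `KFib.kP_TS` : the chord relation `kP(T (S w)) = kP(w) - kP(T w)`;
* `KFib.kP_T_not_mem` : `kP(T w) ∉ ⟨kP(w)⟩`;
* `KFib.exists_eq_zsmul_add` : every point killed by `5` is `a • kP(w) + b • kP(T w)`.
-/

set_option autoImplicit false

namespace Fermat.Agent.S52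

open WeierstrassCurve WeierstrassCurve.Affine

variable {k : Type*} [Field k]

namespace KleinData

lemma Tc_pow_twenty (D : KleinData k) (h5 : (5 : k) ≠ 0) :
    D.Tc ^ (20 : ℕ) * 5 ^ (10 : ℕ) = 1 := by
  have h := D.Tc_sq h5
  calc D.Tc ^ (20 : ℕ) * 5 ^ (10 : ℕ) = (D.Tc ^ (2 : ℕ)) ^ (10 : ℕ) * 5 ^ (10 : ℕ) := by ring
    _ = 1 := by rw [h]; field_simp

lemma Tc_pow_thirty (D : KleinData k) (h5 : (5 : k) ≠ 0) :
    D.Tc ^ (30 : ℕ) * 5 ^ (15 : ℕ) = 1 := by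
  have h := D.Tc_sq h5
  calc D.Tc ^ (30 : ℕ) * 5 ^ (15 : ℕ) = (D.Tc ^ (2 : ℕ)) ^ (15 : ℕ) * 5 ^ (15 : ℕ) := by ring
    _ = 1 := by rw [h]; field_simp

lemma Tc_pow_twelve (D : KleinData k) (h5 : (5 : k) ≠ 0) :
    D.Tc ^ (12 : ℕ) * 5 ^ (6 : ℕ) = 1 := by
  have h := D.Tc_sq h5
  calc D.Tc ^ (12 : ℕ) * 5 ^ (6 : ℕ) = (D.Tc ^ (2 : ℕ)) ^ (6 : ℕ) * 5 ^ (6 : ℕ) := by ring
    _ = 1 := by rw [h]; field_simp

lemma klH_M (D : KleinData k) (u v : k) :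
    klH (D.Mu u v) (D.Mv u v) = 5 ^ (10 : ℕ) * klH u v := by
  unfold klH
  rw [Mu_pow_five, Mv_pow_five, klHH_PQ]
  rfl

lemma klT_M (D : KleinData k) (u v : k) :
    klT (D.Mu u v) (D.Mv u v) = 5 ^ (15 : ℕ) * klT u v := by
  unfold klT
  rw [Mu_pow_five, Mv_pow_five, klTT_PQ]
  rfl

lemma klf_M (D : KleinData k) (u v : k) :
    klf (D.Mu u v) (D.Mv u v) = 5 ^ (6 : ℕ) * klf u v := by
  rw [← klf_M_aux]
  unfold klf
  rw [Mu_pow_five, Mv_pow_five]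

/-- `H (T w) = H w`. -/
theorem klH_T (D : KleinData k) (h5 : (5 : k) ≠ 0) (u v : k) :
    klH (D.Tu u v) (D.Tv u v) = klH u v := by
  unfold Tu Tv
  rw [klH_smul, klH_M, ← mul_assoc, Tc_pow_twenty D h5, one_mul]

/-- `T (T w) = T w` for Klein's form `T`. -/
theorem klT_T (D : KleinData k) (h5 : (5 : k) ≠ 0) (u v : k) :
    klT (D.Tu u v) (D.Tv u v) = klT u v := by
  unfold Tu Tv
  rw [klT_smul, klT_M, ← mul_assoc, Tc_pow_thirty D h5, one_mul]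

/-- `f (T w) = f w`. -/
theorem klf_T (D : KleinData k) (h5 : (5 : k) ≠ 0) (u v : k) :
    klf (D.Tu u v) (D.Tv u v) = klf u v := by
  unfold Tu Tv
  rw [klf_smul, klf_M, ← mul_assoc, Tc_pow_twelve D h5, one_mul]

end KleinData

section Points

variable {W : WeierstrassCurve k} {u v : k} (D : KleinData k)

/-- The Klein fibre is stable under `T`. -/
theorem KFib.T (h : KFib W u v) (h5 : (5 : k) ≠ 0) : KFib W (D.Tu u v) (D.Tv u v) where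
  a1 := h.a1
  a2 := h.a2
  a3 := h.a3
  a4 := by rw [D.klH_T h5]; exact h.a4
  a6 := by rw [D.klT_T h5]; exact h.a6
  hf := by rw [D.klf_T h5]; exact h.hf

/-- `x(kP(T w)) ≠ x(kP(w))`. -/
theorem KFib.xP_T_ne (h : KFib W u v) (h2 : (2 : k) ≠ 0) (h3 : (3 : k) ≠ 0) (h5 : (5 : k) ≠ 0) :
    D.xP (D.Tu u v) (D.Tv u v) ≠ D.xP u v := by
  intro h0
  rw [D.xP_T h5, div_eq_iff (pow_ne_zero _ h5)] at h0
  have h1 := D.indep1 u v
  have h4 : D.XQ u v - 5 ^ (5 : ℕ) * D.xP u v = 0 := by rw [h0]; ring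
  rw [h4, zero_mul] at h1
  have h6 : (562500 : k) = 2 ^ 2 * 3 ^ 2 * 5 ^ 6 := by norm_num
  rw [h6] at h1
  exact mul_ne_zero (mul_ne_zero (mul_ne_zero (pow_ne_zero _ h2) (pow_ne_zero _ h3))
    (pow_ne_zero _ h5)) (pow_ne_zero _ h.hf) h1.symm

/-- `x(kP(T w)) ≠ x(2 kP(w)) = x(kP(U w))`. -/
theorem KFib.xP_T_ne_U (h : KFib W u v) (h2 : (2 : k) ≠ 0) (h3 : (3 : k) ≠ 0)
    (h5 : (5 : k) ≠ 0) : D.xP (D.Tu u v) (D.Tv u v) ≠ D.xP (-v) u := by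
  intro h0
  rw [D.xP_T h5, div_eq_iff (pow_ne_zero _ h5)] at h0
  have h1 := D.indep2 u v
  have hU : D.xP (-v) u = D.xPP (-v ^ (5 : ℕ)) (u ^ (5 : ℕ)) := by
    unfold KleinData.xP
    congr 1
    ring
  have h4 : D.XQ u v - 5 ^ (5 : ℕ) * D.xPP (-v ^ (5 : ℕ)) (u ^ (5 : ℕ)) = 0 := by
    rw [← hU, h0]; ring
  rw [h4, zero_mul] at h1
  have h6 : (562500 : k) = 2 ^ 2 * 3 ^ 2 * 5 ^ 6 := by norm_num
  rw [h6] at h1
  exact mul_ne_zero (mul_ne_zero (mul_ne_zero (pow_ne_zero _ h2) (pow_ne_zero _ h3))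
    (pow_ne_zero _ h5)) (pow_ne_zero _ h.hf) h1.symm

variable [DecidableEq k]

/-- **Chord relation**: `kP(T (S w)) = kP(w) - kP(T w)`. -/
theorem KFib.kP_TS (h : KFib W u v) (h2 : (2 : k) ≠ 0) (h3 : (3 : k) ≠ 0) (h5 : (5 : k) ≠ 0) :
    kP D W (D.Tu (D.Su u) (D.Sv v)) (D.Tv (D.Su u) (D.Sv v))
      = kP D W u v - kP D W (D.Tu u v) (D.Tv u v) := by
  have hT := h.T D h5
  have hTS := (h.S D).T D h5
  rw [h.kP_eq D h2 h3 h5, hT.kP_eq D h2 h3 h5, hTS.kP_eq D h2 h3 h5]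
  symm
  have h5' : (5 : k) ^ (5 : ℕ) ≠ 0 := pow_ne_zero _ h5
  have h8' : (5 : k) ^ (8 : ℕ) ≠ 0 := pow_ne_zero _ h5
  refine short_sub_eq_some (W := W.toAffine) h.a1 h.a2 h.a3 _ _ _
    (fun h0 => h.xP_T_ne D h2 h3 h5 h0.symm) ?_ ?_
  · rw [D.xP_TS h5, D.xP_T h5, D.yP_T h5]
    have hc := D.chord_x u v
    field_simp
    linear_combination (-1 : k) * hc
  · rw [D.xP_TS h5, D.yP_TS h5, D.xP_T h5, D.yP_T h5]
    have hc := D.chord_y u v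
    field_simp
    linear_combination hc

/-- **Independence**: `kP(T w) ∉ ⟨kP(w)⟩`. -/
theorem KFib.kP_T_not_mem (h : KFib W u v) (h2 : (2 : k) ≠ 0) (h3 : (3 : k) ≠ 0)
    (h5 : (5 : k) ≠ 0) :
    kP D W (D.Tu u v) (D.Tv u v) ∉ AddSubgroup.zmultiples (kP D W u v) := by
  have hT := h.T D h5
  have hUeq : kP D W u v + kP D W u v = Point.some _ _ (h.U.nonsingular D h2 h3 h5) := by
    rw [← two_nsmul, ← h.kP_U D h2 h3 h5, h.U.kP_eq D h2 h3 h5]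
  exact not_mem_zmultiples_of_X_ne (W := W.toAffine) (h.five_zsmul_kP D h2 h3 h5)
    (h.kP_eq D h2 h3 h5) hUeq (hT.kP_eq D h2 h3 h5) (h.xP_T_ne D h2 h3 h5)
    (h.xP_T_ne_U D h2 h3 h5)

/-- **`E[5] = ⟨kP(w), kP(T w)⟩`**: every point killed by `5` is `a • kP(w) + b • kP(T w)`. -/
theorem KFib.exists_eq_zsmul_add (h : KFib W u v) (h2 : (2 : k) ≠ 0) (h3 : (3 : k) ≠ 0)
    (h5 : (5 : k) ≠ 0) {R : W.toAffine.Point} (hR : (5 : ℤ) • R = 0) :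
    ∃ a b : Fin 5, R = ((a : ℕ) : ℤ) • kP D W u v
      + ((b : ℕ) : ℤ) • kP D W (D.Tu u v) (D.Tv u v) := by
  have hT := h.T D h5
  obtain ⟨hfin, hcard⟩ := torsionFive_card_le (W := W.toAffine) h2 h5
  exact torsionFive_exists_fin (h.five_zsmul_kP D h2 h3 h5) (hT.five_zsmul_kP D h2 h3 h5)
    (h.kP_ne_zero D h2 h3 h5) (h.kP_T_not_mem D h2 h3 h5) hfin hcard hR

end Points

end Fermat.Agent.S52
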