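import Fermat.Agent.S52.Klein.TInvN

set_option autoImplicit false
set_option linter.unusedSimpArgs false
set_option linter.unusedVariables false

namespace Fermat.Agent.S52

namespace KleinData

variable {R : Type*} [CommRing R]
theorem J1_M_aux2 (D : KleinData R) (u v : R) :
    D.Mu u v * (D.N20 u v + 66 * D.N11 u v - 11 * D.N02 u v) = 5 ^ (5 : ℕ) * (D.m1 * (u * klA (u ^ (5 : ℕ)) (v ^ (5 : ℕ))) + D.m2 * (-(v * klB (u ^ (5 : ℕ)) (v ^ (5 : ℕ))))) := by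
  try simp only [s5, m1, m2, Mu, Mv, Su, Sv, b0, b1, b2, b3, b0c, xPP, yBB, yPP, xP, yP, PQ1, PQ2, XQ, YQ, XQS, YQS, klFF, klHH, klTT, klA, klB, klf, klH, klT, N20, N11, N02, klHH2, klTT2]
  linear_combination (37500 * D.z ^ (2 : ℕ) * u ^ (10 : ℕ) * v + 37500 * D.z ^ (2 : ℕ) * u ^ (8 : ℕ) * v ^ (3 : ℕ)
      - 37500 * D.z ^ (2 : ℕ) * u ^ (7 : ℕ) * v ^ (4 : ℕ)
      + 75000 * D.z ^ (2 : ℕ) * u ^ (6 : ℕ) * v ^ (5 : ℕ)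
      + 300000 * D.z ^ (2 : ℕ) * u ^ (5 : ℕ) * v ^ (6 : ℕ)
      + 187500 * D.z ^ (2 : ℕ) * u ^ (4 : ℕ) * v ^ (7 : ℕ)
      + 112500 * D.z ^ (2 : ℕ) * u ^ (3 : ℕ) * v ^ (8 : ℕ)
      + 75000 * D.z ^ (2 : ℕ) * u ^ (2 : ℕ) * v ^ (9 : ℕ) + 37500 * D.z ^ (2 : ℕ) * u * v ^ (10 : ℕ)
      + 37500 * D.z * u ^ (10 : ℕ) * v - 75000 * D.z * u ^ (9 : ℕ) * v ^ (2 : ℕ)
      + 112500 * D.z * u ^ (8 : ℕ) * v ^ (3 : ℕ) - 187500 * D.z * u ^ (7 : ℕ) * v ^ (4 : ℕ)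
      + 300000 * D.z * u ^ (6 : ℕ) * v ^ (5 : ℕ) - 75000 * D.z * u ^ (5 : ℕ) * v ^ (6 : ℕ)
      - 37500 * D.z * u ^ (4 : ℕ) * v ^ (7 : ℕ) - 37500 * D.z * u ^ (3 : ℕ) * v ^ (8 : ℕ)
      - 37500 * D.z * u * v ^ (10 : ℕ) + 37500 * u ^ (10 : ℕ) * v
      - 75000 * u ^ (9 : ℕ) * v ^ (2 : ℕ) + 112500 * u ^ (8 : ℕ) * v ^ (3 : ℕ)
      - 187500 * u ^ (7 : ℕ) * v ^ (4 : ℕ) + 300000 * u ^ (6 : ℕ) * v ^ (5 : ℕ)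
      - 75000 * u ^ (5 : ℕ) * v ^ (6 : ℕ) - 37500 * u ^ (4 : ℕ) * v ^ (7 : ℕ)
      - 37500 * u ^ (3 : ℕ) * v ^ (8 : ℕ) - 37500 * u * v ^ (10 : ℕ)) * D.hz

theorem J2_M_aux2 (D : KleinData R) (u v : R) :
    -(D.Mv u v * (11 * D.N20 u v + 66 * D.N11 u v - D.N02 u v)) = 5 ^ (5 : ℕ) * (D.m2 * (u * klA (u ^ (5 : ℕ)) (v ^ (5 : ℕ))) - D.m1 * (-(v * klB (u ^ (5 : ℕ)) (v ^ (5 : ℕ))))) := by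
  try simp only [s5, m1, m2, Mu, Mv, Su, Sv, b0, b1, b2, b3, b0c, xPP, yBB, yPP, xP, yP, PQ1, PQ2, XQ, YQ, XQS, YQS, klFF, klHH, klTT, klA, klB, klf, klH, klT, N20, N11, N02, klHH2, klTT2]
  linear_combination (-37500 * D.z ^ (2 : ℕ) * u ^ (10 : ℕ) * v + 75000 * D.z ^ (2 : ℕ) * u ^ (9 : ℕ) * v ^ (2 : ℕ)
      - 112500 * D.z ^ (2 : ℕ) * u ^ (8 : ℕ) * v ^ (3 : ℕ)
      + 187500 * D.z ^ (2 : ℕ) * u ^ (7 : ℕ) * v ^ (4 : ℕ)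
      - 300000 * D.z ^ (2 : ℕ) * u ^ (6 : ℕ) * v ^ (5 : ℕ)
      + 75000 * D.z ^ (2 : ℕ) * u ^ (5 : ℕ) * v ^ (6 : ℕ)
      + 37500 * D.z ^ (2 : ℕ) * u ^ (4 : ℕ) * v ^ (7 : ℕ)
      + 37500 * D.z ^ (2 : ℕ) * u ^ (3 : ℕ) * v ^ (8 : ℕ) + 37500 * D.z ^ (2 : ℕ) * u * v ^ (10 : ℕ)
      + 37500 * D.z * u ^ (10 : ℕ) * v + 37500 * D.z * u ^ (8 : ℕ) * v ^ (3 : ℕ)
      - 37500 * D.z * u ^ (7 : ℕ) * v ^ (4 : ℕ) + 75000 * D.z * u ^ (6 : ℕ) * v ^ (5 : ℕ)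
      + 300000 * D.z * u ^ (5 : ℕ) * v ^ (6 : ℕ) + 187500 * D.z * u ^ (4 : ℕ) * v ^ (7 : ℕ)
      + 112500 * D.z * u ^ (3 : ℕ) * v ^ (8 : ℕ) + 75000 * D.z * u ^ (2 : ℕ) * v ^ (9 : ℕ)
      + 37500 * D.z * u * v ^ (10 : ℕ) + 37500 * u ^ (10 : ℕ) * v
      + 37500 * u ^ (8 : ℕ) * v ^ (3 : ℕ) - 37500 * u ^ (7 : ℕ) * v ^ (4 : ℕ)
      + 75000 * u ^ (6 : ℕ) * v ^ (5 : ℕ) + 300000 * u ^ (5 : ℕ) * v ^ (6 : ℕ)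
      + 187500 * u ^ (4 : ℕ) * v ^ (7 : ℕ) + 112500 * u ^ (3 : ℕ) * v ^ (8 : ℕ)
      + 75000 * u ^ (2 : ℕ) * v ^ (9 : ℕ) + 37500 * u * v ^ (10 : ℕ)) * D.hz

theorem J1_M_aux (D : KleinData R) (u v : R) :
    D.Mu u v * klA (D.PQ1 u v) (D.PQ2 u v) = 5 ^ (5 : ℕ) * (D.m1 * (u * klA (u ^ (5 : ℕ)) (v ^ (5 : ℕ))) + D.m2 * (-(v * klB (u ^ (5 : ℕ)) (v ^ (5 : ℕ))))) := by
  rw [← J1_M_aux2]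
  simp only [klA]
  rw [PQ1_sq, PQ2_sq, mul_assoc (66 : R), PQ1_mul_PQ2]

theorem J2_M_aux (D : KleinData R) (u v : R) :
    -(D.Mv u v * klB (D.PQ1 u v) (D.PQ2 u v)) = 5 ^ (5 : ℕ) * (D.m2 * (u * klA (u ^ (5 : ℕ)) (v ^ (5 : ℕ))) - D.m1 * (-(v * klB (u ^ (5 : ℕ)) (v ^ (5 : ℕ))))) := by
  rw [← J2_M_aux2]
  simp only [klB]
  rw [PQ1_sq, PQ2_sq, mul_assoc (66 : R), PQ1_mul_PQ2]

end KleinData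

end Fermat.Agent.S52
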