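import Fermat.Agent.S52.Klein.Cls
import Fermat.Agent.S52.Klein.TNF
import Fermat.Agent.S52.Klein.TInvJ
import Fermat.Agent.S52.Klein.PointsT

/-!
# S52 (C-c): classification of the Klein fibre, final form (helper51)

* `KleinData.cls_klU_M`, `cls_klV_M`, `klU_T`, `klV_T`: the line `w ↦ w + t J∇f(w)` commutes with
  `T = c • M`, `5 c² = 1`;
* `kl_cls`: if `w`, `w'` lie in the same Klein fibre then there are integers `a, b` with
  `kP(w'_t) = a • kP(w_t) + b • kP(T w_t)` for all `t` (`w_t = w + t J∇f(w)`), on every curve `Wt`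
  whose Klein fibre contains `w_t`;
* `kl_cls_zero`: the same statement together with the case `t = 0` spelled out.
-/

set_option autoImplicit false

namespace Fermat.Agent.S52

namespace KleinData

variable {R : Type*} [CommRing R] (D : KleinData R)

theorem cls_pow_ten {c : R} (hc : 5 * c ^ 2 = 1) : 5 ^ 5 * c ^ 10 = 1 := by
  have : (5 : R) ^ 5 * c ^ 10 = (5 * c ^ 2) ^ 5 := by ring
  rw [this, hc, one_pow]

/-- `klU (T w) t = (T (w_t))₁` for `T = c • M`, `5 c² = 1`. -/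
theorem cls_klU_M {c : R} (hc : 5 * c ^ 2 = 1) (u v t : R) :
    klU (c * D.Mu u v) (c * D.Mv u v) t = c * D.Mu (klU u v t) (klV u v t) := by
  have h10 := cls_pow_ten hc
  have hJ := D.J1_M_aux u v
  have hA : klA ((c * D.Mu u v) ^ 5) ((c * D.Mv u v) ^ 5) =
      c ^ 10 * klA (D.PQ1 u v) (D.PQ2 u v) := by
    rw [mul_pow, mul_pow, D.Mu_pow_five, D.Mv_pow_five]
    simp only [klA]; ring
  simp only [klU, klV, hA]
  simp only [Mu] at hJ ⊢
  linear_combination (c * t * c ^ 10) * hJ +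
    (c * t * (D.m1 * (u * klA (u ^ 5) (v ^ 5)) + D.m2 * (-(v * klB (u ^ 5) (v ^ 5))))) * h10

/-- `klV (T w) t = (T (w_t))₂` for `T = c • M`, `5 c² = 1`. -/
theorem cls_klV_M {c : R} (hc : 5 * c ^ 2 = 1) (u v t : R) :
    klV (c * D.Mu u v) (c * D.Mv u v) t = c * D.Mv (klU u v t) (klV u v t) := by
  have h10 := cls_pow_ten hc
  have hJ := D.J2_M_aux u v
  have hB : klB ((c * D.Mu u v) ^ 5) ((c * D.Mv u v) ^ 5) =
      c ^ 10 * klB (D.PQ1 u v) (D.PQ2 u v) := by
    rw [mul_pow, mul_pow, D.Mu_pow_five, D.Mv_pow_five]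
    simp only [klB]; ring
  simp only [klU, klV, hB]
  simp only [Mv] at hJ ⊢
  linear_combination (c * t * c ^ 10) * hJ +
    (c * t * (D.m2 * (u * klA (u ^ 5) (v ^ 5)) - D.m1 * (-(v * klB (u ^ 5) (v ^ 5))))) * h10

end KleinData

section Final

open WeierstrassCurve WeierstrassCurve.Affine

variable {k : Type*} [Field k]

theorem KleinData.cls_five_mul_Tc_sq (D : KleinData k) (h5 : (5 : k) ≠ 0) :
    5 * D.Tc ^ 2 = 1 := by
  rw [D.Tc_sq h5]
  field_simp

/-- the line commutes with `T` (first coordinate) -/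
theorem KleinData.klU_T (D : KleinData k) (h5 : (5 : k) ≠ 0) (u v t : k) :
    D.Tu (klU u v t) (klV u v t) = klU (D.Tu u v) (D.Tv u v) t :=
  (D.cls_klU_M (D.cls_five_mul_Tc_sq h5) u v t).symm

/-- the line commutes with `T` (second coordinate) -/
theorem KleinData.klV_T (D : KleinData k) (h5 : (5 : k) ≠ 0) (u v t : k) :
    D.Tv (klU u v t) (klV u v t) = klV (D.Tu u v) (D.Tv u v) t :=
  (D.cls_klV_M (D.cls_five_mul_Tc_sq h5) u v t).symm

variable [DecidableEq k]

/-- **Classification of the Klein fibre (C-c).** If `w = (u, v)` and `w' = (u', v')` lie in the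
same Klein fibre, there are integers `a, b` such that for all `t`:
`kP(w'_t) = a • kP(w_t) + b • kP(T w_t)`, where `w_t = w + t J∇f(w)`. -/
theorem kl_cls (D : KleinData k) (h2 : (2 : k) ≠ 0) (h3 : (3 : k) ≠ 0) (h5 : (5 : k) ≠ 0)
    {W : WeierstrassCurve k} {u v u' v' : k} (h : KFib W u v) (h' : KFib W u' v') :
    ∃ a b : ℤ, ∀ (t : k) (Wt : WeierstrassCurve k), KFib Wt (klU u v t) (klV u v t) →
      kP D Wt (klU u' v' t) (klV u' v' t) =
        a • kP D Wt (klU u v t) (klV u v t) +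
          b • kP D Wt (D.Tu (klU u v t) (klV u v t)) (D.Tv (klU u v t) (klV u v t)) := by
  refine kl_cls_of D h2 h3 h5 D.Tu D.Tv (fun W u v hw => hw.T D h5) ?_
    (fun W u v hw => hw.kP_TS D h2 h3 h5) ?_ (fun u v t => ⟨D.klU_T h5 u v t, D.klV_T h5 u v t⟩)
    h h'
  · intro W u v hw
    rw [D.Tu_T h5, D.Tv_T h5]
    exact hw.kP_neg D h2 h3 h5
  · intro W u v hw R hR
    obtain ⟨a, b, hab⟩ := hw.exists_eq_zsmul_add D h2 h3 h5 hR
    exact ⟨_, _, hab⟩

/-- `kl_cls` with the case `t = 0` spelled out. -/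
theorem kl_cls_zero (D : KleinData k) (h2 : (2 : k) ≠ 0) (h3 : (3 : k) ≠ 0) (h5 : (5 : k) ≠ 0)
    {W : WeierstrassCurve k} {u v u' v' : k} (h : KFib W u v) (h' : KFib W u' v') :
    ∃ a b : ℤ,
      kP D W u' v' = a • kP D W u v + b • kP D W (D.Tu u v) (D.Tv u v) ∧
      ∀ (t : k) (Wt : WeierstrassCurve k), KFib Wt (klU u v t) (klV u v t) →
        kP D Wt (klU u' v' t) (klV u' v' t) =
          a • kP D Wt (klU u v t) (klV u v t) +
            b • kP D Wt (D.Tu (klU u v t) (klV u v t)) (D.Tv (klU u v t) (klV u v t)) := by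
  obtain ⟨a, b, hab⟩ := kl_cls D h2 h3 h5 h h'
  refine ⟨a, b, ?_, hab⟩
  have h0 := hab 0 W (by rw [klU_zero, klV_zero]; exact h)
  simpa only [klU_zero, klV_zero] using h0

end Final

end Fermat.Agent.S52
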