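import Fermat.Agent.S52.Klein.Frob3
import Fermat.Agent.S52.Klein.ClsT
import Fermat.Agent.F1.Final

/-!
# S52 (C): `KleinCongr` from the line identities (helper52)
-/

set_option autoImplicit false

namespace Fermat.Agent.S52

theorem kleinTLine : KleinTLine := fun _ _ D h5 u v t => ⟨D.klU_T h5 u v t, D.klV_T h5 u v t⟩

theorem kleinCls : KleinCls := fun _ _ _ D h2 h3 h5 _ _ _ _ _ h h' => kl_cls D h2 h3 h5 h h'

theorem kleinCongr_of_lineId (hL : KleinLineId) : KleinCongr :=
  kleinCongr_of_line Fermat.Agent.F1.frobCharEq kleinTLine kleinCls hL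

end Fermat.Agent.S52
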