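import Fermat.Agent.S52.Klein.Frob2

/-!
# S52 (C-d), part 3: `KleinCongr` from `FrobCharEq`, the classification and the line identities
(helper52)
-/

set_option autoImplicit false

namespace Fermat.Agent.S52

open WeierstrassCurve WeierstrassCurve.Affine

/-- equivariance of the line `w ↦ w + t J∇f(w)` under `T` -/
def KleinTLine : Prop :=
  ∀ (k : Type) [Field k] (D : KleinData k), (5 : k) ≠ 0 → ∀ u v t : k,
    D.Tu (klU u v t) (klV u v t) = klU (D.Tu u v) (D.Tv u v) t ∧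
      D.Tv (klU u v t) (klV u v t) = klV (D.Tu u v) (D.Tv u v) t

/-- the classification (C-c) in the form used here -/
def KleinCls : Prop :=
  ∀ (k : Type) [Field k] [DecidableEq k] (D : KleinData k), (2 : k) ≠ 0 → (3 : k) ≠ 0 →
    (5 : k) ≠ 0 → ∀ (W : WeierstrassCurve k) (u v u' v' : k), KFib W u v → KFib W u' v' →
    ∃ a b : ℤ, ∀ (t : k) (Wt : WeierstrassCurve k), KFib Wt (klU u v t) (klV u v t) →
      kP D Wt (klU u' v' t) (klV u' v' t) =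
        a • kP D Wt (klU u v t) (klV u v t) +
          b • kP D Wt (D.Tu (klU u v t) (klV u v t)) (D.Tv (klU u v t) (klV u v t))

/-- the three line identities -/
def KleinLineId : Prop :=
  ∀ (k : Type) [Field k] (u v t : k),
    klH (klU u v t) (klV u v t) = rsH (klH u v) (klT u v) t ∧
    klT (klU u v t) (klV u v t) = rsT (klH u v) (klT u v) t ∧
    klf (klU u v t) (klV u v t) = klf u v * rsF (klH u v) (klT u v) t

section matrix

variable {ℓ : ℕ} [Fact ℓ.Prime] {k : Type} [Field k] [Algebra (ZMod ℓ) k] [DecidableEq k]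

/-- The matrix of Frobenius in the basis `kP(w_s), kP(T w_s)` does not depend on `s ∈ 𝔽_ℓ`. -/
theorem frob_matrix_exists (hTl : KleinTLine) (hcls : KleinCls) (D : KleinData k)
    (h2 : (2 : k) ≠ 0) (h3 : (3 : k) ≠ 0) (h5 : (5 : k) ≠ 0) (j : ℕ)
    (hj : D.z ^ ℓ = (D.conjPow j).z) (E₀ : WeierstrassCurve (ZMod ℓ)) {u v : k}
    (hK₀ : KFib (E₀⁄k) u v) :
    ∃ α β γ δ : ℤ, ∀ (s : ZMod ℓ) (E : WeierstrassCurve (ZMod ℓ)),
      KFib (E⁄k) (klU u v (algebraMap (ZMod ℓ) k s)) (klV u v (algebraMap (ZMod ℓ) k s)) →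
      (frobPt E k
          (kP D (E⁄k) (klU u v (algebraMap (ZMod ℓ) k s)) (klV u v (algebraMap (ZMod ℓ) k s)))
        = α • kP D (E⁄k) (klU u v (algebraMap (ZMod ℓ) k s))
              (klV u v (algebraMap (ZMod ℓ) k s))
          + β • kP D (E⁄k)
              (D.Tu (klU u v (algebraMap (ZMod ℓ) k s)) (klV u v (algebraMap (ZMod ℓ) k s)))
              (D.Tv (klU u v (algebraMap (ZMod ℓ) k s)) (klV u v (algebraMap (ZMod ℓ) k s)))) ∧
      (frobPt E k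
          (kP D (E⁄k)
              (D.Tu (klU u v (algebraMap (ZMod ℓ) k s)) (klV u v (algebraMap (ZMod ℓ) k s)))
              (D.Tv (klU u v (algebraMap (ZMod ℓ) k s)) (klV u v (algebraMap (ZMod ℓ) k s))))
        = γ • kP D (E⁄k) (klU u v (algebraMap (ZMod ℓ) k s))
              (klV u v (algebraMap (ZMod ℓ) k s))
          + δ • kP D (E⁄k)
              (D.Tu (klU u v (algebraMap (ZMod ℓ) k s)) (klV u v (algebraMap (ZMod ℓ) k s)))
              (D.Tv (klU u v (algebraMap (ZMod ℓ) k s)) (klV u v (algebraMap (ZMod ℓ) k s)))) := by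
  obtain ⟨a, b, hab⟩ := hcls k D h2 h3 h5 (E₀⁄k) u v (u ^ ℓ) (v ^ ℓ) hK₀ (hK₀.frob E₀)
  obtain ⟨c, d, hcd⟩ := hcls k D h2 h3 h5 (E₀⁄k) u v ((D.Tu u v) ^ ℓ) ((D.Tv u v) ^ ℓ) hK₀
    ((hK₀.T D h5).frob E₀)
  refine ⟨(-2) ^ j * a, (-2) ^ j * b, (-2) ^ j * c, (-2) ^ j * d, fun s E hK => ⟨?_, ?_⟩⟩
  · rw [hK.frobPt_kP E D h2 h3 h5 j hj, pow_klU_algebraMap, pow_klV_algebraMap,
      hab _ _ hK, smul_add, smul_smul, smul_smul]
  · have hKT := hK.T D h5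
    have e1 : D.Tu (klU u v (algebraMap (ZMod ℓ) k s)) (klV u v (algebraMap (ZMod ℓ) k s)) ^ ℓ
        = klU ((D.Tu u v) ^ ℓ) ((D.Tv u v) ^ ℓ) (algebraMap (ZMod ℓ) k s) := by
      rw [(hTl k D h5 u v _).1, pow_klU_algebraMap]
    have e2 : D.Tv (klU u v (algebraMap (ZMod ℓ) k s)) (klV u v (algebraMap (ZMod ℓ) k s)) ^ ℓ
        = klV ((D.Tu u v) ^ ℓ) ((D.Tv u v) ^ ℓ) (algebraMap (ZMod ℓ) k s) := by
      rw [(hTl k D h5 u v _).2, pow_klV_algebraMap]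
    rw [hKT.frobPt_kP E D h2 h3 h5 j hj, e1, e2, hcd _ _ hK, smul_add, smul_smul, smul_smul]

end matrix

/-- (C): the congruence of traces along the Rubin–Silverberg family. -/
theorem kleinCongr_of_line (hF : FrobCharEq) (hTl : KleinTLine) (hcls : KleinCls)
    (hL : KleinLineId) : KleinCongr := by
  intro ℓ _ hℓ H₀ T₀ t hD hFt
  classical
  have hℓp : ℓ.Prime := Fact.out
  -- the field
  have h2 : (2 : AlgebraicClosure (ZMod ℓ)) ≠ 0 := by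
    have := natCast_ne_zero_of_lt_char (ℓ := ℓ) (k := AlgebraicClosure (ZMod ℓ)) 2
      (by norm_num) (by omega)
    simpa using this
  have h3 : (3 : AlgebraicClosure (ZMod ℓ)) ≠ 0 := by
    have := natCast_ne_zero_of_lt_char (ℓ := ℓ) (k := AlgebraicClosure (ZMod ℓ)) 3
      (by norm_num) (by omega)
    simpa using this
  have h5 : (5 : AlgebraicClosure (ZMod ℓ)) ≠ 0 := by
    have := natCast_ne_zero_of_lt_char (ℓ := ℓ) (k := AlgebraicClosure (ZMod ℓ)) 5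
      (by norm_num) (by omega)
    simpa using this
  obtain ⟨D⟩ := exists_kleinData (AlgebraicClosure (ZMod ℓ))
  have h5ℓ : ¬ 5 ∣ ℓ := by
    intro h
    have := (Nat.prime_dvd_prime_iff_eq (by norm_num) hℓp).mp h
    omega
  obtain ⟨j, -, hj⟩ := D.exists_conjPow_of_coprime ℓ h5ℓ
  -- the base point of the fibre
  have hD' : (algebraMap (ZMod ℓ) (AlgebraicClosure (ZMod ℓ)) T₀ / 5 ^ 3) ^ 2
      + (algebraMap (ZMod ℓ) (AlgebraicClosure (ZMod ℓ)) H₀ / 5 ^ 2) ^ 3 ≠ 0 := by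
    have e : (algebraMap (ZMod ℓ) (AlgebraicClosure (ZMod ℓ)) T₀ / 5 ^ 3) ^ 2
      + (algebraMap (ZMod ℓ) (AlgebraicClosure (ZMod ℓ)) H₀ / 5 ^ 2) ^ 3
      = algebraMap (ZMod ℓ) (AlgebraicClosure (ZMod ℓ)) (T₀ ^ 2 + H₀ ^ 3) / 5 ^ 6 := by
      rw [map_add, map_pow, map_pow]
      field_simp
    rw [e]
    exact div_ne_zero ((map_ne_zero_iff _ (algebraMap (ZMod ℓ)
      (AlgebraicClosure (ZMod ℓ))).injective).mpr hD) (pow_ne_zero _ h5)
  obtain ⟨u, v, hH, hT, hf⟩ := klein_fibre_nonempty h2 h3 h5 _ _ hD'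
  -- the two curves and their fibres
  have hK₀' : KFib ((shortW (27 * H₀) (54 * T₀))⁄(AlgebraicClosure (ZMod ℓ))) u v := by
    refine ⟨shortW_baseChange_a₁ _ _, shortW_baseChange_a₂ _ _, shortW_baseChange_a₃ _ _,
      ?_, ?_, hf⟩
    · rw [shortW_baseChange_a₄, hH, map_mul, map_ofNat]
      field_simp
      ring
    · rw [shortW_baseChange_a₆, hT, map_mul, map_ofNat]
      field_simp
      ring
  have hK₀ : KFib ((shortW (27 * H₀) (54 * T₀))⁄(AlgebraicClosure (ZMod ℓ)))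
      (klU u v (algebraMap (ZMod ℓ) (AlgebraicClosure (ZMod ℓ)) 0))
      (klV u v (algebraMap (ZMod ℓ) (AlgebraicClosure (ZMod ℓ)) 0)) := by
    rw [map_zero, klU_zero, klV_zero]
    exact hK₀'
  obtain ⟨hLH, hLT, hLf⟩ := hL (AlgebraicClosure (ZMod ℓ)) u v
    (algebraMap (ZMod ℓ) (AlgebraicClosure (ZMod ℓ)) (5 * t))
  obtain ⟨hmH, hmT, hmF⟩ := rs_map (algebraMap (ZMod ℓ) (AlgebraicClosure (ZMod ℓ))) H₀ T₀ t
  have hcH := rsH_homog ((5 : AlgebraicClosure (ZMod ℓ))⁻¹)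
    (algebraMap (ZMod ℓ) (AlgebraicClosure (ZMod ℓ)) H₀)
    (algebraMap (ZMod ℓ) (AlgebraicClosure (ZMod ℓ)) T₀)
    (algebraMap (ZMod ℓ) (AlgebraicClosure (ZMod ℓ)) (5 * t))
  have hcT := rsT_homog ((5 : AlgebraicClosure (ZMod ℓ))⁻¹)
    (algebraMap (ZMod ℓ) (AlgebraicClosure (ZMod ℓ)) H₀)
    (algebraMap (ZMod ℓ) (AlgebraicClosure (ZMod ℓ)) T₀)
    (algebraMap (ZMod ℓ) (AlgebraicClosure (ZMod ℓ)) (5 * t))
  have hcF := rsF_homog ((5 : AlgebraicClosure (ZMod ℓ))⁻¹)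
    (algebraMap (ZMod ℓ) (AlgebraicClosure (ZMod ℓ)) H₀)
    (algebraMap (ZMod ℓ) (AlgebraicClosure (ZMod ℓ)) T₀)
    (algebraMap (ZMod ℓ) (AlgebraicClosure (ZMod ℓ)) (5 * t))
  have e25 : (5 : AlgebraicClosure (ZMod ℓ))⁻¹ ^ 2
      * algebraMap (ZMod ℓ) (AlgebraicClosure (ZMod ℓ)) H₀
      = algebraMap (ZMod ℓ) (AlgebraicClosure (ZMod ℓ)) H₀ / 5 ^ 2 := by
    rw [inv_pow, div_eq_inv_mul]
  have e125 : (5 : AlgebraicClosure (ZMod ℓ))⁻¹ ^ 3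
      * algebraMap (ZMod ℓ) (AlgebraicClosure (ZMod ℓ)) T₀
      = algebraMap (ZMod ℓ) (AlgebraicClosure (ZMod ℓ)) T₀ / 5 ^ 3 := by
    rw [inv_pow, div_eq_inv_mul]
  have e5t : (5 : AlgebraicClosure (ZMod ℓ))⁻¹
      * algebraMap (ZMod ℓ) (AlgebraicClosure (ZMod ℓ)) (5 * t)
      = algebraMap (ZMod ℓ) (AlgebraicClosure (ZMod ℓ)) t := by
    rw [map_mul, map_ofNat]
    field_simp
  rw [e25, e125, e5t, ← hmH] at hcH
  rw [e25, e125, e5t, ← hmT] at hcT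
  rw [e25, e125, e5t, ← hmF] at hcF
  rw [hH, hT, hcH] at hLH
  rw [hH, hT, hcT] at hLT
  rw [hH, hT, hcF] at hLf
  have hK₁ : KFib ((shortW (27 * rsH H₀ T₀ t) (54 * rsT H₀ T₀ t))⁄(AlgebraicClosure (ZMod ℓ)))
      (klU u v (algebraMap (ZMod ℓ) (AlgebraicClosure (ZMod ℓ)) (5 * t)))
      (klV u v (algebraMap (ZMod ℓ) (AlgebraicClosure (ZMod ℓ)) (5 * t))) := by
    refine ⟨shortW_baseChange_a₁ _ _, shortW_baseChange_a₂ _ _, shortW_baseChange_a₃ _ _,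
      ?_, ?_, ?_⟩
    · rw [shortW_baseChange_a₄, hLH, map_mul, map_ofNat]
      field_simp
      ring
    · rw [shortW_baseChange_a₆, hLT, map_mul, map_ofNat]
      field_simp
      ring
    · rw [hLf]
      exact mul_ne_zero hf ((map_ne_zero_iff _ (algebraMap (ZMod ℓ)
        (AlgebraicClosure (ZMod ℓ))).injective).mpr hFt)
  -- the common Frobenius matrix
  obtain ⟨α, β, γ, δ, hM⟩ := frob_matrix_exists hTl hcls D h2 h3 h5 j hj
    (shortW (27 * H₀) (54 * T₀)) hK₀'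
  obtain ⟨hP₀, hQ₀⟩ := hM 0 _ hK₀
  obtain ⟨hP₁, hQ₁⟩ := hM (5 * t) _ hK₁
  have hΔ₀ : (shortW (27 * H₀) (54 * T₀)).Δ ≠ 0 :=
    Δ_ne_zero_of_baseChange _ (hK₀.Δ_ne_zero h2 h3 h5)
  have hΔ₁ : (shortW (27 * rsH H₀ T₀ t) (54 * rsT H₀ T₀ t)).Δ ≠ 0 :=
    Δ_ne_zero_of_baseChange _ (hK₁.Δ_ne_zero h2 h3 h5)
  have hc₀ := hF ℓ (by omega) _ _ hΔ₀ (AlgebraicClosure (ZMod ℓ))
    (kP D _ (klU u v (algebraMap (ZMod ℓ) (AlgebraicClosure (ZMod ℓ)) 0))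
      (klV u v (algebraMap (ZMod ℓ) (AlgebraicClosure (ZMod ℓ)) 0)))
  have hc₁ := hF ℓ (by omega) _ _ hΔ₁ (AlgebraicClosure (ZMod ℓ))
    (kP D _ (klU u v (algebraMap (ZMod ℓ) (AlgebraicClosure (ZMod ℓ)) (5 * t)))
      (klV u v (algebraMap (ZMod ℓ) (AlgebraicClosure (ZMod ℓ)) (5 * t))))
  refine dvd_sub_of_same_matrix _ _ _ _ _ _ _ _ (ℓ : ℤ) α β γ δ
    (hK₀.kP_indep D h2 h3 h5) (hK₁.kP_indep D h2 h3 h5) hP₀ hQ₀ hP₁ hQ₁ hc₀ hc₁ ?_
  -- Frobenius does not kill `kP`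
  rintro ⟨⟨α', rfl⟩, ⟨β', rfl⟩⟩
  have h0 : frobPt (shortW (27 * H₀) (54 * T₀)) (AlgebraicClosure (ZMod ℓ))
      (kP D _ (klU u v (algebraMap (ZMod ℓ) (AlgebraicClosure (ZMod ℓ)) 0))
        (klV u v (algebraMap (ZMod ℓ) (AlgebraicClosure (ZMod ℓ)) 0))) = 0 := by
    rw [hP₀, mul_comm (5 : ℤ) α', mul_comm (5 : ℤ) β', mul_smul, mul_smul,
      hK₀.five_zsmul_kP D h2 h3 h5, (hK₀.T D h5).five_zsmul_kP D h2 h3 h5, smul_zero, smul_zero,
      add_zero]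
  have hinj : Function.Injective (frobPt (shortW (27 * H₀) (54 * T₀))
      (AlgebraicClosure (ZMod ℓ))) :=
    Affine.Point.map_injective _
  exact hK₀.kP_ne_zero D h2 h3 h5 (hinj (by rw [h0, map_zero]))

end Fermat.Agent.S52
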