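import Fermat.Agent.S52.Klein.LineT
import Fermat.Agent.S52.Klein.Frob3

/-!
# S52: the three line identities, in the packaged form `KleinLineId` (helper98)
-/

set_option autoImplicit false

namespace Fermat.Agent.S52

/-- The three line identities `H, T, f (w + t J∇f(w)) = rsH, rsT, f(w) * rsF`. -/
theorem kleinLineId : KleinLineId := fun _ _ u v t =>
  ⟨klH_line u v t, kl_lineT u v t, klf_line u v t⟩

end Fermat.Agent.S52
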