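import Fermat.Agent.S52.RS

/-!
# Klein's icosahedral forms `f, H, T` (helper52)

In the variables `p = u⁵`, `q = v⁵`:
`f = u v (p² + 11 p q - q²)`, `H = -(p⁴+q⁴) + 228 (p³q - pq³) - 494 p²q²`,
`T = (p⁶+q⁶) + 522 (p⁵q - pq⁵) - 10005 (p⁴q² + p²q⁴)`, with `T² + H³ = 1728 f⁵`.
`J∇f = (f_v, -f_u) = (u * klA p q, - v * klB p q)`.
-/

set_option autoImplicit false

namespace Fermat.Agent.S52

variable {R : Type*} [CommRing R]

/-- `f / (u v)` as a form in `p = u⁵`, `q = v⁵`. -/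
def klFF (p q : R) : R := p ^ (2 : ℕ) + 11 * p * q - q ^ (2 : ℕ)

/-- Klein's `H` as a form in `p = u⁵`, `q = v⁵`. -/
def klHH (p q : R) : R :=
  -(p ^ (4 : ℕ) + q ^ (4 : ℕ)) + 228 * (p ^ (3 : ℕ) * q - p * q ^ (3 : ℕ))
    - 494 * p ^ (2 : ℕ) * q ^ (2 : ℕ)

/-- Klein's `T` as a form in `p = u⁵`, `q = v⁵`. -/
def klTT (p q : R) : R :=
  (p ^ (6 : ℕ) + q ^ (6 : ℕ)) + 522 * (p ^ (5 : ℕ) * q - p * q ^ (5 : ℕ))
    - 10005 * (p ^ (4 : ℕ) * q ^ (2 : ℕ) + p ^ (2 : ℕ) * q ^ (4 : ℕ))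

/-- `f_v / u` as a form in `p, q`. -/
def klA (p q : R) : R := p ^ (2 : ℕ) + 66 * p * q - 11 * q ^ (2 : ℕ)

/-- `f_u / v` as a form in `p, q`. -/
def klB (p q : R) : R := 11 * p ^ (2 : ℕ) + 66 * p * q - q ^ (2 : ℕ)

/-- Klein's form `f` of degree 12. -/
def klf (u v : R) : R := u * v * klFF (u ^ (5 : ℕ)) (v ^ (5 : ℕ))

/-- Klein's form `H` of degree 20. -/
def klH (u v : R) : R := klHH (u ^ (5 : ℕ)) (v ^ (5 : ℕ))

/-- Klein's form `T` of degree 30. -/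
def klT (u v : R) : R := klTT (u ^ (5 : ℕ)) (v ^ (5 : ℕ))

/-- first component of the line `w + t J∇f(w)` -/
def klU (u v t : R) : R := u * (1 + t * klA (u ^ (5 : ℕ)) (v ^ (5 : ℕ)))

/-- second component of the line `w + t J∇f(w)` -/
def klV (u v t : R) : R := v * (1 - t * klB (u ^ (5 : ℕ)) (v ^ (5 : ℕ)))

theorem klTT_sq_add_klHH_cube (p q : R) :
    klTT p q ^ (2 : ℕ) + klHH p q ^ (3 : ℕ) = 1728 * (p * q * klFF p q ^ (5 : ℕ)) := by
  simp only [klTT, klHH, klFF]; ring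

theorem klT_sq_add_klH_cube (u v : R) :
    klT u v ^ (2 : ℕ) + klH u v ^ (3 : ℕ) = 1728 * klf u v ^ (5 : ℕ) := by
  simp only [klT, klH, klf, klTT_sq_add_klHH_cube]; ring

theorem klA_add_klB (p q : R) : klA p q + klB p q = 12 * klFF p q := by
  simp only [klA, klB, klFF]; ring

/-- homogeneity -/
theorem klH_smul (c u v : R) : klH (c * u) (c * v) = c ^ (20 : ℕ) * klH u v := by
  simp only [klH, klHH]; ring

theorem klT_smul (c u v : R) : klT (c * u) (c * v) = c ^ (30 : ℕ) * klT u v := by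
  simp only [klT, klTT]; ring

theorem klf_smul (c u v : R) : klf (c * u) (c * v) = c ^ (12 : ℕ) * klf u v := by
  simp only [klf, klFF]; ring

end Fermat.Agent.S52
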