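import Mathlib

/-!
# S52 (C-c), abstract part: transitivity of `⟨S, T⟩` on the points of order `5` (helper51)

Abstract setting: a family of abelian groups `Pt W` (the points of the curves `W`), a set `X`
(the vectors `w = (u, v)`), a fibre relation `Fib W x`, two maps `P Q : X → Pt W` (the universal
points) and two transformations `S T : X → X` with
`P ∘ S = -P`, `Q ∘ S = P - Q`, `P ∘ T = Q`, `Q ∘ T = -P` on the fibres, `5 P = 5 Q = 0`.
Then for every `(a, b) ≢ (0, 0) mod 5` there is a word `g` in `S, T` with `P ∘ g = a P + b Q`.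
-/

set_option autoImplicit false

namespace Fermat.Agent.S52

section Abstract

universe uX uW uP

variable {X : Type uX} {𝒲 : Type uW} {Pt : 𝒲 → Type uP} [∀ W, AddCommGroup (Pt W)]

/-- The words in `S`, `T` (as maps `X → X`). -/
inductive KlWord (S T : X → X) : (X → X) → Prop
  | one : KlWord S T id
  | mulS {g : X → X} : KlWord S T g → KlWord S T (g ∘ S)
  | mulT {g : X → X} : KlWord S T g → KlWord S T (g ∘ T)

/-- `(a, b)` is reached by a word in `S, T`. -/
def KlReachA (Fib : 𝒲 → X → Prop) (P Q : ∀ W, X → Pt W) (S T : X → X) (a b : ℤ) : Prop :=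
  ∃ g : X → X, KlWord S T g ∧ ∀ W x, Fib W x → P W (g x) = a • P W x + b • Q W x

variable {Fib : 𝒲 → X → Prop} {P Q : ∀ W, X → Pt W} {S T : X → X}

theorem KlReachA.base : KlReachA Fib P Q S T 1 0 :=
  ⟨id, KlWord.one, fun W x _ => by simp⟩

theorem KlReachA.stepS (hS : ∀ W x, Fib W x → Fib W (S x))
    (hPS : ∀ W x, Fib W x → P W (S x) = -P W x)
    (hQS : ∀ W x, Fib W x → Q W (S x) = P W x - Q W x) {a b : ℤ}
    (h : KlReachA Fib P Q S T a b) : KlReachA Fib P Q S T (b - a) (-b) := by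
  obtain ⟨g, hg, hgP⟩ := h
  refine ⟨g ∘ S, hg.mulS, fun W x hx => ?_⟩
  have := hgP W (S x) (hS W x hx)
  rw [hPS W x hx, hQS W x hx] at this
  change P W (g (S x)) = _
  rw [this]
  simp only [smul_neg, smul_sub, sub_smul, neg_smul]
  abel

theorem KlReachA.stepT (hT : ∀ W x, Fib W x → Fib W (T x))
    (hPT : ∀ W x, Fib W x → P W (T x) = Q W x)
    (hQT : ∀ W x, Fib W x → Q W (T x) = -P W x) {a b : ℤ}
    (h : KlReachA Fib P Q S T a b) : KlReachA Fib P Q S T (-b) a := by
  obtain ⟨g, hg, hgP⟩ := h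
  refine ⟨g ∘ T, hg.mulT, fun W x hx => ?_⟩
  have := hgP W (T x) (hT W x hx)
  rw [hPT W x hx, hQT W x hx] at this
  change P W (g (T x)) = _
  rw [this]
  simp only [smul_neg, neg_smul]
  abel

theorem KlReachA.congr (h5P : ∀ W x, Fib W x → (5 : ℤ) • P W x = 0)
    (h5Q : ∀ W x, Fib W x → (5 : ℤ) • Q W x = 0) {a b a' b' : ℤ}
    (h : KlReachA Fib P Q S T a b) (ha : a ≡ a' [ZMOD 5]) (hb : b ≡ b' [ZMOD 5]) :
    KlReachA Fib P Q S T a' b' := by
  obtain ⟨g, hg, hgP⟩ := h
  refine ⟨g, hg, fun W x hx => ?_⟩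
  rw [hgP W x hx]
  obtain ⟨m, hm⟩ := (Int.modEq_iff_dvd.mp ha)
  obtain ⟨n, hn⟩ := (Int.modEq_iff_dvd.mp hb)
  have ha' : a' = a + m * 5 := by linarith
  have hb' : b' = b + n * 5 := by linarith
  rw [ha', hb', add_smul, add_smul, mul_smul, mul_smul, h5P W x hx, h5Q W x hx]
  simp

/-- Transitivity: every `(a, b) ≢ (0, 0) mod 5` is reached. -/
theorem KlReachA.all (hS : ∀ W x, Fib W x → Fib W (S x))
    (hT : ∀ W x, Fib W x → Fib W (T x))
    (hPS : ∀ W x, Fib W x → P W (S x) = -P W x)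
    (hQS : ∀ W x, Fib W x → Q W (S x) = P W x - Q W x)
    (hPT : ∀ W x, Fib W x → P W (T x) = Q W x)
    (hQT : ∀ W x, Fib W x → Q W (T x) = -P W x)
    (h5P : ∀ W x, Fib W x → (5 : ℤ) • P W x = 0)
    (h5Q : ∀ W x, Fib W x → (5 : ℤ) • Q W x = 0)
    (a b : ℤ) (hab : ¬ ((5 : ℤ) ∣ a ∧ (5 : ℤ) ∣ b)) : KlReachA Fib P Q S T a b := by
  have hbase : KlReachA Fib P Q S T 1 0 := KlReachA.base
  have hstepS : ∀ {a b : ℤ}, KlReachA Fib P Q S T a b → KlReachA Fib P Q S T (b - a) (-b) :=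
    fun h => h.stepS hS hPS hQS
  have hstepT : ∀ {a b : ℤ}, KlReachA Fib P Q S T a b → KlReachA Fib P Q S T (-b) a :=
    fun h => h.stepT hT hPT hQT
  have hcongr : ∀ {a b a' b' : ℤ}, KlReachA Fib P Q S T a b → a ≡ a' [ZMOD 5] →
      b ≡ b' [ZMOD 5] → KlReachA Fib P Q S T a' b' := fun h ha hb => h.congr h5P h5Q ha hb
  have r_1_0 : KlReachA Fib P Q S T 1 0 := hbase
  have r_0_1 : KlReachA Fib P Q S T 0 1 := hcongr (hstepT r_1_0) (by decide) (by decide)
  have r_1_4 : KlReachA Fib P Q S T 1 4 := hcongr (hstepS r_0_1) (by decide) (by decide)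
  have r_3_1 : KlReachA Fib P Q S T 3 1 := hcongr (hstepS r_1_4) (by decide) (by decide)
  have r_4_3 : KlReachA Fib P Q S T 4 3 := hcongr (hstepT r_3_1) (by decide) (by decide)
  have r_4_2 : KlReachA Fib P Q S T 4 2 := hcongr (hstepS r_4_3) (by decide) (by decide)
  have r_3_3 : KlReachA Fib P Q S T 3 3 := hcongr (hstepS r_4_2) (by decide) (by decide)
  have r_0_2 : KlReachA Fib P Q S T 0 2 := hcongr (hstepS r_3_3) (by decide) (by decide)
  have r_3_4 : KlReachA Fib P Q S T 3 4 := hcongr (hstepS r_3_1) (by decide) (by decide)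
  have r_1_3 : KlReachA Fib P Q S T 1 3 := hcongr (hstepT r_3_4) (by decide) (by decide)
  have r_2_2 : KlReachA Fib P Q S T 2 2 := hcongr (hstepS r_1_3) (by decide) (by decide)
  have r_0_3 : KlReachA Fib P Q S T 0 3 := hcongr (hstepS r_2_2) (by decide) (by decide)
  have r_4_0 : KlReachA Fib P Q S T 4 0 := hcongr (hstepS r_1_0) (by decide) (by decide)
  have r_0_4 : KlReachA Fib P Q S T 0 4 := hcongr (hstepT r_4_0) (by decide) (by decide)
  have r_1_1 : KlReachA Fib P Q S T 1 1 := hcongr (hstepT r_1_4) (by decide) (by decide)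
  have r_4_1 : KlReachA Fib P Q S T 4 1 := hcongr (hstepS r_0_4) (by decide) (by decide)
  have r_2_4 : KlReachA Fib P Q S T 2 4 := hcongr (hstepS r_4_1) (by decide) (by decide)
  have r_1_2 : KlReachA Fib P Q S T 1 2 := hcongr (hstepT r_2_4) (by decide) (by decide)
  have r_2_0 : KlReachA Fib P Q S T 2 0 := hcongr (hstepT r_0_3) (by decide) (by decide)
  have r_2_1 : KlReachA Fib P Q S T 2 1 := hcongr (hstepS r_2_4) (by decide) (by decide)
  have r_2_3 : KlReachA Fib P Q S T 2 3 := hcongr (hstepT r_3_3) (by decide) (by decide)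
  have r_3_0 : KlReachA Fib P Q S T 3 0 := hcongr (hstepT r_0_2) (by decide) (by decide)
  have r_3_2 : KlReachA Fib P Q S T 3 2 := hcongr (hstepT r_2_2) (by decide) (by decide)
  have r_4_4 : KlReachA Fib P Q S T 4 4 := hcongr (hstepT r_4_1) (by decide) (by decide)
  have ha1 := Int.emod_nonneg a (by norm_num : (5 : ℤ) ≠ 0)
  have ha2 := Int.emod_lt_of_pos a (by norm_num : (0 : ℤ) < 5)
  have hb1 := Int.emod_nonneg b (by norm_num : (5 : ℤ) ≠ 0)
  have hb2 := Int.emod_lt_of_pos b (by norm_num : (0 : ℤ) < 5)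
  have hae : (a % 5) ≡ a [ZMOD 5] := Int.mod_modEq a 5
  have hbe : (b % 5) ≡ b [ZMOD 5] := Int.mod_modEq b 5
  have hab' : ¬ (a % 5 = 0 ∧ b % 5 = 0) := fun h =>
    hab ⟨Int.dvd_of_emod_eq_zero h.1, Int.dvd_of_emod_eq_zero h.2⟩
  generalize a % 5 = i at ha1 ha2 hae hab'
  generalize b % 5 = j at hb1 hb2 hbe hab'
  interval_cases i <;> interval_cases j <;>
    first
    | exact absurd ⟨rfl, rfl⟩ hab'
    | exact hcongr (by assumption) hae hbe

/-- a word in `S, T` preserves the fibres. -/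
theorem KlWord.fib {g : X → X} (hg : KlWord S T g) (hS : ∀ W x, Fib W x → Fib W (S x))
    (hT : ∀ W x, Fib W x → Fib W (T x)) : ∀ W x, Fib W x → Fib W (g x) := by
  induction hg with
  | one => exact fun W x hx => hx
  | mulS _ ih => exact fun W x hx => ih W (S x) (hS W x hx)
  | mulT _ ih => exact fun W x hx => ih W (T x) (hT W x hx)

/-- a word in `S, T` commutes with every map commuting with `S` and `T`. -/
theorem KlWord.comm {g : X → X} (hg : KlWord S T g) (L : X → X)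
    (hS : ∀ x, S (L x) = L (S x)) (hT : ∀ x, T (L x) = L (T x)) : ∀ x, g (L x) = L (g x) := by
  induction hg with
  | one => exact fun x => rfl
  | @mulS g' _ ih =>
    intro x
    change g' (S (L x)) = L (g' (S x))
    rw [← ih (S x), ← hS x]
  | @mulT g' _ ih =>
    intro x
    change g' (T (L x)) = L (g' (T x))
    rw [← ih (T x), ← hT x]

end Abstract

end Fermat.Agent.S52
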