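import Fermat.Agent.S52.Klein.TDefs

/-!
# S52 (C-c), coordinate part: `(p, q)` is determined by the pair `(P, 2P)` (helper51)

`yP / klFF` is a LINEAR form in `(p, q) = (u⁵, v⁵)`: `yBB p q = (b0 p - b3 q) * klFF p q`, and
`xPP p q - xPP (-q) p = -36 s5 klFF p q`, `b0² + b3² = -291600 = -(2² 3³ 5)²`.
Hence the coordinates of `P(w) = (xPP p q, yPP p q)` and of `2 P(w) = (xPP (-q) p, yPP (-q) p)`
determine `(p, q)` (if `2, 3, 5` are invertible and `klFF p q ≠ 0`).
-/

set_option autoImplicit false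

namespace Fermat.Agent.S52

namespace KleinData

section Ring

variable {R : Type*} [CommRing R] (D : KleinData R)

theorem cls_s5_sq : D.s5 ^ (2 : ℕ) = 5 := by
  simp only [s5]
  linear_combination (-4 + 4 * D.z + 4 * D.z ^ (2 : ℕ)) * D.hz

theorem cls_b0_sq_add_b3_sq : D.b0 ^ (2 : ℕ) + D.b3 ^ (2 : ℕ) = -291600 := by
  simp only [b0, b3]
  linear_combination (349920 - 116640 * D.z + 116640 * D.z ^ (2 : ℕ)) * D.hz

theorem cls_xPP_sub (p q : R) : D.xPP p q - D.xPP (-q) p = -36 * D.s5 * klFF p q := by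
  simp only [xPP, klFF]; ring

theorem cls_yBB_eq (p q : R) : D.yBB p q = (D.b0 * p - D.b3 * q) * klFF p q := by
  simp only [yBB, klFF, b0, b1, b2, b3]; ring

theorem cls_klFF_neg_swap (p q : R) : klFF (-q) p = -klFF p q := by
  simp only [klFF]; ring

end Ring

section Field

variable {k : Type*} [Field k] (D : KleinData k)

theorem cls_s5_ne_zero (h5 : (5 : k) ≠ 0) : D.s5 ≠ 0 := by
  intro h
  have := D.cls_s5_sq
  rw [h] at this
  exact h5 (by simpa using this.symm)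

/-- `(p, q)` is determined by the coordinates of `P` and of `2P`. -/
theorem cls_pq_unique (h2 : (2 : k) ≠ 0) (h3 : (3 : k) ≠ 0) (h5 : (5 : k) ≠ 0)
    {p q p' q' : k} (hF : klFF p q ≠ 0)
    (hx : D.xPP p' q' = D.xPP p q) (hy : D.yPP p' q' = D.yPP p q)
    (hx2 : D.xPP (-q') p' = D.xPP (-q) p) (hy2 : D.yPP (-q') p' = D.yPP (-q) p) :
    p' = p ∧ q' = q := by
  have hs := D.cls_s5_ne_zero h5
  have h36 : (36 : k) ≠ 0 := by
    have : (36 : k) = 2 ^ 2 * 3 ^ 2 := by norm_num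
    rw [this]
    exact mul_ne_zero (pow_ne_zero _ h2) (pow_ne_zero _ h3)
  -- `klFF` agree
  have hFF : klFF p' q' = klFF p q := by
    have h1 := D.cls_xPP_sub p' q'
    have h2' := D.cls_xPP_sub p q
    have h3' : -36 * D.s5 * klFF p' q' = -36 * D.s5 * klFF p q := by
      rw [← h1, ← h2', hx, hx2]
    have hne : (-36 : k) * D.s5 ≠ 0 := mul_ne_zero (neg_ne_zero.mpr h36) hs
    exact mul_left_cancel₀ hne h3'
  -- the two linear forms agree
  have hL1 : D.b0 * p' - D.b3 * q' = D.b0 * p - D.b3 * q := by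
    have h1 : D.yBB p' q' = D.yBB p q := by
      simp only [yPP] at hy
      exact mul_left_cancel₀ hs hy
    rw [D.cls_yBB_eq, D.cls_yBB_eq, hFF] at h1
    exact mul_right_cancel₀ hF h1
  have hL2 : D.b0 * (-q') - D.b3 * p' = D.b0 * (-q) - D.b3 * p := by
    have h1 : D.yBB (-q') p' = D.yBB (-q) p := by
      simp only [yPP] at hy2
      exact mul_left_cancel₀ hs hy2
    rw [D.cls_yBB_eq, D.cls_yBB_eq, cls_klFF_neg_swap, cls_klFF_neg_swap, hFF] at h1
    exact mul_right_cancel₀ (neg_ne_zero.mpr hF) h1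
  have hdet : D.b0 ^ (2 : ℕ) + D.b3 ^ (2 : ℕ) ≠ 0 := by
    rw [D.cls_b0_sq_add_b3_sq]
    have : (-291600 : k) = -(2 ^ 4 * 3 ^ 6 * 5 ^ 2) := by norm_num
    rw [this]
    exact neg_ne_zero.mpr
      (mul_ne_zero (mul_ne_zero (pow_ne_zero _ h2) (pow_ne_zero _ h3)) (pow_ne_zero _ h5))
  constructor
  · have : (D.b0 ^ (2 : ℕ) + D.b3 ^ (2 : ℕ)) * (p' - p) = 0 := by
      linear_combination D.b0 * hL1 - D.b3 * hL2
    rcases mul_eq_zero.mp this with h | h
    · exact absurd h hdet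
    · exact sub_eq_zero.mp h
  · have : (D.b0 ^ (2 : ℕ) + D.b3 ^ (2 : ℕ)) * (q' - q) = 0 := by
      linear_combination -D.b3 * hL1 - D.b0 * hL2
    rcases mul_eq_zero.mp this with h | h
    · exact absurd h hdet
    · exact sub_eq_zero.mp h

end Field

end KleinData

end Fermat.Agent.S52
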