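import Fermat.Agent.S52.Klein.Points
import Fermat.Agent.S52.Klein.TInvF
import Fermat.Agent.S52.Klein.ClsAbstract
import Fermat.Agent.S52.Klein.ClsCoord

/-!
# S52 (C-c): classification of the Klein fibre, in the form needed for Frobenius (helper51)

`kl_cls_of`: if `w = (u, v)` and `w' = (u', v')` lie in the same Klein fibre (`KFib W`), then there
are integers `a, b` such that FOR ALL `t` (and every curve `Wt` whose fibre contains
`w_t = w + t J∇f(w)`):  `kP(w'_t) = a • kP(w_t) + b • kP(T w_t)`.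

Proof: `kP(w')` is killed by `5`, so it is `a • kP(w) + b • kP(T w)`; by transitivity of `⟨S, T⟩` on
`𝔽₅² \ 0` there is a word `g` in `S, T` with `kP ∘ g = a • kP + b • kP ∘ T` on all fibres; the pair
`(kP, 2 • kP)` determines `(u⁵, v⁵)` (`cls_pq_unique`), so `w'` and `g w` have the same fifth powers;
the line `w ↦ w_t` commutes with `g`, and `kP(w_t)` only depends on `(u⁵, v⁵)`.

The facts about `T` are hypotheses here (`kl_cls_of`); they are supplied by `PointsT.lean`.
-/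

set_option autoImplicit false

namespace Fermat.Agent.S52

open WeierstrassCurve WeierstrassCurve.Affine

section Line

variable {R : Type*} [CommRing R]

/-- the line `w ↦ w + t J∇f(w)` as a map of pairs -/
def klLine (t : R) (x : R × R) : R × R := (klU x.1 x.2 t, klV x.1 x.2 t)

theorem klU_zero (u v : R) : klU u v 0 = u := by simp [klU]

theorem klV_zero (u v : R) : klV u v 0 = v := by simp [klV]

theorem klU_pow_five (u v t : R) :
    klU u v t ^ 5 = u ^ 5 * (1 + t * klA (u ^ 5) (v ^ 5)) ^ 5 := by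
  simp only [klU]; ring

theorem klV_pow_five (u v t : R) :
    klV u v t ^ 5 = v ^ 5 * (1 - t * klB (u ^ 5) (v ^ 5)) ^ 5 := by
  simp only [klV]; ring

theorem KleinData.cls_klU_S (D : KleinData R) (u v t : R) :
    klU (D.Su u) (D.Sv v) t = D.Su (klU u v t) := by
  have hA : klA (-u ^ 5) (-v ^ 5) = klA (u ^ 5) (v ^ 5) := by simp only [klA]; ring
  simp only [klU, D.Su_pow_five, D.Sv_pow_five, hA]
  simp only [KleinData.Su]; ring

theorem KleinData.cls_klV_S (D : KleinData R) (u v t : R) :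
    klV (D.Su u) (D.Sv v) t = D.Sv (klV u v t) := by
  have hB : klB (-u ^ 5) (-v ^ 5) = klB (u ^ 5) (v ^ 5) := by simp only [klB]; ring
  simp only [klV, D.Su_pow_five, D.Sv_pow_five, hB]
  simp only [KleinData.Sv]; ring

end Line

variable {k : Type*} [Field k]

/-- Classification of the Klein fibre (C-c), with the facts about `T` as hypotheses. -/
theorem kl_cls_of [DecidableEq k] (D : KleinData k) (h2 : (2 : k) ≠ 0) (h3 : (3 : k) ≠ 0)
    (h5 : (5 : k) ≠ 0) (Tu Tv : k → k → k)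
    (hTfib : ∀ (W : WeierstrassCurve k) (u v : k), KFib W u v → KFib W (Tu u v) (Tv u v))
    (hTT : ∀ (W : WeierstrassCurve k) (u v : k), KFib W u v →
      kP D W (Tu (Tu u v) (Tv u v)) (Tv (Tu u v) (Tv u v)) = -kP D W u v)
    (hchord : ∀ (W : WeierstrassCurve k) (u v : k), KFib W u v →
      kP D W (Tu (D.Su u) (D.Sv v)) (Tv (D.Su u) (D.Sv v)) =
        kP D W u v - kP D W (Tu u v) (Tv u v))
    (hspan : ∀ (W : WeierstrassCurve k) (u v : k), KFib W u v → ∀ R : W.toAffine.Point,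
      (5 : ℤ) • R = 0 → ∃ a b : ℤ, R = a • kP D W u v + b • kP D W (Tu u v) (Tv u v))
    (hTline : ∀ u v t : k, Tu (klU u v t) (klV u v t) = klU (Tu u v) (Tv u v) t ∧
      Tv (klU u v t) (klV u v t) = klV (Tu u v) (Tv u v) t)
    {W : WeierstrassCurve k} {u v u' v' : k} (h : KFib W u v) (h' : KFib W u' v') :
    ∃ a b : ℤ, ∀ (t : k) (Wt : WeierstrassCurve k), KFib Wt (klU u v t) (klV u v t) →
      kP D Wt (klU u' v' t) (klV u' v' t) =
        a • kP D Wt (klU u v t) (klV u v t) +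
          b • kP D Wt (Tu (klU u v t) (klV u v t)) (Tv (klU u v t) (klV u v t)) := by
  -- the abstract data
  let Fib : WeierstrassCurve k → k × k → Prop := fun W x => KFib W x.1 x.2
  let P : ∀ W : WeierstrassCurve k, k × k → W.toAffine.Point := fun W x => kP D W x.1 x.2
  let Q : ∀ W : WeierstrassCurve k, k × k → W.toAffine.Point :=
    fun W x => kP D W (Tu x.1 x.2) (Tv x.1 x.2)
  let S : k × k → k × k := fun x => (D.Su x.1, D.Sv x.2)
  let T : k × k → k × k := fun x => (Tu x.1 x.2, Tv x.1 x.2)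
  have hS : ∀ W x, Fib W x → Fib W (S x) := fun W x hx => KFib.S D hx
  have hT : ∀ W x, Fib W x → Fib W (T x) := fun W x hx => hTfib W _ _ hx
  have hPS : ∀ W x, Fib W x → P W (S x) = -P W x := fun W x hx => KFib.kP_S D hx h2 h3 h5
  have hQS : ∀ W x, Fib W x → Q W (S x) = P W x - Q W x := fun W x hx => hchord W _ _ hx
  have hPT : ∀ W x, Fib W x → P W (T x) = Q W x := fun W x hx => rfl
  have hQT : ∀ W x, Fib W x → Q W (T x) = -P W x := fun W x hx => hTT W _ _ hx
  have h5P : ∀ W x, Fib W x → (5 : ℤ) • P W x = 0 :=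
    fun W x hx => KFib.five_zsmul_kP D hx h2 h3 h5
  have h5Q : ∀ W x, Fib W x → (5 : ℤ) • Q W x = 0 :=
    fun W x hx => KFib.five_zsmul_kP D (hT W x hx) h2 h3 h5
  -- Step A: `kP(w') = a • kP(w) + b • kP(T w)`
  obtain ⟨a, b, hab⟩ := hspan W u v h (kP D W u' v') (KFib.five_zsmul_kP D h' h2 h3 h5)
  have hnd : ¬ ((5 : ℤ) ∣ a ∧ (5 : ℤ) ∣ b) := by
    rintro ⟨⟨a', rfl⟩, ⟨b', rfl⟩⟩
    apply KFib.kP_ne_zero D h' h2 h3 h5
    have e1 := h5P W (u, v) h
    have e2 := h5Q W (u, v) h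
    rw [hab, mul_comm 5 a', mul_comm 5 b', mul_smul, mul_smul]
    change a' • (5 : ℤ) • P W (u, v) + b' • (5 : ℤ) • Q W (u, v) = 0
    rw [e1, e2]
    simp
  -- Step B: a word `g` with `kP ∘ g = a • kP + b • kP ∘ T`
  obtain ⟨g, hg, hgP⟩ :=
    KlReachA.all (Fib := Fib) (P := P) (Q := Q) (S := S) (T := T)
      hS hT hPS hQS hPT hQT h5P h5Q a b hnd
  refine ⟨a, b, fun t Wt ht => ?_⟩
  -- Step C: `g` preserves the fibres and commutes with the line
  have hgfib := hg.fib (Fib := Fib) hS hT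
  have hgline := hg.comm (klLine t)
    (fun x => Prod.ext (D.cls_klU_S x.1 x.2 t).symm (D.cls_klV_S x.1 x.2 t).symm)
    (fun x => Prod.ext (hTline x.1 x.2 t).1 (hTline x.1 x.2 t).2)
  -- Step D: `w'` and `g w` have the same fifth powers
  have hw'' : KFib W (g (u, v)).1 (g (u, v)).2 := hgfib W (u, v) h
  have hPeq : kP D W (g (u, v)).1 (g (u, v)).2 = kP D W u' v' := by
    rw [hab]; exact hgP W (u, v) h
  have hPeq2 : kP D W (-(g (u, v)).2) (g (u, v)).1 = kP D W (-v') u' := by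
    rw [KFib.kP_U D hw'' h2 h3 h5, KFib.kP_U D h' h2 h3 h5, hPeq]
  rw [KFib.kP_eq D hw'' h2 h3 h5, KFib.kP_eq D h' h2 h3 h5, Point.some.injEq] at hPeq
  rw [KFib.kP_eq D hw''.U h2 h3 h5, KFib.kP_eq D h'.U h2 h3 h5, Point.some.injEq] at hPeq2
  have e : ∀ x : k, (-x) ^ 5 = -(x ^ 5) := fun x => by ring
  have hpq := D.cls_pq_unique h2 h3 h5 h'.klFF_ne_zero
    (p' := (g (u, v)).1 ^ 5) (q' := (g (u, v)).2 ^ 5) hPeq.1 hPeq.2
    (by have := hPeq2.1; simpa only [KleinData.xP, e] using this)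
    (by have := hPeq2.2; simpa only [KleinData.yP, e] using this)
  -- Step E
  have hE1 : kP D Wt (klU u' v' t) (klV u' v' t) =
      kP D Wt (klU (g (u, v)).1 (g (u, v)).2 t) (klV (g (u, v)).1 (g (u, v)).2 t) :=
    kP_congr D (by rw [klU_pow_five, klU_pow_five, hpq.1, hpq.2])
      (by rw [klV_pow_five, klV_pow_five, hpq.1, hpq.2])
  have hE2 : kP D Wt (klU (g (u, v)).1 (g (u, v)).2 t) (klV (g (u, v)).1 (g (u, v)).2 t) =
      P Wt (g (klLine t (u, v))) := by
    rw [hgline]; rfl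
  rw [hE1, hE2]
  exact hgP Wt (klLine t (u, v)) ht

end Fermat.Agent.S52
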