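import Fermat.Agent.S52.Klein.TDefs

set_option autoImplicit false
set_option linter.unusedSimpArgs false
set_option linter.unusedVariables false

namespace Fermat.Agent.S52

namespace KleinData

variable {R : Type*} [CommRing R]
theorem z_pow_five (D : KleinData R) :
    D.z ^ (5 : ℕ) = 1 := by
  try simp only [s5, m1, m2, Mu, Mv, Su, Sv, b0, b1, b2, b3, b0c, xPP, yBB, yPP, xP, yP, PQ1, PQ2, XQ, YQ, XQS, YQS, klFF, klHH, klTT, klA, klB, klf, klH, klT]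
  linear_combination (D.z - 1) * D.hz

theorem s5_sq (D : KleinData R) :
    D.s5 ^ (2 : ℕ) = 5 := by
  try simp only [s5, m1, m2, Mu, Mv, Su, Sv, b0, b1, b2, b3, b0c, xPP, yBB, yPP, xP, yP, PQ1, PQ2, XQ, YQ, XQS, YQS, klFF, klHH, klTT, klA, klB, klf, klH, klT]
  linear_combination (4 * D.z ^ (2 : ℕ) + 4 * D.z - 4) * D.hz

theorem m1_sq_add_m2_sq (D : KleinData R) :
    D.m1 ^ (2 : ℕ) + D.m2 ^ (2 : ℕ) = -5 := by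
  try simp only [s5, m1, m2, Mu, Mv, Su, Sv, b0, b1, b2, b3, b0c, xPP, yBB, yPP, xP, yP, PQ1, PQ2, XQ, YQ, XQS, YQS, klFF, klHH, klTT, klA, klB, klf, klH, klT]
  linear_combination (2 * D.z ^ (2 : ℕ) - 2 * D.z + 6) * D.hz

theorem b0_mul_b0c (D : KleinData R) :
    D.b0 * D.b0c = 680244480 := by
  try simp only [s5, m1, m2, Mu, Mv, Su, Sv, b0, b1, b2, b3, b0c, xPP, yBB, yPP, xP, yP, PQ1, PQ2, XQ, YQ, XQS, YQS, klFF, klHH, klTT, klA, klB, klf, klH, klT]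
  linear_combination (-952342272 * D.z ^ (2 : ℕ) - 1768635648 * D.z - 1496537856) * D.hz

/-- the universal point lies on the universal curve -/
theorem yPP_sq (D : KleinData R) (p q : R) :
    D.yPP p q ^ (2 : ℕ) = D.xPP p q ^ (3 : ℕ) + 675 * klHH p q * D.xPP p q + 6750 * klTT p q := by
  try simp only [s5, m1, m2, Mu, Mv, Su, Sv, b0, b1, b2, b3, b0c, xPP, yBB, yPP, xP, yP, PQ1, PQ2, XQ, YQ, XQS, YQS, klFF, klHH, klTT, klA, klB, klf, klH, klT]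
  linear_combination (46656 * D.z ^ (8 : ℕ) * p ^ (6 : ℕ) + 1306368 * D.z ^ (8 : ℕ) * p ^ (5 : ℕ) * q
      + 12130560 * D.z ^ (8 : ℕ) * p ^ (4 : ℕ) * q ^ (2 : ℕ)
      + 41523840 * D.z ^ (8 : ℕ) * p ^ (3 : ℕ) * q ^ (3 : ℕ)
      + 43856640 * D.z ^ (8 : ℕ) * p ^ (2 : ℕ) * q ^ (4 : ℕ)
      - 8957952 * D.z ^ (8 : ℕ) * p * q ^ (5 : ℕ) + 419904 * D.z ^ (8 : ℕ) * q ^ (6 : ℕ)
      + 326592 * D.z ^ (7 : ℕ) * p ^ (6 : ℕ) + 8211456 * D.z ^ (7 : ℕ) * p ^ (5 : ℕ) * q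
      + 61585920 * D.z ^ (7 : ℕ) * p ^ (4 : ℕ) * q ^ (2 : ℕ)
      + 118039680 * D.z ^ (7 : ℕ) * p ^ (3 : ℕ) * q ^ (3 : ℕ)
      - 5598720 * D.z ^ (7 : ℕ) * p ^ (2 : ℕ) * q ^ (4 : ℕ)
      - 2052864 * D.z ^ (7 : ℕ) * p * q ^ (5 : ℕ) + 139968 * D.z ^ (7 : ℕ) * q ^ (6 : ℕ)
      + 1026432 * D.z ^ (6 : ℕ) * p ^ (6 : ℕ) + 24074496 * D.z ^ (6 : ℕ) * p ^ (5 : ℕ) * q
      + 154897920 * D.z ^ (6 : ℕ) * p ^ (4 : ℕ) * q ^ (2 : ℕ)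
      + 153031680 * D.z ^ (6 : ℕ) * p ^ (3 : ℕ) * q ^ (3 : ℕ)
      - 42923520 * D.z ^ (6 : ℕ) * p ^ (2 : ℕ) * q ^ (4 : ℕ)
      + 3545856 * D.z ^ (6 : ℕ) * p * q ^ (5 : ℕ) - 93312 * D.z ^ (6 : ℕ) * q ^ (6 : ℕ)
      + 1772928 * D.z ^ (5 : ℕ) * p ^ (6 : ℕ) + 39610944 * D.z ^ (5 : ℕ) * p ^ (5 : ℕ) * q
      + 225348480 * D.z ^ (5 : ℕ) * p ^ (4 : ℕ) * q ^ (2 : ℕ)
      + 55753920 * D.z ^ (5 : ℕ) * p ^ (3 : ℕ) * q ^ (3 : ℕ)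
      + 110574720 * D.z ^ (5 : ℕ) * p ^ (2 : ℕ) * q ^ (4 : ℕ)
      - 21974976 * D.z ^ (5 : ℕ) * p * q ^ (5 : ℕ) + 1026432 * D.z ^ (5 : ℕ) * q ^ (6 : ℕ)
      + 1726272 * D.z ^ (4 : ℕ) * p ^ (6 : ℕ) + 37604736 * D.z ^ (4 : ℕ) * p ^ (5 : ℕ) * q
      + 196888320 * D.z ^ (4 : ℕ) * p ^ (4 : ℕ) * q ^ (2 : ℕ)
      - 89579520 * D.z ^ (4 : ℕ) * p ^ (3 : ℕ) * q ^ (3 : ℕ)
      - 28926720 * D.z ^ (4 : ℕ) * p ^ (2 : ℕ) * q ^ (4 : ℕ)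
      + 6811776 * D.z ^ (4 : ℕ) * p * q ^ (5 : ℕ) - 326592 * D.z ^ (4 : ℕ) * q ^ (6 : ℕ)
      + 746496 * D.z ^ (3 : ℕ) * p ^ (6 : ℕ) + 17169408 * D.z ^ (3 : ℕ) * p ^ (5 : ℕ) * q
      + 105442560 * D.z ^ (3 : ℕ) * p ^ (4 : ℕ) * q ^ (2 : ℕ)
      + 76515840 * D.z ^ (3 : ℕ) * p ^ (3 : ℕ) * q ^ (3 : ℕ)
      + 6531840 * D.z ^ (3 : ℕ) * p ^ (2 : ℕ) * q ^ (4 : ℕ)
      - 3359232 * D.z ^ (3 : ℕ) * p * q ^ (5 : ℕ) + 186624 * D.z ^ (3 : ℕ) * q ^ (6 : ℕ)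
      + 699840 * D.z ^ (2 : ℕ) * p ^ (5 : ℕ) * q
      + 16329600 * D.z ^ (2 : ℕ) * p ^ (4 : ℕ) * q ^ (2 : ℕ)
      + 103809600 * D.z ^ (2 : ℕ) * p ^ (3 : ℕ) * q ^ (3 : ℕ)
      + 95644800 * D.z ^ (2 : ℕ) * p ^ (2 : ℕ) * q ^ (4 : ℕ)
      - 19828800 * D.z ^ (2 : ℕ) * p * q ^ (5 : ℕ) + 933120 * D.z ^ (2 : ℕ) * q ^ (6 : ℕ)
      - 233280 * D.z * p ^ (5 : ℕ) * q - 5832000 * D.z * p ^ (4 : ℕ) * q ^ (2 : ℕ)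
      - 43156800 * D.z * p ^ (3 : ℕ) * q ^ (3 : ℕ) - 78148800 * D.z * p ^ (2 : ℕ) * q ^ (4 : ℕ)
      + 15163200 * D.z * p * q ^ (5 : ℕ) - 699840 * D.z * q ^ (6 : ℕ) + 186624 * p ^ (6 : ℕ)
      + 4525632 * p ^ (5 : ℕ) * q + 32192640 * p ^ (4 : ℕ) * q ^ (2 : ℕ)
      + 62285760 * p ^ (3 : ℕ) * q ^ (3 : ℕ) + 79781760 * p ^ (2 : ℕ) * q ^ (4 : ℕ)
      - 16003008 * p * q ^ (5 : ℕ) + 746496 * q ^ (6 : ℕ)) * D.hz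

/-- duplication: `X(2P) = X(P∘U)` -/
theorem dup_x (D : KleinData R) (p q : R) :
    D.xPP (-q) p * (2 * D.yPP p q) ^ (2 : ℕ) = (3 * D.xPP p q ^ (2 : ℕ) + 675 * klHH p q) ^ (2 : ℕ) - 2 * D.xPP p q * (2 * D.yPP p q) ^ (2 : ℕ) := by
  try simp only [s5, m1, m2, Mu, Mv, Su, Sv, b0, b1, b2, b3, b0c, xPP, yBB, yPP, xP, yP, PQ1, PQ2, XQ, YQ, XQS, YQS, klFF, klHH, klTT, klA, klB, klf, klH, klT]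
  linear_combination (6718464 * D.z ^ (11 : ℕ) * p ^ (8 : ℕ) + 262020096 * D.z ^ (11 : ℕ) * p ^ (7 : ℕ) * q
      + 3809369088 * D.z ^ (11 : ℕ) * p ^ (6 : ℕ) * q ^ (2 : ℕ)
      + 25006123008 * D.z ^ (11 : ℕ) * p ^ (5 : ℕ) * q ^ (3 : ℕ)
      + 70342318080 * D.z ^ (11 : ℕ) * p ^ (4 : ℕ) * q ^ (4 : ℕ)
      + 62199539712 * D.z ^ (11 : ℕ) * p ^ (3 : ℕ) * q ^ (5 : ℕ)
      - 20444285952 * D.z ^ (11 : ℕ) * p ^ (2 : ℕ) * q ^ (6 : ℕ)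
      + 1955073024 * D.z ^ (11 : ℕ) * p * q ^ (7 : ℕ) - 60466176 * D.z ^ (11 : ℕ) * q ^ (8 : ℕ)
      + 53747712 * D.z ^ (10 : ℕ) * p ^ (8 : ℕ) + 1961791488 * D.z ^ (10 : ℕ) * p ^ (7 : ℕ) * q
      + 25637658624 * D.z ^ (10 : ℕ) * p ^ (6 : ℕ) * q ^ (2 : ℕ)
      + 138373484544 * D.z ^ (10 : ℕ) * p ^ (5 : ℕ) * q ^ (3 : ℕ)
      + 247642583040 * D.z ^ (10 : ℕ) * p ^ (4 : ℕ) * q ^ (4 : ℕ)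
      + 36037840896 * D.z ^ (10 : ℕ) * p ^ (3 : ℕ) * q ^ (5 : ℕ)
      - 22869651456 * D.z ^ (10 : ℕ) * p ^ (2 : ℕ) * q ^ (6 : ℕ)
      + 2472394752 * D.z ^ (10 : ℕ) * p * q ^ (7 : ℕ) - 80621568 * D.z ^ (10 : ℕ) * q ^ (8 : ℕ)
      + 194835456 * D.z ^ (9 : ℕ) * p ^ (8 : ℕ) + 6792367104 * D.z ^ (9 : ℕ) * p ^ (7 : ℕ) * q
      + 82119785472 * D.z ^ (9 : ℕ) * p ^ (6 : ℕ) * q ^ (2 : ℕ)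
      + 377295501312 * D.z ^ (9 : ℕ) * p ^ (5 : ℕ) * q ^ (3 : ℕ)
      + 391216158720 * D.z ^ (9 : ℕ) * p ^ (4 : ℕ) * q ^ (4 : ℕ)
      - 115678513152 * D.z ^ (9 : ℕ) * p ^ (3 : ℕ) * q ^ (5 : ℕ)
      + 9358820352 * D.z ^ (9 : ℕ) * p ^ (2 : ℕ) * q ^ (6 : ℕ)
      - 141087744 * D.z ^ (9 : ℕ) * p * q ^ (7 : ℕ) - 6718464 * D.z ^ (9 : ℕ) * q ^ (8 : ℕ)
      + 356078592 * D.z ^ (8 : ℕ) * p ^ (8 : ℕ) + 12190652928 * D.z ^ (8 : ℕ) * p ^ (7 : ℕ) * q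
      + 140111887104 * D.z ^ (8 : ℕ) * p ^ (6 : ℕ) * q ^ (2 : ℕ)
      + 553557763584 * D.z ^ (8 : ℕ) * p ^ (5 : ℕ) * q ^ (3 : ℕ)
      + 159672695040 * D.z ^ (8 : ℕ) * p ^ (4 : ℕ) * q ^ (4 : ℕ)
      + 119833883136 * D.z ^ (8 : ℕ) * p ^ (3 : ℕ) * q ^ (5 : ℕ)
      - 94933575936 * D.z ^ (8 : ℕ) * p ^ (2 : ℕ) * q ^ (6 : ℕ)
      + 13541064192 * D.z ^ (8 : ℕ) * p * q ^ (7 : ℕ) - 550914048 * D.z ^ (8 : ℕ) * q ^ (8 : ℕ)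
      + 208272384 * D.z ^ (7 : ℕ) * p ^ (8 : ℕ) + 9012819456 * D.z ^ (7 : ℕ) * p ^ (7 : ℕ) * q
      + 119610494208 * D.z ^ (7 : ℕ) * p ^ (6 : ℕ) * q ^ (2 : ℕ)
      + 465082311168 * D.z ^ (7 : ℕ) * p ^ (5 : ℕ) * q ^ (3 : ℕ)
      - 396800881920 * D.z ^ (7 : ℕ) * p ^ (4 : ℕ) * q ^ (4 : ℕ)
      + 145357327872 * D.z ^ (7 : ℕ) * p ^ (3 : ℕ) * q ^ (5 : ℕ)
      - 50165091072 * D.z ^ (7 : ℕ) * p ^ (2 : ℕ) * q ^ (6 : ℕ)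
      + 6506832384 * D.z ^ (7 : ℕ) * p * q ^ (7 : ℕ) - 262020096 * D.z ^ (7 : ℕ) * q ^ (8 : ℕ)
      - 510603264 * D.z ^ (6 : ℕ) * p ^ (8 : ℕ) - 8055438336 * D.z ^ (6 : ℕ) * p ^ (7 : ℕ) * q
      + 7628815872 * D.z ^ (6 : ℕ) * p ^ (6 : ℕ) * q ^ (2 : ℕ)
      + 354486316032 * D.z ^ (6 : ℕ) * p ^ (5 : ℕ) * q ^ (3 : ℕ)
      - 282897722880 * D.z ^ (6 : ℕ) * p ^ (4 : ℕ) * q ^ (4 : ℕ)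
      - 131567680512 * D.z ^ (6 : ℕ) * p ^ (3 : ℕ) * q ^ (5 : ℕ)
      + 41153951232 * D.z ^ (6 : ℕ) * p ^ (2 : ℕ) * q ^ (6 : ℕ)
      - 3500319744 * D.z ^ (6 : ℕ) * p * q ^ (7 : ℕ) + 94058496 * D.z ^ (6 : ℕ) * q ^ (8 : ℕ)
      - 1318498560 * D.z ^ (5 : ℕ) * p ^ (8 : ℕ) - 26252398080 * D.z ^ (5 : ℕ) * p ^ (7 : ℕ) * q
      - 96048840960 * D.z ^ (5 : ℕ) * p ^ (6 : ℕ) * q ^ (2 : ℕ)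
      + 364594245120 * D.z ^ (5 : ℕ) * p ^ (5 : ℕ) * q ^ (3 : ℕ)
      + 16376256000 * D.z ^ (5 : ℕ) * p ^ (4 : ℕ) * q ^ (4 : ℕ)
      + 238623045120 * D.z ^ (5 : ℕ) * p ^ (3 : ℕ) * q ^ (5 : ℕ)
      - 192173264640 * D.z ^ (5 : ℕ) * p ^ (2 : ℕ) * q ^ (6 : ℕ)
      + 28671045120 * D.z ^ (5 : ℕ) * p * q ^ (7 : ℕ) - 1200925440 * D.z ^ (5 : ℕ) * q ^ (8 : ℕ)
      - 1353770496 * D.z ^ (4 : ℕ) * p ^ (8 : ℕ) - 27300478464 * D.z ^ (4 : ℕ) * p ^ (7 : ℕ) * q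
      - 108414173952 * D.z ^ (4 : ℕ) * p ^ (6 : ℕ) * q ^ (2 : ℕ)
      + 284254852608 * D.z ^ (4 : ℕ) * p ^ (5 : ℕ) * q ^ (3 : ℕ)
      - 252101963520 * D.z ^ (4 : ℕ) * p ^ (4 : ℕ) * q ^ (4 : ℕ)
      + 229438904832 * D.z ^ (4 : ℕ) * p ^ (3 : ℕ) * q ^ (5 : ℕ)
      - 12474508032 * D.z ^ (4 : ℕ) * p ^ (2 : ℕ) * q ^ (6 : ℕ)
      - 2697463296 * D.z ^ (4 : ℕ) * p * q ^ (7 : ℕ) + 191476224 * D.z ^ (4 : ℕ) * q ^ (8 : ℕ)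
      - 591224832 * D.z ^ (3 : ℕ) * p ^ (8 : ℕ) - 12711333888 * D.z ^ (3 : ℕ) * p ^ (7 : ℕ) * q
      - 63865718784 * D.z ^ (3 : ℕ) * p ^ (6 : ℕ) * q ^ (2 : ℕ)
      + 47358452736 * D.z ^ (3 : ℕ) * p ^ (5 : ℕ) * q ^ (3 : ℕ)
      - 20558499840 * D.z ^ (3 : ℕ) * p ^ (4 : ℕ) * q ^ (4 : ℕ)
      - 66707629056 * D.z ^ (3 : ℕ) * p ^ (3 : ℕ) * q ^ (5 : ℕ)
      - 10722668544 * D.z ^ (3 : ℕ) * p ^ (2 : ℕ) * q ^ (6 : ℕ)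
      + 3607815168 * D.z ^ (3 : ℕ) * p * q ^ (7 : ℕ) - 188116992 * D.z ^ (3 : ℕ) * q ^ (8 : ℕ)
      - 40310784 * D.z ^ (2 : ℕ) * p ^ (8 : ℕ) - 1832461056 * D.z ^ (2 : ℕ) * p ^ (7 : ℕ) * q
      - 24796171008 * D.z ^ (2 : ℕ) * p ^ (6 : ℕ) * q ^ (2 : ℕ)
      - 92501491968 * D.z ^ (2 : ℕ) * p ^ (5 : ℕ) * q ^ (3 : ℕ)
      + 147167953920 * D.z ^ (2 : ℕ) * p ^ (4 : ℕ) * q ^ (4 : ℕ)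
      + 129973724928 * D.z ^ (2 : ℕ) * p ^ (3 : ℕ) * q ^ (5 : ℕ)
      - 154622089728 * D.z ^ (2 : ℕ) * p ^ (2 : ℕ) * q ^ (6 : ℕ)
      + 24314121216 * D.z ^ (2 : ℕ) * p * q ^ (7 : ℕ) - 1039682304 * D.z ^ (2 : ℕ) * q ^ (8 : ℕ)
      - 33592320 * D.z * p ^ (8 : ℕ) - 990973440 * D.z * p ^ (7 : ℕ) * q
      - 9867744000 * D.z * p ^ (6 : ℕ) * q ^ (2 : ℕ) - 35868199680 * D.z * p ^ (5 : ℕ) * q ^ (3 : ℕ)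
      - 20113401600 * D.z * p ^ (4 : ℕ) * q ^ (4 : ℕ)
      + 89212803840 * D.z * p ^ (3 : ℕ) * q ^ (5 : ℕ)
      + 58878938880 * D.z * p ^ (2 : ℕ) * q ^ (6 : ℕ) - 12723091200 * D.z * p * q ^ (7 : ℕ)
      + 604661760 * D.z * q ^ (8 : ℕ) - 120932352 * p ^ (8 : ℕ) - 2415287808 * p ^ (7 : ℕ) * q
      - 8740721664 * p ^ (6 : ℕ) * q ^ (2 : ℕ) + 36734881536 * p ^ (5 : ℕ) * q ^ (3 : ℕ)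
      + 8288904960 * p ^ (4 : ℕ) * q ^ (4 : ℕ) - 105817487616 * p ^ (3 : ℕ) * q ^ (5 : ℕ)
      - 61169935104 * p ^ (2 : ℕ) * q ^ (6 : ℕ) + 13576336128 * p * q ^ (7 : ℕ)
      - 650011392 * q ^ (8 : ℕ)) * D.hz

/-- duplication: `Y(2P) = Y(P∘U)` -/
theorem dup_y (D : KleinData R) (p q : R) :
    D.yPP (-q) p * (2 * D.yPP p q) = -((3 * D.xPP p q ^ (2 : ℕ) + 675 * klHH p q) * (D.xPP (-q) p - D.xPP p q) + 2 * D.yPP p q ^ (2 : ℕ)) := by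
  try simp only [s5, m1, m2, Mu, Mv, Su, Sv, b0, b1, b2, b3, b0c, xPP, yBB, yPP, xP, yP, PQ1, PQ2, XQ, YQ, XQS, YQS, klFF, klHH, klTT, klA, klB, klf, klH, klT]
  linear_combination (-186624 * D.z ^ (8 : ℕ) * p ^ (6 : ℕ) - 4292352 * D.z ^ (8 : ℕ) * p ^ (5 : ℕ) * q
      - 25194240 * D.z ^ (8 : ℕ) * p ^ (4 : ℕ) * q ^ (2 : ℕ)
      + 6531840 * D.z ^ (8 : ℕ) * p ^ (3 : ℕ) * q ^ (3 : ℕ)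
      + 137168640 * D.z ^ (8 : ℕ) * p ^ (2 : ℕ) * q ^ (4 : ℕ)
      - 24820992 * D.z ^ (8 : ℕ) * p * q ^ (5 : ℕ) + 1119744 * D.z ^ (8 : ℕ) * q ^ (6 : ℕ)
      - 373248 * D.z ^ (7 : ℕ) * p ^ (6 : ℕ) - 5785344 * D.z ^ (7 : ℕ) * p ^ (5 : ℕ) * q
      + 10264320 * D.z ^ (7 : ℕ) * p ^ (4 : ℕ) * q ^ (2 : ℕ)
      + 325658880 * D.z ^ (7 : ℕ) * p ^ (3 : ℕ) * q ^ (3 : ℕ)
      + 101710080 * D.z ^ (7 : ℕ) * p ^ (2 : ℕ) * q ^ (4 : ℕ)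
      - 26313984 * D.z ^ (7 : ℕ) * p * q ^ (5 : ℕ) + 1306368 * D.z ^ (7 : ℕ) * q ^ (6 : ℕ)
      + 559872 * D.z ^ (6 : ℕ) * p ^ (6 : ℕ) + 17542656 * D.z ^ (6 : ℕ) * p ^ (5 : ℕ) * q
      + 182891520 * D.z ^ (6 : ℕ) * p ^ (4 : ℕ) * q ^ (2 : ℕ)
      + 638254080 * D.z ^ (6 : ℕ) * p ^ (3 : ℕ) * q ^ (3 : ℕ)
      + 41057280 * D.z ^ (6 : ℕ) * p ^ (2 : ℕ) * q ^ (4 : ℕ)
      - 23514624 * D.z ^ (6 : ℕ) * p * q ^ (5 : ℕ) + 1306368 * D.z ^ (6 : ℕ) * q ^ (6 : ℕ)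
      + 2239488 * D.z ^ (5 : ℕ) * p ^ (6 : ℕ) + 50108544 * D.z ^ (5 : ℕ) * p ^ (5 : ℕ) * q
      + 288334080 * D.z ^ (5 : ℕ) * p ^ (4 : ℕ) * q ^ (2 : ℕ)
      + 124571520 * D.z ^ (5 : ℕ) * p ^ (3 : ℕ) * q ^ (3 : ℕ)
      + 383512320 * D.z ^ (5 : ℕ) * p ^ (2 : ℕ) * q ^ (4 : ℕ)
      - 73063296 * D.z ^ (5 : ℕ) * p * q ^ (5 : ℕ) + 3359232 * D.z ^ (5 : ℕ) * q ^ (6 : ℕ)
      + 2426112 * D.z ^ (4 : ℕ) * p ^ (6 : ℕ) + 53001216 * D.z ^ (4 : ℕ) * p ^ (5 : ℕ) * q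
      + 280869120 * D.z ^ (4 : ℕ) * p ^ (4 : ℕ) * q ^ (2 : ℕ)
      - 89579520 * D.z ^ (4 : ℕ) * p ^ (3 : ℕ) * q ^ (3 : ℕ)
      + 55054080 * D.z ^ (4 : ℕ) * p ^ (2 : ℕ) * q ^ (4 : ℕ)
      - 8584704 * D.z ^ (4 : ℕ) * p * q ^ (5 : ℕ) + 373248 * D.z ^ (4 : ℕ) * q ^ (6 : ℕ)
      + 746496 * D.z ^ (3 : ℕ) * p ^ (6 : ℕ) + 19035648 * D.z ^ (3 : ℕ) * p ^ (5 : ℕ) * q
      + 147432960 * D.z ^ (3 : ℕ) * p ^ (4 : ℕ) * q ^ (2 : ℕ)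
      + 319127040 * D.z ^ (3 : ℕ) * p ^ (3 : ℕ) * q ^ (3 : ℕ)
      + 76515840 * D.z ^ (3 : ℕ) * p ^ (2 : ℕ) * q ^ (4 : ℕ)
      - 22021632 * D.z ^ (3 : ℕ) * p * q ^ (5 : ℕ) + 1119744 * D.z ^ (3 : ℕ) * q ^ (6 : ℕ)
      + 233280 * D.z ^ (2 : ℕ) * p ^ (6 : ℕ) + 5598720 * D.z ^ (2 : ℕ) * p ^ (5 : ℕ) * q
      + 40824000 * D.z ^ (2 : ℕ) * p ^ (4 : ℕ) * q ^ (2 : ℕ)
      + 111974400 * D.z ^ (2 : ℕ) * p ^ (3 : ℕ) * q ^ (3 : ℕ)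
      + 323092800 * D.z ^ (2 : ℕ) * p ^ (2 : ℕ) * q ^ (4 : ℕ)
      - 61119360 * D.z ^ (2 : ℕ) * p * q ^ (5 : ℕ) + 2799360 * D.z ^ (2 : ℕ) * q ^ (6 : ℕ)
      + 466560 * D.z * p ^ (6 : ℕ) + 10264320 * D.z * p ^ (5 : ℕ) * q
      + 54820800 * D.z * p ^ (4 : ℕ) * q ^ (2 : ℕ) - 25660800 * D.z * p ^ (3 : ℕ) * q ^ (3 : ℕ)
      - 82814400 * D.z * p ^ (2 : ℕ) * q ^ (4 : ℕ) + 15396480 * D.z * p * q ^ (5 : ℕ)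
      - 699840 * D.z * q ^ (6 : ℕ) - 279936 * p ^ (6 : ℕ) - 5505408 * p ^ (5 : ℕ) * q
      - 17962560 * p ^ (4 : ℕ) * q ^ (2 : ℕ) + 105442560 * p ^ (3 : ℕ) * q ^ (3 : ℕ)
      + 101943360 * p ^ (2 : ℕ) * q ^ (4 : ℕ) - 20901888 * p * q ^ (5 : ℕ) + 979776 * q ^ (6 : ℕ)) * D.hz

theorem yBB_mul (D : KleinData R) (p q : R) :
    D.yBB p q * (2 * p + (11 + 5 * D.s5) * q) = 2 * D.b0 * klFF p q ^ (2 : ℕ) := by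
  try simp only [s5, m1, m2, Mu, Mv, Su, Sv, b0, b1, b2, b3, b0c, xPP, yBB, yPP, xP, yP, PQ1, PQ2, XQ, YQ, XQS, YQS, klFF, klHH, klTT, klA, klB, klf, klH, klT]
  linear_combination (-1080 * D.z ^ (2 : ℕ) * p ^ (3 : ℕ) * q - 15120 * D.z ^ (2 : ℕ) * p ^ (2 : ℕ) * q ^ (2 : ℕ)
      - 34560 * D.z ^ (2 : ℕ) * p * q ^ (3 : ℕ) + 3240 * D.z ^ (2 : ℕ) * q ^ (4 : ℕ)
      - 3240 * D.z * p ^ (3 : ℕ) * q - 34560 * D.z * p ^ (2 : ℕ) * q ^ (2 : ℕ)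
      + 15120 * D.z * p * q ^ (3 : ℕ) - 1080 * D.z * q ^ (4 : ℕ) - 3240 * p ^ (3 : ℕ) * q
      - 34560 * p ^ (2 : ℕ) * q ^ (2 : ℕ) + 15120 * p * q ^ (3 : ℕ) - 1080 * q ^ (4 : ℕ)) * D.hz

theorem xPP_U_sub (D : KleinData R) (p q : R) :
    D.xPP (-q) p - D.xPP p q = 36 * D.s5 * klFF p q := by
  simp only [s5, m1, m2, Mu, Mv, Su, Sv, b0, b1, b2, b3, b0c, xPP, yBB, yPP, xP, yP, PQ1, PQ2, XQ, YQ, XQS, YQS, klFF, klHH, klTT, klA, klB, klf, klH, klT]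
  ring

theorem xPP_U_add (D : KleinData R) (p q : R) :
    D.xPP (-q) p + D.xPP p q = -150 * (p ^ (2 : ℕ) + q ^ (2 : ℕ)) := by
  simp only [s5, m1, m2, Mu, Mv, Su, Sv, b0, b1, b2, b3, b0c, xPP, yBB, yPP, xP, yP, PQ1, PQ2, XQ, YQ, XQS, YQS, klFF, klHH, klTT, klA, klB, klf, klH, klT]
  ring

theorem xPP_neg (D : KleinData R) (p q : R) :
    D.xPP (-p) (-q) = D.xPP p q := by
  simp only [s5, m1, m2, Mu, Mv, Su, Sv, b0, b1, b2, b3, b0c, xPP, yBB, yPP, xP, yP, PQ1, PQ2, XQ, YQ, XQS, YQS, klFF, klHH, klTT, klA, klB, klf, klH, klT]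
  ring

theorem yPP_neg (D : KleinData R) (p q : R) :
    D.yPP (-p) (-q) = -D.yPP p q := by
  simp only [s5, m1, m2, Mu, Mv, Su, Sv, b0, b1, b2, b3, b0c, xPP, yBB, yPP, xP, yP, PQ1, PQ2, XQ, YQ, XQS, YQS, klFF, klHH, klTT, klA, klB, klf, klH, klT]
  ring


end KleinData

end Fermat.Agent.S52
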