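import Fermat.Agent.S52.Klein.TConj
import Fermat.Agent.S52.Klein.TK1
import Fermat.Agent.S52.Iface2

/-!
# S52 (C-d), auxiliary lemmas: transport of Klein data along ring homomorphisms, Frobenius,
existence of a primitive fifth root of unity, and the abstract "same Frobenius matrix" lemma.
-/

set_option autoImplicit false

open WeierstrassCurve WeierstrassCurve.Affine

namespace Fermat.Agent.S52

namespace KleinData

variable {R S : Type*} [CommRing R] [CommRing S]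

/-- Transport of Klein data along a ring homomorphism. -/
def map (D : KleinData R) (f : R →+* S) : KleinData S where
  z := f D.z
  hz := by
    have h := congrArg f D.hz
    simpa only [map_add, map_pow, map_one, map_zero] using h

@[simp] theorem map_z (D : KleinData R) (f : R →+* S) : (D.map f).z = f D.z := rfl

@[ext] theorem ext' {D D' : KleinData R} (h : D.z = D'.z) : D = D' := by
  cases D; cases D'; simp only [mk.injEq]; exact h

theorem map_xPP (D : KleinData R) (f : R →+* S) (p q : R) :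
    f (D.xPP p q) = (D.map f).xPP (f p) (f q) := by
  simp only [xPP, s5, map_z, map_neg, map_add, map_sub, map_mul, map_pow, map_ofNat, map_one]

theorem map_yPP (D : KleinData R) (f : R →+* S) (p q : R) :
    f (D.yPP p q) = (D.map f).yPP (f p) (f q) := by
  simp only [yPP, yBB, b0, b1, b2, b3, s5, map_z, map_neg, map_add, map_sub, map_mul, map_pow,
    map_ofNat, map_one]

theorem map_xP (D : KleinData R) (f : R →+* S) (u v : R) :
    f (D.xP u v) = (D.map f).xP (f u) (f v) := by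
  simp only [xP, map_xPP, map_pow]

theorem map_yP (D : KleinData R) (f : R →+* S) (u v : R) :
    f (D.yP u v) = (D.map f).yP (f u) (f v) := by
  simp only [yP, map_yPP, map_pow]

/-- iterated conjugation `z ↦ z^(2^j)` -/
def conjPow (D : KleinData R) : ℕ → KleinData R
  | 0 => D
  | j + 1 => (conjPow D j).conj

theorem conjPow_z (D : KleinData R) (j : ℕ) : (D.conjPow j).z = D.z ^ (2 ^ j) := by
  induction j with
  | zero => simp [conjPow]
  | succ j ih =>
    simp only [conjPow, conj_z, ih]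
    rw [← pow_mul, ← pow_succ]

/-- `U^j` acting on `(p, q)`: `U (p, q) = (-q, p)`. First coordinate. -/
def Upow1 : ℕ → R → R → R
  | 0, p, _ => p
  | j + 1, p, q => Upow1 j (-q) p

/-- `U^j` acting on `(p, q)`: second coordinate. -/
def Upow2 : ℕ → R → R → R
  | 0, _, q => q
  | j + 1, p, q => Upow2 j (-q) p

theorem conjPow_xPP (D : KleinData R) (j : ℕ) (p q : R) :
    (D.conjPow j).xPP p q = D.xPP (Upow1 j p q) (Upow2 j p q) := by
  induction j generalizing p q with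
  | zero => rfl
  | succ j ih =>
    simp only [conjPow, conj_xPP, ih, Upow1, Upow2]

theorem conjPow_yPP (D : KleinData R) (j : ℕ) (p q : R) :
    (D.conjPow j).yPP p q = (-1) ^ j * D.yPP (Upow1 j p q) (Upow2 j p q) := by
  induction j generalizing p q with
  | zero => simp [conjPow, Upow1, Upow2]
  | succ j ih =>
    simp only [conjPow, conj_yPP, ih, Upow1, Upow2, pow_succ]
    ring

/-- For `n` prime to 5 there is `j < 4` with `z ^ n = z ^ (2 ^ j)`. -/
theorem exists_conjPow_of_coprime (D : KleinData R) (n : ℕ) (hn : ¬ 5 ∣ n) :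
    ∃ j : ℕ, j < 4 ∧ D.z ^ n = (D.conjPow j).z := by
  have h5 := D.z_pow_five
  have hmod : D.z ^ n = D.z ^ (n % 5) := by
    conv_lhs => rw [← Nat.div_add_mod n 5, pow_add, pow_mul, h5, one_pow, one_mul]
  have hlt : n % 5 < 5 := Nat.mod_lt _ (by norm_num)
  have hne : n % 5 ≠ 0 := fun h => hn (Nat.dvd_of_mod_eq_zero h)
  rw [hmod]
  have h8 : D.z ^ 8 = D.z ^ 3 := by
    rw [show (8 : ℕ) = 5 + 3 by norm_num, pow_add, h5, one_mul]
  interval_cases h : n % 5
  · exact absurd rfl hne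
  · exact ⟨0, by norm_num, by simp [conjPow]⟩
  · exact ⟨1, by norm_num, by simp [conjPow_z]⟩
  · exact ⟨3, by norm_num, by rw [conjPow_z]; norm_num; exact h8.symm⟩
  · exact ⟨2, by norm_num, by rw [conjPow_z]; norm_num⟩

end KleinData

/-- In an algebraically closed field in which `5 ≠ 0` there is a root of `Φ₅`. -/
theorem exists_kleinData (k : Type*) [Field k] [IsAlgClosed k] : Nonempty (KleinData k) := by
  have hdeg : (Polynomial.X ^ 4 + Polynomial.X ^ 3 + Polynomial.X ^ 2 + Polynomial.X + 1 :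
      Polynomial k).degree ≠ 0 := by
    have : (Polynomial.X ^ 4 + Polynomial.X ^ 3 + Polynomial.X ^ 2 + Polynomial.X + 1 :
        Polynomial k).degree = 4 := by
      compute_degree!
    rw [this]; norm_num
  obtain ⟨z, hz⟩ := IsAlgClosed.exists_root _ hdeg
  refine ⟨⟨z, ?_⟩⟩
  simpa using hz

theorem dvd_sub_of_same_matrix_aux {G : Type*} [AddCommGroup G] (φ : G →+ G) (P Q : G)
    (a ℓ α β γ δ : ℤ) (hP : φ P = α • P + β • Q) (hQ : φ Q = γ • P + δ • Q)
    (hc : φ (φ P) - a • φ P + ℓ • P = 0) :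
    (α * α + β * γ - a * α + ℓ) • P + (α * β + β * δ - a * β) • Q = 0 := by
  rw [hP, map_add, map_zsmul, map_zsmul, hP, hQ] at hc
  rw [← hc]
  simp only [smul_add, smul_smul, add_smul, sub_smul]
  abel

/-- The abstract "same Frobenius matrix" lemma. -/
theorem dvd_sub_of_same_matrix {G₀ G₁ : Type*} [AddCommGroup G₀] [AddCommGroup G₁]
    (φ₀ : G₀ →+ G₀) (φ₁ : G₁ →+ G₁) (P₀ Q₀ : G₀) (P₁ Q₁ : G₁) (a₀ a₁ ℓ α β γ δ : ℤ)
    (hind₀ : ∀ x y : ℤ, x • P₀ + y • Q₀ = 0 → (5 : ℤ) ∣ x ∧ (5 : ℤ) ∣ y)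
    (hind₁ : ∀ x y : ℤ, x • P₁ + y • Q₁ = 0 → (5 : ℤ) ∣ x ∧ (5 : ℤ) ∣ y)
    (hP₀ : φ₀ P₀ = α • P₀ + β • Q₀) (hQ₀ : φ₀ Q₀ = γ • P₀ + δ • Q₀)
    (hP₁ : φ₁ P₁ = α • P₁ + β • Q₁) (hQ₁ : φ₁ Q₁ = γ • P₁ + δ • Q₁)
    (hc₀ : φ₀ (φ₀ P₀) - a₀ • φ₀ P₀ + ℓ • P₀ = 0)
    (hc₁ : φ₁ (φ₁ P₁) - a₁ • φ₁ P₁ + ℓ • P₁ = 0)
    (hne : ¬ ((5 : ℤ) ∣ α ∧ (5 : ℤ) ∣ β)) : (5 : ℤ) ∣ a₁ - a₀ := by
  obtain ⟨h0x, h0y⟩ := hind₀ _ _ (dvd_sub_of_same_matrix_aux φ₀ P₀ Q₀ a₀ ℓ α β γ δ hP₀ hQ₀ hc₀)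
  obtain ⟨h1x, h1y⟩ := hind₁ _ _ (dvd_sub_of_same_matrix_aux φ₁ P₁ Q₁ a₁ ℓ α β γ δ hP₁ hQ₁ hc₁)
  have hα : (5 : ℤ) ∣ (a₁ - a₀) * α := by
    have e : (a₁ - a₀) * α
        = (α * α + β * γ - a₀ * α + ℓ) - (α * α + β * γ - a₁ * α + ℓ) := by ring
    rw [e]
    exact dvd_sub h0x h1x
  have hβ : (5 : ℤ) ∣ (a₁ - a₀) * β := by
    have e : (a₁ - a₀) * β
        = (α * β + β * δ - a₀ * β) - (α * β + β * δ - a₁ * β) := by ring
    rw [e]
    exact dvd_sub h0y h1y
  have hp : Prime (5 : ℤ) := by norm_num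
  by_contra hcon
  exact hne ⟨(hp.dvd_or_dvd hα).resolve_left hcon, (hp.dvd_or_dvd hβ).resolve_left hcon⟩

end Fermat.Agent.S52
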