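import Fermat.Agent.S52.Klein.Points
import Fermat.Agent.S52.Klein.FrobAux

/-!
# S52 (C-d), part 1: Galois conjugation and Frobenius on the universal point (helper52)

* `KFib.kP_conj` : `kP D.conj W u v = (-2) • kP D W u v`;
* `KFib.kP_conjPow` : `kP (D.conjPow j) W u v = (-2)^j • kP D W u v`;
* `KFib.map_algHom` : the fibre of a curve defined over `F` is stable under `F`-algebra maps;
* `map_kP` : `Point.map f (kP D (E⁄k) u v) = kP (D.map f) (E⁄k) (f u) (f v)`;
* `frobPt_kP` : `frobPt E k (kP D (E⁄k) u v) = (-2)^j • kP D (E⁄k) (u ^ ℓ) (v ^ ℓ)`.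
-/

set_option autoImplicit false

namespace Fermat.Agent.S52

open WeierstrassCurve WeierstrassCurve.Affine

section maps

variable {R S : Type*} [CommRing R] [CommRing S] (f : R →+* S)

theorem map_klFF (p q : R) : f (klFF p q) = klFF (f p) (f q) := by
  simp only [klFF, map_add, map_sub, map_mul, map_pow, map_ofNat]

theorem map_klHH (p q : R) : f (klHH p q) = klHH (f p) (f q) := by
  simp only [klHH, map_add, map_sub, map_mul, map_pow, map_neg, map_ofNat]

theorem map_klTT (p q : R) : f (klTT p q) = klTT (f p) (f q) := by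
  simp only [klTT, map_add, map_sub, map_mul, map_pow, map_neg, map_ofNat]

theorem map_klA (p q : R) : f (klA p q) = klA (f p) (f q) := by
  simp only [klA, map_add, map_sub, map_mul, map_pow, map_ofNat]

theorem map_klB (p q : R) : f (klB p q) = klB (f p) (f q) := by
  simp only [klB, map_add, map_sub, map_mul, map_pow, map_ofNat]

theorem map_klf (u v : R) : f (klf u v) = klf (f u) (f v) := by
  simp only [klf, map_mul, map_klFF, map_pow]

theorem map_klH (u v : R) : f (klH u v) = klH (f u) (f v) := by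
  simp only [klH, map_klHH, map_pow]

theorem map_klT (u v : R) : f (klT u v) = klT (f u) (f v) := by
  simp only [klT, map_klTT, map_pow]

theorem map_klU (u v t : R) : f (klU u v t) = klU (f u) (f v) (f t) := by
  simp only [klU, map_mul, map_add, map_one, map_klA, map_pow]

theorem map_klV (u v t : R) : f (klV u v t) = klV (f u) (f v) (f t) := by
  simp only [klV, map_mul, map_sub, map_one, map_klB, map_pow]

end maps

section conj

variable {k : Type*} [Field k] [DecidableEq k] {W : WeierstrassCurve k} {u v : k}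
  (D : KleinData k)

theorem KFib.kP_conj (h : KFib W u v) (h2 : (2 : k) ≠ 0) (h3 : (3 : k) ≠ 0)
    (h5 : (5 : k) ≠ 0) : kP D.conj W u v = (-2 : ℤ) • kP D W u v := by
  have hp : (-v) ^ 5 = -v ^ 5 := by ring
  have hx : D.conj.xP u v = D.xP (-v) u := by
    simp only [KleinData.xP, hp]; exact D.conj_xPP _ _
  have hy : D.conj.yP u v = -D.yP (-v) u := by
    simp only [KleinData.yP, hp]; exact D.conj_yPP _ _
  have hU := h.U
  have hns := hU.nonsingular D h2 h3 h5
  have hnegY : W.toAffine.negY (D.xP (-v) u) (D.yP (-v) u) = -D.yP (-v) u := by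
    simp only [Affine.negY, h.a1, h.a3]; ring
  have hns' : W.toAffine.Nonsingular (D.conj.xP u v) (D.conj.yP u v) := by
    rw [hx, hy, ← hnegY]
    exact (Affine.nonsingular_neg ..).mpr hns
  have e1 : kP D.conj W u v = -kP D W (-v) u := by
    rw [kP_eq_some D.conj hns', kP_eq_some D hns, Point.neg_some]
    simp only [hx, hy, hnegY]
  rw [e1, h.kP_U D h2 h3 h5]
  simp only [neg_smul, ofNat_zsmul]

theorem KFib.kP_conjPow (h : KFib W u v) (h2 : (2 : k) ≠ 0) (h3 : (3 : k) ≠ 0)
    (h5 : (5 : k) ≠ 0) (j : ℕ) : kP (D.conjPow j) W u v = ((-2 : ℤ) ^ j) • kP D W u v := by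
  induction j with
  | zero => simp [KleinData.conjPow]
  | succ j ih =>
    have := h.kP_conj (D.conjPow j) h2 h3 h5
    rw [show D.conjPow (j + 1) = (D.conjPow j).conj from rfl, this, ih, smul_smul, pow_succ,
      mul_comm]

end conj

section algHom

variable {F : Type*} [CommRing F] (E : WeierstrassCurve F) {k : Type*} [Field k] [Algebra F k]
  (f : k →ₐ[F] k) {u v : k}

theorem baseChange_a₁_fixed : f (E⁄k).a₁ = (E⁄k).a₁ := by
  simp only [WeierstrassCurve.baseChange, WeierstrassCurve.map_a₁, AlgHom.commutes]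

theorem KFib.map_algHom (h : KFib (E⁄k) u v) : KFib (E⁄k) (f u) (f v) := by
  refine ⟨h.a1, h.a2, h.a3, ?_, ?_, ?_⟩
  · have h4 : f (E⁄k).a₄ = (E⁄k).a₄ := by
      simp only [WeierstrassCurve.baseChange, WeierstrassCurve.map_a₄, AlgHom.commutes]
    have e := map_klH (f : k →+* k) u v
    simp only [RingHom.coe_coe] at e
    rw [← h4, h.a4, ← e]
    simp only [map_mul, map_ofNat]
  · have h6 : f (E⁄k).a₆ = (E⁄k).a₆ := by
      simp only [WeierstrassCurve.baseChange, WeierstrassCurve.map_a₆, AlgHom.commutes]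
    have e := map_klT (f : k →+* k) u v
    simp only [RingHom.coe_coe] at e
    rw [← h6, h.a6, ← e]
    simp only [map_mul, map_ofNat]
  · have := map_klf (f : k →+* k) u v
    simp only [RingHom.coe_coe] at this
    rw [← this]
    exact (map_ne_zero_iff f f.injective).mpr h.hf

variable [DecidableEq k]

theorem KFib.map_kP (D : KleinData k) (h : KFib (E⁄k) u v) (h2 : (2 : k) ≠ 0)
    (h3 : (3 : k) ≠ 0) (h5 : (5 : k) ≠ 0) :
    Affine.Point.map (W' := E) f (kP D (E⁄k) u v)
      = kP (D.map (f : k →+* k)) (E⁄k) (f u) (f v) := by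
  have hns := h.nonsingular D h2 h3 h5
  have hns' := (h.map_algHom E f).nonsingular (D.map (f : k →+* k)) h2 h3 h5
  rw [kP_eq_some D hns, kP_eq_some _ hns', Point.map_some]
  have hx := D.map_xP (f : k →+* k) u v
  have hy := D.map_yP (f : k →+* k) u v
  simp only [RingHom.coe_coe] at hx hy
  simp only [Point.some.injEq]
  exact ⟨hx, hy⟩

end algHom

section frob

variable {ℓ : ℕ} [Fact ℓ.Prime] (E : WeierstrassCurve (ZMod ℓ)) {k : Type*} [Field k]
  [Algebra (ZMod ℓ) k] {u v : k}

theorem frobeniusAlgHom_apply_zmod (x : k) :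
    FiniteField.frobeniusAlgHom (ZMod ℓ) k x = x ^ ℓ := by
  rw [FiniteField.coe_frobeniusAlgHom, ZMod.card]

theorem KFib.frob (h : KFib (E⁄k) u v) : KFib (E⁄k) (u ^ ℓ) (v ^ ℓ) := by
  have := h.map_algHom E (FiniteField.frobeniusAlgHom (ZMod ℓ) k)
  rwa [frobeniusAlgHom_apply_zmod, frobeniusAlgHom_apply_zmod] at this

variable [DecidableEq k]

/-- Frobenius on the universal point: `φ(P(w)) = (-2)^j • P(φ w)` if `z ^ ℓ = z ^ (2 ^ j)`. -/
theorem KFib.frobPt_kP (D : KleinData k) (h : KFib (E⁄k) u v) (h2 : (2 : k) ≠ 0)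
    (h3 : (3 : k) ≠ 0) (h5 : (5 : k) ≠ 0) (j : ℕ) (hj : D.z ^ ℓ = (D.conjPow j).z) :
    frobPt E k (kP D (E⁄k) u v) = ((-2 : ℤ) ^ j) • kP D (E⁄k) (u ^ ℓ) (v ^ ℓ) := by
  have hD : D.map ((FiniteField.frobeniusAlgHom (ZMod ℓ) k : k →ₐ[ZMod ℓ] k) : k →+* k)
      = D.conjPow j := by
    apply KleinData.ext'
    rw [KleinData.map_z, ← hj]
    exact frobeniusAlgHom_apply_zmod _
  unfold frobPt
  rw [h.map_kP E (FiniteField.frobeniusAlgHom (ZMod ℓ) k) D h2 h3 h5, hD,
    frobeniusAlgHom_apply_zmod, frobeniusAlgHom_apply_zmod]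
  exact (h.frob E).kP_conjPow D h2 h3 h5 j

end frob

end Fermat.Agent.S52
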