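import Fermat.Agent.S52.Klein.Frob1
import Fermat.Agent.S52.Klein.PointsT
import Fermat.Agent.S52.Klein.Cls
import Fermat.Agent.S52.FibreKlein

/-!
# S52 (C-d), part 2: the Frobenius matrix on `E[5]` is constant along the Rubin–Silverberg line
(helper52)

`kleinCongr_of_line` : `FrobCharEq → (line equivariance of T) → (classification) → (line
identities) → KleinCongr`.
-/

set_option autoImplicit false

namespace Fermat.Agent.S52

open WeierstrassCurve WeierstrassCurve.Affine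

/-! ### Independence of `kP(w)` and `kP(T w)` -/

section indep

variable {k : Type*} [Field k] [DecidableEq k] {W : WeierstrassCurve k} {u v : k}
  (D : KleinData k)

theorem eq_zero_of_five_zsmul_of_not_dvd {G : Type*} [AddCommGroup G] {P : G}
    (h5 : (5 : ℤ) • P = 0) {x : ℤ} (hx : ¬ (5 : ℤ) ∣ x) (hxP : x • P = 0) : P = 0 := by
  have hp : Prime (5 : ℤ) := by norm_num
  have hcop : IsCoprime x 5 := (Int.isCoprime_iff_gcd_eq_one.mpr (by
    rw [Int.gcd_comm]
    exact (Int.isCoprime_iff_gcd_eq_one.mp ((Prime.coprime_iff_not_dvd hp).mpr hx))))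
  obtain ⟨m, n, hmn⟩ := hcop
  have : P = (m * x + n * 5) • P := by rw [hmn, one_smul]
  rw [this, add_smul, mul_smul, mul_smul, hxP, h5, smul_zero, smul_zero, add_zero]

theorem KFib.kP_indep (h : KFib W u v) (h2 : (2 : k) ≠ 0) (h3 : (3 : k) ≠ 0)
    (h5 : (5 : k) ≠ 0) (x y : ℤ)
    (hxy : x • kP D W u v + y • kP D W (D.Tu u v) (D.Tv u v) = 0) :
    (5 : ℤ) ∣ x ∧ (5 : ℤ) ∣ y := by
  have hp : Prime (5 : ℤ) := by norm_num
  have h5P := h.five_zsmul_kP D h2 h3 h5
  have h5Q := (h.T D h5).five_zsmul_kP D h2 h3 h5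
  have hy : (5 : ℤ) ∣ y := by
    by_contra hy
    have hcop : IsCoprime y 5 := (Int.isCoprime_iff_gcd_eq_one.mpr (by
      rw [Int.gcd_comm]
      exact (Int.isCoprime_iff_gcd_eq_one.mp ((Prime.coprime_iff_not_dvd hp).mpr hy))))
    obtain ⟨m, n, hmn⟩ := hcop
    apply h.kP_T_not_mem D h2 h3 h5
    rw [AddSubgroup.mem_zmultiples_iff]
    refine ⟨-(m * x), ?_⟩
    have hyQ : y • kP D W (D.Tu u v) (D.Tv u v) = -(x • kP D W u v) := by
      rw [eq_neg_iff_add_eq_zero, add_comm]; exact hxy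
    have : kP D W (D.Tu u v) (D.Tv u v) = (m * y + n * 5) • kP D W (D.Tu u v) (D.Tv u v) := by
      rw [hmn, one_smul]
    rw [this, add_smul, mul_smul, mul_smul, hyQ, h5Q, smul_zero, add_zero, neg_smul, mul_smul,
      smul_neg]
  refine ⟨?_, hy⟩
  by_contra hx
  obtain ⟨y', rfl⟩ := hy
  rw [mul_comm (5 : ℤ) y', mul_smul, h5Q, smul_zero, add_zero] at hxy
  exact h.kP_ne_zero D h2 h3 h5 (eq_zero_of_five_zsmul_of_not_dvd h5P hx hxy)

end indep

/-! ### Characteristic and base change facts -/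

section base

variable {ℓ : ℕ} [Fact ℓ.Prime] {k : Type*} [Field k] [Algebra (ZMod ℓ) k]

theorem natCast_ne_zero_of_lt_char (n : ℕ) (h0 : 0 < n) (hn : n < ℓ) : ((n : ℕ) : k) ≠ 0 := by
  have : CharP k ℓ := charP_of_injective_algebraMap (algebraMap (ZMod ℓ) k).injective ℓ
  rw [Ne, CharP.cast_eq_zero_iff k ℓ]
  exact Nat.not_dvd_of_pos_of_lt h0 hn

theorem pow_klU_algebraMap (u v : k) (s : ZMod ℓ) :
    klU u v (algebraMap (ZMod ℓ) k s) ^ ℓ = klU (u ^ ℓ) (v ^ ℓ) (algebraMap (ZMod ℓ) k s) := by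
  have := map_klU ((FiniteField.frobeniusAlgHom (ZMod ℓ) k : k →ₐ[ZMod ℓ] k) : k →+* k) u v
    (algebraMap (ZMod ℓ) k s)
  simp only [RingHom.coe_coe, AlgHom.commutes] at this
  rwa [frobeniusAlgHom_apply_zmod, frobeniusAlgHom_apply_zmod, frobeniusAlgHom_apply_zmod]
    at this

theorem pow_klV_algebraMap (u v : k) (s : ZMod ℓ) :
    klV u v (algebraMap (ZMod ℓ) k s) ^ ℓ = klV (u ^ ℓ) (v ^ ℓ) (algebraMap (ZMod ℓ) k s) := by
  have := map_klV ((FiniteField.frobeniusAlgHom (ZMod ℓ) k : k →ₐ[ZMod ℓ] k) : k →+* k) u v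
    (algebraMap (ZMod ℓ) k s)
  simp only [RingHom.coe_coe, AlgHom.commutes] at this
  rwa [frobeniusAlgHom_apply_zmod, frobeniusAlgHom_apply_zmod, frobeniusAlgHom_apply_zmod]
    at this

theorem shortW_baseChange_a₁ (A B : ZMod ℓ) : ((shortW A B)⁄k).a₁ = 0 := by
  simp [shortW, WeierstrassCurve.baseChange]

theorem shortW_baseChange_a₂ (A B : ZMod ℓ) : ((shortW A B)⁄k).a₂ = 0 := by
  simp [shortW, WeierstrassCurve.baseChange]

theorem shortW_baseChange_a₃ (A B : ZMod ℓ) : ((shortW A B)⁄k).a₃ = 0 := by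
  simp [shortW, WeierstrassCurve.baseChange]

theorem shortW_baseChange_a₄ (A B : ZMod ℓ) :
    ((shortW A B)⁄k).a₄ = algebraMap (ZMod ℓ) k A := by
  simp [shortW, WeierstrassCurve.baseChange]

theorem shortW_baseChange_a₆ (A B : ZMod ℓ) :
    ((shortW A B)⁄k).a₆ = algebraMap (ZMod ℓ) k B := by
  simp [shortW, WeierstrassCurve.baseChange]

theorem Δ_ne_zero_of_baseChange (E : WeierstrassCurve (ZMod ℓ)) (h : (E⁄k).Δ ≠ 0) : E.Δ ≠ 0 := by
  intro h0
  apply h
  simp only [WeierstrassCurve.baseChange, WeierstrassCurve.map_Δ, h0, map_zero]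

end base

end Fermat.Agent.S52
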