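import Fermat.Agent.S52.RSLine
import Fermat.Agent.S52.RSRel

/-!
# S52: the line identity for Klein's form `T` (helper98)

`T(w + t J∇f(w)) = rsT (H w) (T w) t`. Instead of expanding a polynomial of degree 30 in `t`,
we use `T² + H³ = 1728 f⁵` on both sides: in the domain `ℤ[u, v, t]` the line identities for
`H` and `f` give `T(line)² = rsT²`, the sign is fixed at `(u, v, t) = (0, 1, 0)`, and the
identity is transported to any commutative ring by evaluation.
-/

set_option autoImplicit false

namespace Fermat.Agent.S52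

section maps

variable {R S : Type*} [CommRing R] [CommRing S]

theorem kl_line_mapHH (φ : R →+* S) (p q : R) : φ (klHH p q) = klHH (φ p) (φ q) := by
  simp only [klHH, map_add, map_sub, map_mul, map_pow, map_neg, map_ofNat]

theorem kl_line_mapTT (φ : R →+* S) (p q : R) : φ (klTT p q) = klTT (φ p) (φ q) := by
  simp only [klTT, map_add, map_sub, map_mul, map_pow, map_ofNat]

theorem kl_line_mapH (φ : R →+* S) (u v : R) : φ (klH u v) = klH (φ u) (φ v) := by
  simp only [klH, kl_line_mapHH, map_pow]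

theorem kl_line_mapT (φ : R →+* S) (u v : R) : φ (klT u v) = klT (φ u) (φ v) := by
  simp only [klT, kl_line_mapTT, map_pow]

theorem kl_line_mapU (φ : R →+* S) (u v t : R) : φ (klU u v t) = klU (φ u) (φ v) (φ t) := by
  simp only [klU, klA, map_add, map_sub, map_mul, map_pow, map_ofNat, map_one]

theorem kl_line_mapV (φ : R →+* S) (u v t : R) : φ (klV u v t) = klV (φ u) (φ v) (φ t) := by
  simp only [klV, klB, map_add, map_sub, map_mul, map_pow, map_ofNat, map_one]

end maps

variable {R : Type*} [CommRing R]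

/-- The square of the line identity for `T` follows from those for `H` and `f`. -/
theorem kl_lineT_sq_of (u v t : R)
    (hH : klH (klU u v t) (klV u v t) = rsH (klH u v) (klT u v) t)
    (hf : klf (klU u v t) (klV u v t) = klf u v * rsF (klH u v) (klT u v) t) :
    klT (klU u v t) (klV u v t) ^ 2 = rsT (klH u v) (klT u v) t ^ 2 := by
  have h1 := klT_sq_add_klH_cube (klU u v t) (klV u v t)
  have h2 := rs_rel (klH u v) (klT u v) t
  have h3 := klT_sq_add_klH_cube u v
  rw [hH, hf] at h1
  linear_combination h1 - h2 - rsF (klH u v) (klT u v) t ^ 5 * h3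

open MvPolynomial in
/-- The line identity for `T` in the universal case `ℤ[u, v, t]`. -/
theorem kl_lineT_univ_of
    (hH : klH (klU (X 0 : MvPolynomial (Fin 3) ℤ) (X 1) (X 2)) (klV (X 0) (X 1) (X 2))
      = rsH (klH (X 0) (X 1)) (klT (X 0) (X 1)) (X 2))
    (hf : klf (klU (X 0 : MvPolynomial (Fin 3) ℤ) (X 1) (X 2)) (klV (X 0) (X 1) (X 2))
      = klf (X 0) (X 1) * rsF (klH (X 0) (X 1)) (klT (X 0) (X 1)) (X 2)) :
    klT (klU (X 0 : MvPolynomial (Fin 3) ℤ) (X 1) (X 2)) (klV (X 0) (X 1) (X 2))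
      = rsT (klH (X 0) (X 1)) (klT (X 0) (X 1)) (X 2) := by
  have hsq := kl_lineT_sq_of (X 0 : MvPolynomial (Fin 3) ℤ) (X 1) (X 2) hH hf
  have hprod : (klT (klU (X 0 : MvPolynomial (Fin 3) ℤ) (X 1) (X 2)) (klV (X 0) (X 1) (X 2))
      - rsT (klH (X 0) (X 1)) (klT (X 0) (X 1)) (X 2))
      * (klT (klU (X 0 : MvPolynomial (Fin 3) ℤ) (X 1) (X 2)) (klV (X 0) (X 1) (X 2))
      + rsT (klH (X 0) (X 1)) (klT (X 0) (X 1)) (X 2)) = 0 := by
    linear_combination hsq
  rcases mul_eq_zero.mp hprod with h | h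
  · exact sub_eq_zero.mp h
  · exfalso
    have h' := congrArg (MvPolynomial.eval (![0, 1, 0] : Fin 3 → ℤ)) h
    rw [map_add, kl_line_mapT, kl_line_mapU, kl_line_mapV,
      (rs_map (MvPolynomial.eval (![0, 1, 0] : Fin 3 → ℤ)) _ _ _).2.1,
      kl_line_mapH, kl_line_mapT, map_zero] at h'
    simp only [MvPolynomial.eval_X, Matrix.cons_val_zero, Matrix.cons_val_one,
      Matrix.cons_val_two, Matrix.head_cons, Matrix.tail_cons, rsT_zero] at h'
    norm_num [klT, klTT, klU, klV, klA, klB] at h'

/-- The line identity for `T` over any commutative ring, from the universal identities for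
`H` and `f`. -/
theorem kl_lineT_of
    (hH : klH (klU (MvPolynomial.X 0 : MvPolynomial (Fin 3) ℤ) (MvPolynomial.X 1)
        (MvPolynomial.X 2)) (klV (MvPolynomial.X 0) (MvPolynomial.X 1) (MvPolynomial.X 2))
      = rsH (klH (MvPolynomial.X 0) (MvPolynomial.X 1))
        (klT (MvPolynomial.X 0) (MvPolynomial.X 1)) (MvPolynomial.X 2))
    (hf : klf (klU (MvPolynomial.X 0 : MvPolynomial (Fin 3) ℤ) (MvPolynomial.X 1)
        (MvPolynomial.X 2)) (klV (MvPolynomial.X 0) (MvPolynomial.X 1) (MvPolynomial.X 2))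
      = klf (MvPolynomial.X 0) (MvPolynomial.X 1)
        * rsF (klH (MvPolynomial.X 0) (MvPolynomial.X 1))
          (klT (MvPolynomial.X 0) (MvPolynomial.X 1)) (MvPolynomial.X 2))
    (u v t : R) :
    klT (klU u v t) (klV u v t) = rsT (klH u v) (klT u v) t := by
  have h := congrArg (MvPolynomial.eval₂Hom (Int.castRingHom R) (![u, v, t] : Fin 3 → R))
    (kl_lineT_univ_of hH hf)
  rw [kl_line_mapT, kl_line_mapU, kl_line_mapV,
    (rs_map (MvPolynomial.eval₂Hom (Int.castRingHom R) (![u, v, t] : Fin 3 → R)) _ _ _).2.1,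
    kl_line_mapH, kl_line_mapT] at h
  simpa only [MvPolynomial.eval₂Hom_X', Matrix.cons_val_zero, Matrix.cons_val_one,
    Matrix.cons_val_two, Matrix.head_cons, Matrix.tail_cons] using h

/-- **Line identity for `T`**: `T(w + t J∇f(w)) = rsT (H w) (T w) t` over any commutative ring. -/
theorem kl_lineT (u v t : R) :
    klT (klU u v t) (klV u v t) = rsT (klH u v) (klT u v) t :=
  kl_lineT_of (klH_line _ _ _) (klf_line _ _ _) u v t

end Fermat.Agent.S52
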