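import Fermat.Agent.S52.Klein.TK1

/-!
# S52 (C), piece P-A1: the universal point of order `5` on the Klein fibre (helper48)

`k` a field with `2, 3, 5 ≠ 0`, `D : KleinData k` (a primitive 5th root of unity `z`).
`KFib W u v` : `W` is `Y² = X³ + 675 H(u,v) X + 6750 T(u,v)` and `f(u,v) ≠ 0`.
`kP D W u v` : the point `(xP u v, yP u v)` of `W` (total function, `0` if not on the curve).

* `KFib` is stable under `w ↦ -w`, `S`, `U : (u,v) ↦ (-v,u)` and `w ↦ μ w` (`μ⁵ = 1`);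
* `kP(-w) = -kP(w)`, `kP(S w) = -kP(w)`, `kP(U w) = 2 • kP(w)`, `kP(μ w) = kP(w)`;
* `5 • kP(w) = 0`, `kP(w) ≠ 0`, `addOrderOf (kP w) = 5`.
-/

set_option autoImplicit false

namespace Fermat.Agent.S52

open WeierstrassCurve WeierstrassCurve.Affine

variable {k : Type*} [Field k]

/-- `(u, v)` lies on the Klein fibre of `W : Y² = X³ + 675 H(u,v) X + 6750 T(u,v)`, `f(u,v) ≠ 0`. -/
structure KFib (W : WeierstrassCurve k) (u v : k) : Prop where
  a1 : W.a₁ = 0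
  a2 : W.a₂ = 0
  a3 : W.a₃ = 0
  a4 : W.a₄ = 675 * klH u v
  a6 : W.a₆ = 6750 * klT u v
  hf : klf u v ≠ 0

namespace KFib

variable {W : WeierstrassCurve k} {u v : k}

/-! ### The discriminant -/

theorem Δ_eq (h : KFib W u v) : W.Δ = -(2 ^ 12 * 3 ^ 12 * 5 ^ 6) * klf u v ^ 5 := by
  simp only [WeierstrassCurve.Δ, WeierstrassCurve.b₂, WeierstrassCurve.b₄, WeierstrassCurve.b₆,
    WeierstrassCurve.b₈, h.a1, h.a2, h.a3, h.a4, h.a6]
  linear_combination (-19683000000 : k) * klT_sq_add_klH_cube u v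

theorem Δ_ne_zero (h : KFib W u v) (h2 : (2 : k) ≠ 0) (h3 : (3 : k) ≠ 0) (h5 : (5 : k) ≠ 0) :
    W.Δ ≠ 0 := by
  rw [h.Δ_eq]
  exact mul_ne_zero (neg_ne_zero.mpr (mul_ne_zero (mul_ne_zero (pow_ne_zero _ h2)
    (pow_ne_zero _ h3)) (pow_ne_zero _ h5))) (pow_ne_zero _ h.hf)

/-! ### Stability of the fibre -/

theorem klFF_ne_zero (h : KFib W u v) : klFF (u ^ 5) (v ^ 5) ≠ 0 := fun h0 =>
  h.hf (by rw [klf, h0, mul_zero])

theorem u_ne_zero (h : KFib W u v) : u ≠ 0 := fun h0 => h.hf (by rw [klf, h0]; ring)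

theorem v_ne_zero (h : KFib W u v) : v ≠ 0 := fun h0 => h.hf (by rw [klf, h0]; ring)

/-- a pair with the same fifth powers up to a common sign and `u' v' ≠ 0` is again in the fibre -/
theorem of_pow_eq (h : KFib W u v) {u' v' : k} (huv : u' * v' ≠ 0)
    (hpq : (u' ^ 5 = u ^ 5 ∧ v' ^ 5 = v ^ 5) ∨ (u' ^ 5 = -u ^ 5 ∧ v' ^ 5 = -v ^ 5)) :
    KFib W u' v' := by
  refine ⟨h.a1, h.a2, h.a3, ?_, ?_, ?_⟩
  · rw [h.a4]
    rcases hpq with ⟨hp, hq⟩ | ⟨hp, hq⟩
    · simp only [klH, hp, hq]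
    · simp only [klH, hp, hq, klHH]; ring
  · rw [h.a6]
    rcases hpq with ⟨hp, hq⟩ | ⟨hp, hq⟩
    · simp only [klT, hp, hq]
    · simp only [klT, hp, hq, klTT]; ring
  · have hFF := h.klFF_ne_zero
    rcases hpq with ⟨hp, hq⟩ | ⟨hp, hq⟩
    · simp only [klf, hp, hq]
      exact mul_ne_zero huv hFF
    · simp only [klf, hp, hq]
      refine mul_ne_zero huv ?_
      have : klFF (-u ^ 5) (-v ^ 5) = klFF (u ^ 5) (v ^ 5) := by simp only [klFF]; ring
      rw [this]; exact hFF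

theorem neg (h : KFib W u v) : KFib W (-u) (-v) :=
  h.of_pow_eq (by simpa using mul_ne_zero h.u_ne_zero h.v_ne_zero)
    (Or.inr ⟨by ring, by ring⟩)

theorem smul (h : KFib W u v) {μ : k} (hμ : μ ^ 5 = 1) : KFib W (μ * u) (μ * v) := by
  have hμ0 : μ ≠ 0 := fun h0 => by rw [h0] at hμ; simp at hμ
  exact h.of_pow_eq (mul_ne_zero (mul_ne_zero hμ0 h.u_ne_zero) (mul_ne_zero hμ0 h.v_ne_zero))
    (Or.inl ⟨by rw [mul_pow, hμ, one_mul], by rw [mul_pow, hμ, one_mul]⟩)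

theorem S (D : KleinData k) (h : KFib W u v) : KFib W (D.Su u) (D.Sv v) := by
  have hz := D.z_pow_five
  have hz0 : D.z ≠ 0 := fun h0 => by rw [h0] at hz; simp at hz
  refine h.of_pow_eq ?_ (Or.inr ⟨?_, ?_⟩)
  · simp only [KleinData.Su, KleinData.Sv]
    exact mul_ne_zero (mul_ne_zero (neg_ne_zero.mpr (pow_ne_zero _ hz0)) h.u_ne_zero)
      (mul_ne_zero (neg_ne_zero.mpr (pow_ne_zero _ hz0)) h.v_ne_zero)
  · simp only [KleinData.Su]
    linear_combination (-(D.z ^ 10 + D.z ^ 5 + 1) * u ^ 5) * hz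
  · simp only [KleinData.Sv]
    linear_combination (-(D.z ^ 5 + 1) * v ^ 5) * hz

theorem U (h : KFib W u v) : KFib W (-v) u := by
  refine ⟨h.a1, h.a2, h.a3, ?_, ?_, ?_⟩
  · rw [h.a4]; simp only [klH, klHH]; ring
  · rw [h.a6]; simp only [klT, klTT]; ring
  · have : klf (-v) u = klf u v := by simp only [klf, klFF]; ring
    rw [this]; exact h.hf

/-! ### The point -/

theorem equation (D : KleinData k) (h : KFib W u v) :
    W.toAffine.Equation (D.xP u v) (D.yP u v) := by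
  rw [Affine.equation_iff, h.a1, h.a2, h.a3, h.a4, h.a6]
  have := D.yPP_sq (u ^ 5) (v ^ 5)
  simp only [KleinData.xP, KleinData.yP, klH, klT]
  linear_combination this

theorem nonsingular (D : KleinData k) (h : KFib W u v) (h2 : (2 : k) ≠ 0) (h3 : (3 : k) ≠ 0)
    (h5 : (5 : k) ≠ 0) : W.toAffine.Nonsingular (D.xP u v) (D.yP u v) :=
  (Affine.equation_iff_nonsingular_of_Δ_ne_zero (h.Δ_ne_zero h2 h3 h5)).mp (h.equation D)

/-- `yP ≠ 0` on the fibre: the point is not of order `2`. -/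
theorem yP_ne_zero (D : KleinData k) (h : KFib W u v) (h2 : (2 : k) ≠ 0) (h3 : (3 : k) ≠ 0)
    (h5 : (5 : k) ≠ 0) : D.yP u v ≠ 0 := by
  intro h0
  have h1 := D.yBB_mul (u ^ 5) (v ^ 5)
  have hyBB : D.yBB (u ^ 5) (v ^ 5) = 0 := by
    have hs : D.s5 ≠ 0 := fun hs0 => h5 (by rw [← D.s5_sq, hs0]; ring)
    have : D.s5 * D.yBB (u ^ 5) (v ^ 5) = 0 := h0
    exact (mul_eq_zero.mp this).resolve_left hs
  rw [hyBB, zero_mul] at h1
  have hb0 : D.b0 ≠ 0 := by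
    intro hb
    have := D.b0_mul_b0c
    rw [hb, zero_mul] at this
    have h680 : (680244480 : k) = 2 ^ 8 * 3 ^ 12 * 5 := by norm_num
    rw [h680] at this
    exact mul_ne_zero (mul_ne_zero (pow_ne_zero _ h2) (pow_ne_zero _ h3)) h5 this.symm
  exact mul_ne_zero (mul_ne_zero h2 hb0) (pow_ne_zero 2 h.klFF_ne_zero) h1.symm

end KFib

open Classical in
/-- The universal point `(xP u v, yP u v)` of order `5` (`0` if it is not a point of `W`). -/
noncomputable def kP (D : KleinData k) (W : WeierstrassCurve k) (u v : k) : W.toAffine.Point :=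
  if h : W.toAffine.Nonsingular (D.xP u v) (D.yP u v) then Point.some _ _ h else 0

section Points

variable {W : WeierstrassCurve k} {u v : k} (D : KleinData k)

theorem kP_eq_some (h : W.toAffine.Nonsingular (D.xP u v) (D.yP u v)) :
    kP D W u v = Point.some _ _ h := by
  unfold kP
  rw [dif_pos h]

theorem KFib.kP_eq (h : KFib W u v) (h2 : (2 : k) ≠ 0) (h3 : (3 : k) ≠ 0) (h5 : (5 : k) ≠ 0) :
    kP D W u v = Point.some _ _ (h.nonsingular D h2 h3 h5) :=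
  kP_eq_some D _

theorem KFib.kP_ne_zero (h : KFib W u v) (h2 : (2 : k) ≠ 0) (h3 : (3 : k) ≠ 0)
    (h5 : (5 : k) ≠ 0) : kP D W u v ≠ 0 := by
  rw [h.kP_eq D h2 h3 h5]
  exact Point.some_ne_zero _

/-- `kP` depends only on `(u⁵, v⁵)`. -/
theorem kP_congr {u' v' : k} (hp : u' ^ 5 = u ^ 5) (hq : v' ^ 5 = v ^ 5) :
    kP D W u' v' = kP D W u v := by
  have hx : D.xP u' v' = D.xP u v := by simp only [KleinData.xP, hp, hq]
  have hy : D.yP u' v' = D.yP u v := by simp only [KleinData.yP, hp, hq]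
  unfold kP
  by_cases h : W.toAffine.Nonsingular (D.xP u v) (D.yP u v)
  · have h' : W.toAffine.Nonsingular (D.xP u' v') (D.yP u' v') := by rw [hx, hy]; exact h
    rw [dif_pos h, dif_pos h', Point.some.injEq]
    exact ⟨hx, hy⟩
  · have h' : ¬ W.toAffine.Nonsingular (D.xP u' v') (D.yP u' v') := by rw [hx, hy]; exact h
    rw [dif_neg h, dif_neg h']

theorem kP_smul {μ : k} (hμ : μ ^ 5 = 1) : kP D W (μ * u) (μ * v) = kP D W u v :=
  kP_congr D (by rw [mul_pow, hμ, one_mul]) (by rw [mul_pow, hμ, one_mul])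

/-- if `(u'⁵, v'⁵) = (-u⁵, -v⁵)` then `kP(w') = -kP(w)`. -/
theorem KFib.kP_of_pow_eq_neg (h : KFib W u v) (h2 : (2 : k) ≠ 0) (h3 : (3 : k) ≠ 0)
    (h5 : (5 : k) ≠ 0) {u' v' : k} (hp : u' ^ 5 = -u ^ 5) (hq : v' ^ 5 = -v ^ 5) :
    kP D W u' v' = -kP D W u v := by
  have hx : D.xP u' v' = D.xP u v := by
    simp only [KleinData.xP, hp, hq]; exact D.xPP_neg _ _
  have hy : D.yP u' v' = -D.yP u v := by
    simp only [KleinData.yP, hp, hq]; exact D.yPP_neg _ _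
  have hns := h.nonsingular D h2 h3 h5
  have hnegY : W.toAffine.negY (D.xP u v) (D.yP u v) = -D.yP u v := by
    simp only [Affine.negY, h.a1, h.a3]; ring
  have hns' : W.toAffine.Nonsingular (D.xP u' v') (D.yP u' v') := by
    rw [hx, hy, ← hnegY]
    exact (Affine.nonsingular_neg ..).mpr hns
  rw [kP_eq_some D hns', kP_eq_some D hns, Point.neg_some]
  simp only [hx, hy, hnegY]

theorem KFib.kP_neg (h : KFib W u v) (h2 : (2 : k) ≠ 0) (h3 : (3 : k) ≠ 0) (h5 : (5 : k) ≠ 0) :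
    kP D W (-u) (-v) = -kP D W u v :=
  h.kP_of_pow_eq_neg D h2 h3 h5 (by ring) (by ring)

theorem KFib.kP_S (h : KFib W u v) (h2 : (2 : k) ≠ 0) (h3 : (3 : k) ≠ 0) (h5 : (5 : k) ≠ 0) :
    kP D W (D.Su u) (D.Sv v) = -kP D W u v := by
  have hz := D.z_pow_five
  refine h.kP_of_pow_eq_neg D h2 h3 h5 ?_ ?_
  · simp only [KleinData.Su]
    linear_combination (-(D.z ^ 10 + D.z ^ 5 + 1) * u ^ 5) * hz
  · simp only [KleinData.Sv]
    linear_combination (-(D.z ^ 5 + 1) * v ^ 5) * hz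

variable [DecidableEq k]

/-- `kP(U w) = 2 • kP(w)`, `U (u, v) = (-v, u)`. -/
theorem KFib.kP_U (h : KFib W u v) (h2 : (2 : k) ≠ 0) (h3 : (3 : k) ≠ 0) (h5 : (5 : k) ≠ 0) :
    kP D W (-v) u = 2 • kP D W u v := by
  have hns := h.nonsingular D h2 h3 h5
  have hnsU := h.U.nonsingular D h2 h3 h5
  have hy0 := h.yP_ne_zero D h2 h3 h5
  have hnegY : W.toAffine.negY (D.xP u v) (D.yP u v) = -D.yP u v := by
    simp only [Affine.negY, h.a1, h.a3]; ring
  have hyne : D.yP u v ≠ W.toAffine.negY (D.xP u v) (D.yP u v) := by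
    rw [hnegY]
    intro he
    have : 2 * D.yP u v = 0 := by linear_combination he
    exact hy0 ((mul_eq_zero.mp this).resolve_left h2)
  rw [kP_eq_some D hnsU, kP_eq_some D hns, two_nsmul, Point.add_self_of_Y_ne hyne]
  have h2y : 2 * D.yP u v ≠ 0 := mul_ne_zero h2 hy0
  have hslope : W.toAffine.slope (D.xP u v) (D.xP u v) (D.yP u v) (D.yP u v) =
      (3 * D.xP u v ^ 2 + 675 * klH u v) / (2 * D.yP u v) := by
    rw [Affine.slope_of_Y_ne rfl hyne, hnegY, h.a1, h.a2, h.a4]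
    congr 1 <;> ring
  have hℓ : (3 * D.xP u v ^ 2 + 675 * klH u v) / (2 * D.yP u v) * (2 * D.yP u v) =
      3 * D.xP u v ^ 2 + 675 * klH u v := div_mul_cancel₀ _ h2y
  have hp : (-v) ^ 5 = -v ^ 5 := by ring
  have hdx : D.xP (-v) u * (2 * D.yP u v) ^ 2 =
      (3 * D.xP u v ^ 2 + 675 * klH u v) ^ 2 - 2 * D.xP u v * (2 * D.yP u v) ^ 2 := by
    have := D.dup_x (u ^ 5) (v ^ 5)
    simp only [KleinData.xP, KleinData.yP, klH, hp]
    exact this
  have hdy : D.yP (-v) u * (2 * D.yP u v) =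
      -((3 * D.xP u v ^ 2 + 675 * klH u v) * (D.xP (-v) u - D.xP u v) + 2 * D.yP u v ^ 2) := by
    have := D.dup_y (u ^ 5) (v ^ 5)
    simp only [KleinData.xP, KleinData.yP, klH, hp]
    exact this
  generalize (3 * D.xP u v ^ 2 + 675 * klH u v) / (2 * D.yP u v) = ℓ at hslope hℓ
  have hX : D.xP (-v) u =
      W.toAffine.addX (D.xP u v) (D.xP u v)
        (W.toAffine.slope (D.xP u v) (D.xP u v) (D.yP u v) (D.yP u v)) := by
    rw [hslope, Affine.addX, h.a1, h.a2]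
    apply mul_right_cancel₀ (pow_ne_zero 2 h2y)
    linear_combination hdx - (ℓ * (2 * D.yP u v) + (3 * D.xP u v ^ 2 + 675 * klH u v)) * hℓ
  have hY : D.yP (-v) u =
      W.toAffine.addY (D.xP u v) (D.xP u v) (D.yP u v)
        (W.toAffine.slope (D.xP u v) (D.xP u v) (D.yP u v) (D.yP u v)) := by
    rw [Affine.addY, Affine.negAddY, ← hX, Affine.negY, hslope, h.a1, h.a3]
    apply mul_right_cancel₀ h2y
    linear_combination hdy + (D.xP (-v) u - D.xP u v) * hℓ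
  simp only [Point.some.injEq]
  exact ⟨hX, hY⟩

/-- `5 • kP(w) = 0`. -/
theorem KFib.five_nsmul_kP (h : KFib W u v) (h2 : (2 : k) ≠ 0) (h3 : (3 : k) ≠ 0)
    (h5 : (5 : k) ≠ 0) : 5 • kP D W u v = 0 := by
  have h1 := h.kP_U D h2 h3 h5
  have h2' := h.U.kP_U D h2 h3 h5
  have h3' := h.kP_neg D h2 h3 h5
  rw [h3', h1] at h2'
  have : 5 • kP D W u v = 2 • (2 • kP D W u v) + kP D W u v := by
    rw [smul_smul]
    rw [show (5 : ℕ) = 2 * 2 + 1 by norm_num, add_nsmul, one_nsmul]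
  rw [this, ← h2', neg_add_cancel]

theorem KFib.five_zsmul_kP (h : KFib W u v) (h2 : (2 : k) ≠ 0) (h3 : (3 : k) ≠ 0)
    (h5 : (5 : k) ≠ 0) : (5 : ℤ) • kP D W u v = 0 := by
  have := h.five_nsmul_kP D h2 h3 h5
  rwa [← natCast_zsmul] at this

theorem KFib.addOrderOf_kP (h : KFib W u v) (h2 : (2 : k) ≠ 0) (h3 : (3 : k) ≠ 0)
    (h5 : (5 : k) ≠ 0) : addOrderOf (kP D W u v) = 5 := by
  have : Fact (Nat.Prime 5) := ⟨by norm_num⟩
  exact addOrderOf_eq_prime (h.five_nsmul_kP D h2 h3 h5) (h.kP_ne_zero D h2 h3 h5)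

theorem KFib.kP_mem_torsionBy (h : KFib W u v) (h2 : (2 : k) ≠ 0) (h3 : (3 : k) ≠ 0)
    (h5 : (5 : k) ≠ 0) : kP D W u v ∈ Submodule.torsionBy ℤ W.toAffine.Point ((5 : ℕ) : ℤ) := by
  rw [Submodule.mem_torsionBy_iff]
  simpa using h.five_zsmul_kP D h2 h3 h5

end Points

end Fermat.Agent.S52
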