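import Fermat.Agent.S52.Klein.TDefs

set_option autoImplicit false
set_option linter.unusedSimpArgs false
set_option linter.unusedVariables false

namespace Fermat.Agent.S52

namespace KleinData

variable {R : Type*} [CommRing R]
/-- The Galois conjugate `z ↦ z²`. -/
def conj (D : KleinData R) : KleinData R where
  z := D.z ^ (2 : ℕ)
  hz := by linear_combination (D.z ^ (4 : ℕ) - D.z ^ (3 : ℕ) + D.z ^ (2 : ℕ) - D.z + 1) * D.hz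

@[simp] theorem conj_z (D : KleinData R) : D.conj.z = D.z ^ (2 : ℕ) := rfl

theorem conj_s5 (D : KleinData R) :
    D.conj.s5 = -D.s5 := by
  try simp only [s5, m1, m2, Mu, Mv, Su, Sv, b0, b1, b2, b3, b0c, xPP, yBB, yPP, xP, yP, PQ1, PQ2, XQ, YQ, XQS, YQS, klFF, klHH, klTT, klA, klB, klf, klH, klT, conj_z]
  linear_combination (-2 * D.z ^ (2 : ℕ) + 2 * D.z - 2) * D.hz

/-- Galois conjugation `z ↦ z²` on the universal point: `X` -/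
theorem conj_xPP (D : KleinData R) (p q : R) :
    D.conj.xPP p q = D.xPP (-q) p := by
  try simp only [s5, m1, m2, Mu, Mv, Su, Sv, b0, b1, b2, b3, b0c, xPP, yBB, yPP, xP, yP, PQ1, PQ2, XQ, YQ, XQS, YQS, klFF, klHH, klTT, klA, klB, klf, klH, klT, conj_z]
  linear_combination (36 * D.z ^ (2 : ℕ) * p ^ (2 : ℕ) + 396 * D.z ^ (2 : ℕ) * p * q - 36 * D.z ^ (2 : ℕ) * q ^ (2 : ℕ)
      - 36 * D.z * p ^ (2 : ℕ) - 396 * D.z * p * q + 36 * D.z * q ^ (2 : ℕ) + 36 * p ^ (2 : ℕ)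
      + 396 * p * q - 36 * q ^ (2 : ℕ)) * D.hz

/-- Galois conjugation `z ↦ z²` on the universal point: `Y` -/
theorem conj_yPP (D : KleinData R) (p q : R) :
    D.conj.yPP p q = -D.yPP (-q) p := by
  try simp only [s5, m1, m2, Mu, Mv, Su, Sv, b0, b1, b2, b3, b0c, xPP, yBB, yPP, xP, yP, PQ1, PQ2, XQ, YQ, XQS, YQS, klFF, klHH, klTT, klA, klB, klf, klH, klT, conj_z]
  linear_combination (-216 * D.z ^ (8 : ℕ) * p ^ (3 : ℕ) - 3024 * D.z ^ (8 : ℕ) * p ^ (2 : ℕ) * q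
      - 6912 * D.z ^ (8 : ℕ) * p * q ^ (2 : ℕ) + 648 * D.z ^ (8 : ℕ) * q ^ (3 : ℕ)
      + 216 * D.z ^ (7 : ℕ) * p ^ (3 : ℕ) + 3024 * D.z ^ (7 : ℕ) * p ^ (2 : ℕ) * q
      + 6912 * D.z ^ (7 : ℕ) * p * q ^ (2 : ℕ) - 648 * D.z ^ (7 : ℕ) * q ^ (3 : ℕ)
      - 864 * D.z ^ (6 : ℕ) * p ^ (3 : ℕ) - 9936 * D.z ^ (6 : ℕ) * p ^ (2 : ℕ) * q
      - 3888 * D.z ^ (6 : ℕ) * p * q ^ (2 : ℕ) + 432 * D.z ^ (6 : ℕ) * q ^ (3 : ℕ)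
      + 864 * D.z ^ (5 : ℕ) * p ^ (3 : ℕ) + 9936 * D.z ^ (5 : ℕ) * p ^ (2 : ℕ) * q
      + 3888 * D.z ^ (5 : ℕ) * p * q ^ (2 : ℕ) - 432 * D.z ^ (5 : ℕ) * q ^ (3 : ℕ)
      - 1512 * D.z ^ (4 : ℕ) * p ^ (3 : ℕ) - 16848 * D.z ^ (4 : ℕ) * p ^ (2 : ℕ) * q
      - 864 * D.z ^ (4 : ℕ) * p * q ^ (2 : ℕ) + 216 * D.z ^ (4 : ℕ) * q ^ (3 : ℕ)
      + 1296 * D.z ^ (3 : ℕ) * p ^ (3 : ℕ) + 13824 * D.z ^ (3 : ℕ) * p ^ (2 : ℕ) * q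
      - 6048 * D.z ^ (3 : ℕ) * p * q ^ (2 : ℕ) + 432 * D.z ^ (3 : ℕ) * q ^ (3 : ℕ)
      - 540 * D.z ^ (2 : ℕ) * p ^ (3 : ℕ) - 6480 * D.z ^ (2 : ℕ) * p ^ (2 : ℕ) * q
      - 5400 * D.z ^ (2 : ℕ) * p * q ^ (2 : ℕ) + 540 * D.z ^ (2 : ℕ) * q ^ (3 : ℕ)
      + 324 * D.z * p ^ (3 : ℕ) + 3456 * D.z * p ^ (2 : ℕ) * q - 1512 * D.z * p * q ^ (2 : ℕ)
      + 108 * D.z * q ^ (3 : ℕ) - 108 * p ^ (3 : ℕ) - 1512 * p ^ (2 : ℕ) * q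
      - 3456 * p * q ^ (2 : ℕ) + 324 * q ^ (3 : ℕ)) * D.hz


end KleinData

end Fermat.Agent.S52
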