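import Fermat.Agent.S52.Klein.Forms

/-!
# Klein's icosahedral group acting on the forms, and the universal 5-torsion point
(generated by helper52's python CAS; every identity is checked by `linear_combination`)

`D : KleinData R` is a root `z` of `Φ₅`. `s5 = √5`. The matrix `M = s5 • T` with
`T ∈ 2I` of order 4, `S = diag(-z³, -z²)` of order 10. The scaled universal curve is
`Y² = X³ + 675 H X + 6750 T`, with the point `P = (xP, yP)` of order 5 (`2P = P∘U`, `U(u,v) = (-v,u)`).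
-/

set_option autoImplicit false
set_option linter.unusedSimpArgs false
set_option linter.unusedVariables false

namespace Fermat.Agent.S52

/-- A primitive fifth root of unity (a root of `Φ₅`). -/
structure KleinData (R : Type*) [CommRing R] where
  /-- the root of unity -/
  z : R
  hz : z ^ (4 : ℕ) + z ^ (3 : ℕ) + z ^ (2 : ℕ) + z + 1 = 0

namespace KleinData

variable {R : Type*} [CommRing R]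

/-- `√5 = 1 + 2 (z + z⁴)` -/
def s5 (D : KleinData R) : R :=
  -2 * D.z ^ (3 : ℕ) - 2 * D.z ^ (2 : ℕ) - 1

/-- `z⁴ - z` -/
def m1 (D : KleinData R) : R :=
  -D.z ^ (3 : ℕ) - D.z ^ (2 : ℕ) - 2 * D.z - 1

/-- `z² - z³` -/
def m2 (D : KleinData R) : R :=
  -D.z ^ (3 : ℕ) + D.z ^ (2 : ℕ)

/-- first coordinate of `M w`, `M = √5 • T` -/
def Mu (D : KleinData R) (u v : R) : R :=
  D.m1 * u + D.m2 * v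

/-- second coordinate of `M w` -/
def Mv (D : KleinData R) (u v : R) : R :=
  D.m2 * u - D.m1 * v

/-- first coordinate of `S w` -/
def Su (D : KleinData R) (u : R) : R :=
  -D.z ^ (3 : ℕ) * u

/-- second coordinate of `S w` -/
def Sv (D : KleinData R) (v : R) : R :=
  -D.z ^ (2 : ℕ) * v

/-- coefficient of `5 y_P` -/
def b0 (D : KleinData R) : R :=
  108 * D.z ^ (3 : ℕ) + 324 * D.z ^ (2 : ℕ) + 432 * D.z + 216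

/-- coefficient of `5 y_P` -/
def b1 (D : KleinData R) : R :=
  1512 * D.z ^ (3 : ℕ) + 3456 * D.z ^ (2 : ℕ) + 4968 * D.z + 2484

/-- coefficient of `5 y_P` -/
def b2 (D : KleinData R) : R :=
  3456 * D.z ^ (3 : ℕ) - 1512 * D.z ^ (2 : ℕ) + 1944 * D.z + 972

/-- coefficient of `5 y_P` -/
def b3 (D : KleinData R) : R :=
  -324 * D.z ^ (3 : ℕ) + 108 * D.z ^ (2 : ℕ) - 216 * D.z - 108

/-- cofactor: `b0 * b0c = 680244480 = 2⁸ 3¹² 5` -/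
def b0c (D : KleinData R) : R :=
  -8817984 * D.z ^ (3 : ℕ) + 1259712 * D.z ^ (2 : ℕ) - 7558272 * D.z - 3779136

/-- `X`-coordinate of the universal 5-torsion point, as a form in `p = u⁵, q = v⁵` -/
def xPP (D : KleinData R) (p q : R) : R :=
  -((75 + 18 * D.s5) * p ^ (2 : ℕ) + 198 * D.s5 * p * q + (75 - 18 * D.s5) * q ^ (2 : ℕ))

/-- `Y / √5` -/
def yBB (D : KleinData R) (p q : R) : R :=
  D.b0 * p ^ (3 : ℕ) + D.b1 * p ^ (2 : ℕ) * q + D.b2 * p * q ^ (2 : ℕ) + D.b3 * q ^ (3 : ℕ)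

/-- `Y`-coordinate of the universal 5-torsion point, as a form in `p, q` -/
def yPP (D : KleinData R) (p q : R) : R :=
  D.s5 * D.yBB p q

/-- `X(P)` as a form of degree 10 in `u, v` -/
def xP (D : KleinData R) (u v : R) : R :=
  D.xPP (u ^ (5 : ℕ)) (v ^ (5 : ℕ))

/-- `Y(P)` as a form of degree 15 in `u, v` -/
def yP (D : KleinData R) (u v : R) : R :=
  D.yPP (u ^ (5 : ℕ)) (v ^ (5 : ℕ))

/-- normal form of `(Mu)⁵` -/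
def PQ1 (D : KleinData R) (u v : R) : R :=
  -5 * D.z ^ (3 : ℕ) * u ^ (5 : ℕ) - 50 * D.z ^ (3 : ℕ) * u ^ (3 : ℕ) * v ^ (2 : ℕ)
    - 50 * D.z ^ (3 : ℕ) * u ^ (2 : ℕ) * v ^ (3 : ℕ) - 50 * D.z ^ (3 : ℕ) * u * v ^ (4 : ℕ)
    - 15 * D.z ^ (3 : ℕ) * v ^ (5 : ℕ) - 15 * D.z ^ (2 : ℕ) * u ^ (5 : ℕ)
    + 50 * D.z ^ (2 : ℕ) * u ^ (4 : ℕ) * v - 50 * D.z ^ (2 : ℕ) * u ^ (3 : ℕ) * v ^ (2 : ℕ)
    + 50 * D.z ^ (2 : ℕ) * u ^ (2 : ℕ) * v ^ (3 : ℕ) + 5 * D.z ^ (2 : ℕ) * v ^ (5 : ℕ)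
    - 20 * D.z * u ^ (5 : ℕ) + 50 * D.z * u ^ (4 : ℕ) * v - 100 * D.z * u ^ (3 : ℕ) * v ^ (2 : ℕ)
    - 50 * D.z * u * v ^ (4 : ℕ) - 10 * D.z * v ^ (5 : ℕ) - 10 * u ^ (5 : ℕ) + 25 * u ^ (4 : ℕ) * v
    - 50 * u ^ (3 : ℕ) * v ^ (2 : ℕ) - 25 * u * v ^ (4 : ℕ) - 5 * v ^ (5 : ℕ)

/-- normal form of `(Mv)⁵` -/
def PQ2 (D : KleinData R) (u v : R) : R :=
  -15 * D.z ^ (3 : ℕ) * u ^ (5 : ℕ) + 50 * D.z ^ (3 : ℕ) * u ^ (4 : ℕ) * v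
    - 50 * D.z ^ (3 : ℕ) * u ^ (3 : ℕ) * v ^ (2 : ℕ)
    + 50 * D.z ^ (3 : ℕ) * u ^ (2 : ℕ) * v ^ (3 : ℕ) + 5 * D.z ^ (3 : ℕ) * v ^ (5 : ℕ)
    + 5 * D.z ^ (2 : ℕ) * u ^ (5 : ℕ) + 50 * D.z ^ (2 : ℕ) * u ^ (3 : ℕ) * v ^ (2 : ℕ)
    + 50 * D.z ^ (2 : ℕ) * u ^ (2 : ℕ) * v ^ (3 : ℕ) + 50 * D.z ^ (2 : ℕ) * u * v ^ (4 : ℕ)
    + 15 * D.z ^ (2 : ℕ) * v ^ (5 : ℕ) - 10 * D.z * u ^ (5 : ℕ) + 50 * D.z * u ^ (4 : ℕ) * v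
    + 100 * D.z * u ^ (2 : ℕ) * v ^ (3 : ℕ) + 50 * D.z * u * v ^ (4 : ℕ) + 20 * D.z * v ^ (5 : ℕ)
    - 5 * u ^ (5 : ℕ) + 25 * u ^ (4 : ℕ) * v + 50 * u ^ (2 : ℕ) * v ^ (3 : ℕ) + 25 * u * v ^ (4 : ℕ)
    + 10 * v ^ (5 : ℕ)

/-- normal form of `xP (M w)` -/
def XQ (D : KleinData R) (u v : R) : R :=
  46875 * u ^ (10 : ℕ) - 562500 * u ^ (9 : ℕ) * v + 1125000 * u ^ (8 : ℕ) * v ^ (2 : ℕ)
    - 1687500 * u ^ (7 : ℕ) * v ^ (3 : ℕ) + 2812500 * u ^ (6 : ℕ) * v ^ (4 : ℕ)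
    - 1406250 * u ^ (5 : ℕ) * v ^ (5 : ℕ) + 1125000 * u ^ (4 : ℕ) * v ^ (6 : ℕ)
    + 562500 * u ^ (3 : ℕ) * v ^ (7 : ℕ) + 562500 * u ^ (2 : ℕ) * v ^ (8 : ℕ) + 46875 * v ^ (10 : ℕ)

/-- normal form of `yP (M w)` -/
def YQ (D : KleinData R) (u v : R) : R :=
  210937500 * u ^ (14 : ℕ) * v - 843750000 * u ^ (13 : ℕ) * v ^ (2 : ℕ)
    + 1898437500 * u ^ (12 : ℕ) * v ^ (3 : ℕ) - 3164062500 * u ^ (11 : ℕ) * v ^ (4 : ℕ)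
    + 5273437500 * u ^ (10 : ℕ) * v ^ (5 : ℕ) - 6117187500 * u ^ (9 : ℕ) * v ^ (6 : ℕ)
    + 4429687500 * u ^ (8 : ℕ) * v ^ (7 : ℕ) - 1265625000 * u ^ (7 : ℕ) * v ^ (8 : ℕ)
    + 1054687500 * u ^ (6 : ℕ) * v ^ (9 : ℕ) + 843750000 * u ^ (4 : ℕ) * v ^ (11 : ℕ)
    - 210937500 * u ^ (3 : ℕ) * v ^ (12 : ℕ) + 210937500 * u ^ (2 : ℕ) * v ^ (13 : ℕ)

/-- normal form of `xP (M S w)` -/
def XQS (D : KleinData R) (u v : R) : R :=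
  562500 * D.z ^ (3 : ℕ) * u ^ (9 : ℕ) * v + 1125000 * D.z ^ (3 : ℕ) * u ^ (8 : ℕ) * v ^ (2 : ℕ)
    - 1125000 * D.z ^ (3 : ℕ) * u ^ (4 : ℕ) * v ^ (6 : ℕ)
    + 562500 * D.z ^ (3 : ℕ) * u ^ (3 : ℕ) * v ^ (7 : ℕ) + 562500 * D.z ^ (2 : ℕ) * u ^ (9 : ℕ) * v
    - 1687500 * D.z ^ (2 : ℕ) * u ^ (7 : ℕ) * v ^ (3 : ℕ)
    - 1125000 * D.z ^ (2 : ℕ) * u ^ (4 : ℕ) * v ^ (6 : ℕ)
    + 562500 * D.z ^ (2 : ℕ) * u ^ (2 : ℕ) * v ^ (8 : ℕ) + 562500 * D.z * u ^ (9 : ℕ) * v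
    + 2812500 * D.z * u ^ (6 : ℕ) * v ^ (4 : ℕ) - 1125000 * D.z * u ^ (4 : ℕ) * v ^ (6 : ℕ)
    + 46875 * u ^ (10 : ℕ) + 562500 * u ^ (9 : ℕ) * v - 1406250 * u ^ (5 : ℕ) * v ^ (5 : ℕ)
    - 1125000 * u ^ (4 : ℕ) * v ^ (6 : ℕ) + 46875 * v ^ (10 : ℕ)

/-- normal form of `yP (M S w)` -/
def YQS (D : KleinData R) (u v : R) : R :=
  210937500 * D.z ^ (3 : ℕ) * u ^ (14 : ℕ) * v
    + 843750000 * D.z ^ (3 : ℕ) * u ^ (13 : ℕ) * v ^ (2 : ℕ)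
    - 6117187500 * D.z ^ (3 : ℕ) * u ^ (9 : ℕ) * v ^ (6 : ℕ)
    - 4429687500 * D.z ^ (3 : ℕ) * u ^ (8 : ℕ) * v ^ (7 : ℕ)
    + 843750000 * D.z ^ (3 : ℕ) * u ^ (4 : ℕ) * v ^ (11 : ℕ)
    + 210937500 * D.z ^ (3 : ℕ) * u ^ (3 : ℕ) * v ^ (12 : ℕ)
    + 210937500 * D.z ^ (2 : ℕ) * u ^ (14 : ℕ) * v
    - 1898437500 * D.z ^ (2 : ℕ) * u ^ (12 : ℕ) * v ^ (3 : ℕ)
    - 6117187500 * D.z ^ (2 : ℕ) * u ^ (9 : ℕ) * v ^ (6 : ℕ)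
    + 1265625000 * D.z ^ (2 : ℕ) * u ^ (7 : ℕ) * v ^ (8 : ℕ)
    + 843750000 * D.z ^ (2 : ℕ) * u ^ (4 : ℕ) * v ^ (11 : ℕ)
    - 210937500 * D.z ^ (2 : ℕ) * u ^ (2 : ℕ) * v ^ (13 : ℕ) + 210937500 * D.z * u ^ (14 : ℕ) * v
    + 3164062500 * D.z * u ^ (11 : ℕ) * v ^ (4 : ℕ) - 6117187500 * D.z * u ^ (9 : ℕ) * v ^ (6 : ℕ)
    - 1054687500 * D.z * u ^ (6 : ℕ) * v ^ (9 : ℕ) + 843750000 * D.z * u ^ (4 : ℕ) * v ^ (11 : ℕ)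
    + 210937500 * u ^ (14 : ℕ) * v - 5273437500 * u ^ (10 : ℕ) * v ^ (5 : ℕ)
    - 6117187500 * u ^ (9 : ℕ) * v ^ (6 : ℕ) + 843750000 * u ^ (4 : ℕ) * v ^ (11 : ℕ)


end KleinData

end Fermat.Agent.S52
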