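import Fermat.Agent.S52.Klein.TDefs

set_option autoImplicit false
set_option linter.unusedSimpArgs false
set_option linter.unusedVariables false

namespace Fermat.Agent.S52

namespace KleinData

variable {R : Type*} [CommRing R]
/-- normal form of `PQ1²` -/
def N20 (D : KleinData R) (u v : R) : R :=
  275 * D.z ^ (3 : ℕ) * u ^ (10 : ℕ) - 1750 * D.z ^ (3 : ℕ) * u ^ (9 : ℕ) * v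
    + 4500 * D.z ^ (3 : ℕ) * u ^ (8 : ℕ) * v ^ (2 : ℕ)
    - 9000 * D.z ^ (3 : ℕ) * u ^ (7 : ℕ) * v ^ (3 : ℕ)
    + 5250 * D.z ^ (3 : ℕ) * u ^ (6 : ℕ) * v ^ (4 : ℕ)
    - 12600 * D.z ^ (3 : ℕ) * u ^ (5 : ℕ) * v ^ (5 : ℕ)
    - 5250 * D.z ^ (3 : ℕ) * u ^ (4 : ℕ) * v ^ (6 : ℕ)
    - 9000 * D.z ^ (3 : ℕ) * u ^ (3 : ℕ) * v ^ (7 : ℕ)
    - 4500 * D.z ^ (3 : ℕ) * u ^ (2 : ℕ) * v ^ (8 : ℕ) - 1750 * D.z ^ (3 : ℕ) * u * v ^ (9 : ℕ)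
    - 275 * D.z ^ (3 : ℕ) * v ^ (10 : ℕ) + 275 * D.z ^ (2 : ℕ) * u ^ (10 : ℕ)
    - 1750 * D.z ^ (2 : ℕ) * u ^ (9 : ℕ) * v + 4500 * D.z ^ (2 : ℕ) * u ^ (8 : ℕ) * v ^ (2 : ℕ)
    - 9000 * D.z ^ (2 : ℕ) * u ^ (7 : ℕ) * v ^ (3 : ℕ)
    + 5250 * D.z ^ (2 : ℕ) * u ^ (6 : ℕ) * v ^ (4 : ℕ)
    - 12600 * D.z ^ (2 : ℕ) * u ^ (5 : ℕ) * v ^ (5 : ℕ)
    - 5250 * D.z ^ (2 : ℕ) * u ^ (4 : ℕ) * v ^ (6 : ℕ)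
    - 9000 * D.z ^ (2 : ℕ) * u ^ (3 : ℕ) * v ^ (7 : ℕ)
    - 4500 * D.z ^ (2 : ℕ) * u ^ (2 : ℕ) * v ^ (8 : ℕ) - 1750 * D.z ^ (2 : ℕ) * u * v ^ (9 : ℕ)
    - 275 * D.z ^ (2 : ℕ) * v ^ (10 : ℕ) - 175 * u ^ (10 : ℕ) + 1000 * u ^ (9 : ℕ) * v
    - 3375 * u ^ (8 : ℕ) * v ^ (2 : ℕ) + 3000 * u ^ (7 : ℕ) * v ^ (3 : ℕ)
    - 10500 * u ^ (6 : ℕ) * v ^ (4 : ℕ) - 6300 * u ^ (5 : ℕ) * v ^ (5 : ℕ)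
    - 15750 * u ^ (4 : ℕ) * v ^ (6 : ℕ) - 12000 * u ^ (3 : ℕ) * v ^ (7 : ℕ)
    - 7875 * u ^ (2 : ℕ) * v ^ (8 : ℕ) - 2750 * u * v ^ (9 : ℕ) - 450 * v ^ (10 : ℕ)

/-- normal form of `PQ1 * PQ2` -/
def N11 (D : KleinData R) (u v : R) : R :=
  -50 * D.z ^ (3 : ℕ) * u ^ (10 : ℕ) - 250 * D.z ^ (3 : ℕ) * u ^ (9 : ℕ) * v
    - 250 * D.z ^ (3 : ℕ) * u ^ (8 : ℕ) * v ^ (2 : ℕ)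
    + 500 * D.z ^ (3 : ℕ) * u ^ (7 : ℕ) * v ^ (3 : ℕ)
    + 750 * D.z ^ (3 : ℕ) * u ^ (6 : ℕ) * v ^ (4 : ℕ)
    - 550 * D.z ^ (3 : ℕ) * u ^ (5 : ℕ) * v ^ (5 : ℕ)
    - 750 * D.z ^ (3 : ℕ) * u ^ (4 : ℕ) * v ^ (6 : ℕ)
    + 500 * D.z ^ (3 : ℕ) * u ^ (3 : ℕ) * v ^ (7 : ℕ)
    + 250 * D.z ^ (3 : ℕ) * u ^ (2 : ℕ) * v ^ (8 : ℕ) - 250 * D.z ^ (3 : ℕ) * u * v ^ (9 : ℕ)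
    + 50 * D.z ^ (3 : ℕ) * v ^ (10 : ℕ) - 50 * D.z ^ (2 : ℕ) * u ^ (10 : ℕ)
    - 250 * D.z ^ (2 : ℕ) * u ^ (9 : ℕ) * v - 250 * D.z ^ (2 : ℕ) * u ^ (8 : ℕ) * v ^ (2 : ℕ)
    + 500 * D.z ^ (2 : ℕ) * u ^ (7 : ℕ) * v ^ (3 : ℕ)
    + 750 * D.z ^ (2 : ℕ) * u ^ (6 : ℕ) * v ^ (4 : ℕ)
    - 550 * D.z ^ (2 : ℕ) * u ^ (5 : ℕ) * v ^ (5 : ℕ)
    - 750 * D.z ^ (2 : ℕ) * u ^ (4 : ℕ) * v ^ (6 : ℕ)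
    + 500 * D.z ^ (2 : ℕ) * u ^ (3 : ℕ) * v ^ (7 : ℕ)
    + 250 * D.z ^ (2 : ℕ) * u ^ (2 : ℕ) * v ^ (8 : ℕ) - 250 * D.z ^ (2 : ℕ) * u * v ^ (9 : ℕ)
    + 50 * D.z ^ (2 : ℕ) * v ^ (10 : ℕ) - 25 * u ^ (10 : ℕ) - 125 * u ^ (9 : ℕ) * v
    - 125 * u ^ (8 : ℕ) * v ^ (2 : ℕ) + 250 * u ^ (7 : ℕ) * v ^ (3 : ℕ)
    + 375 * u ^ (6 : ℕ) * v ^ (4 : ℕ) - 275 * u ^ (5 : ℕ) * v ^ (5 : ℕ)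
    - 375 * u ^ (4 : ℕ) * v ^ (6 : ℕ) + 250 * u ^ (3 : ℕ) * v ^ (7 : ℕ)
    + 125 * u ^ (2 : ℕ) * v ^ (8 : ℕ) - 125 * u * v ^ (9 : ℕ) + 25 * v ^ (10 : ℕ)

/-- normal form of `PQ2²` -/
def N02 (D : KleinData R) (u v : R) : R :=
  -275 * D.z ^ (3 : ℕ) * u ^ (10 : ℕ) + 1750 * D.z ^ (3 : ℕ) * u ^ (9 : ℕ) * v
    - 4500 * D.z ^ (3 : ℕ) * u ^ (8 : ℕ) * v ^ (2 : ℕ)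
    + 9000 * D.z ^ (3 : ℕ) * u ^ (7 : ℕ) * v ^ (3 : ℕ)
    - 5250 * D.z ^ (3 : ℕ) * u ^ (6 : ℕ) * v ^ (4 : ℕ)
    + 12600 * D.z ^ (3 : ℕ) * u ^ (5 : ℕ) * v ^ (5 : ℕ)
    + 5250 * D.z ^ (3 : ℕ) * u ^ (4 : ℕ) * v ^ (6 : ℕ)
    + 9000 * D.z ^ (3 : ℕ) * u ^ (3 : ℕ) * v ^ (7 : ℕ)
    + 4500 * D.z ^ (3 : ℕ) * u ^ (2 : ℕ) * v ^ (8 : ℕ) + 1750 * D.z ^ (3 : ℕ) * u * v ^ (9 : ℕ)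
    + 275 * D.z ^ (3 : ℕ) * v ^ (10 : ℕ) - 275 * D.z ^ (2 : ℕ) * u ^ (10 : ℕ)
    + 1750 * D.z ^ (2 : ℕ) * u ^ (9 : ℕ) * v - 4500 * D.z ^ (2 : ℕ) * u ^ (8 : ℕ) * v ^ (2 : ℕ)
    + 9000 * D.z ^ (2 : ℕ) * u ^ (7 : ℕ) * v ^ (3 : ℕ)
    - 5250 * D.z ^ (2 : ℕ) * u ^ (6 : ℕ) * v ^ (4 : ℕ)
    + 12600 * D.z ^ (2 : ℕ) * u ^ (5 : ℕ) * v ^ (5 : ℕ)
    + 5250 * D.z ^ (2 : ℕ) * u ^ (4 : ℕ) * v ^ (6 : ℕ)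
    + 9000 * D.z ^ (2 : ℕ) * u ^ (3 : ℕ) * v ^ (7 : ℕ)
    + 4500 * D.z ^ (2 : ℕ) * u ^ (2 : ℕ) * v ^ (8 : ℕ) + 1750 * D.z ^ (2 : ℕ) * u * v ^ (9 : ℕ)
    + 275 * D.z ^ (2 : ℕ) * v ^ (10 : ℕ) - 450 * u ^ (10 : ℕ) + 2750 * u ^ (9 : ℕ) * v
    - 7875 * u ^ (8 : ℕ) * v ^ (2 : ℕ) + 12000 * u ^ (7 : ℕ) * v ^ (3 : ℕ)
    - 15750 * u ^ (6 : ℕ) * v ^ (4 : ℕ) + 6300 * u ^ (5 : ℕ) * v ^ (5 : ℕ)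
    - 10500 * u ^ (4 : ℕ) * v ^ (6 : ℕ) - 3000 * u ^ (3 : ℕ) * v ^ (7 : ℕ)
    - 3375 * u ^ (2 : ℕ) * v ^ (8 : ℕ) - 1000 * u * v ^ (9 : ℕ) - 175 * v ^ (10 : ℕ)

theorem PQ1_sq (D : KleinData R) (u v : R) :
    D.PQ1 u v ^ (2 : ℕ) = D.N20 u v := by
  try simp only [s5, m1, m2, Mu, Mv, Su, Sv, b0, b1, b2, b3, b0c, xPP, yBB, yPP, xP, yP, PQ1, PQ2, XQ, YQ, XQS, YQS, klFF, klHH, klTT, klA, klB, klf, klH, klT, N20, N11, N02]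
  linear_combination (25 * D.z ^ (2 : ℕ) * u ^ (10 : ℕ) + 500 * D.z ^ (2 : ℕ) * u ^ (8 : ℕ) * v ^ (2 : ℕ)
      + 500 * D.z ^ (2 : ℕ) * u ^ (7 : ℕ) * v ^ (3 : ℕ)
      + 3000 * D.z ^ (2 : ℕ) * u ^ (6 : ℕ) * v ^ (4 : ℕ)
      + 5150 * D.z ^ (2 : ℕ) * u ^ (5 : ℕ) * v ^ (5 : ℕ)
      + 7500 * D.z ^ (2 : ℕ) * u ^ (4 : ℕ) * v ^ (6 : ℕ)
      + 6500 * D.z ^ (2 : ℕ) * u ^ (3 : ℕ) * v ^ (7 : ℕ)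
      + 4000 * D.z ^ (2 : ℕ) * u ^ (2 : ℕ) * v ^ (8 : ℕ) + 1500 * D.z ^ (2 : ℕ) * u * v ^ (9 : ℕ)
      + 225 * D.z ^ (2 : ℕ) * v ^ (10 : ℕ) + 125 * D.z * u ^ (10 : ℕ) - 500 * D.z * u ^ (9 : ℕ) * v
      + 1500 * D.z * u ^ (8 : ℕ) * v ^ (2 : ℕ) - 4500 * D.z * u ^ (7 : ℕ) * v ^ (3 : ℕ)
      - 1500 * D.z * u ^ (6 : ℕ) * v ^ (4 : ℕ) - 9750 * D.z * u ^ (5 : ℕ) * v ^ (5 : ℕ)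
      - 9000 * D.z * u ^ (4 : ℕ) * v ^ (6 : ℕ) - 10500 * D.z * u ^ (3 : ℕ) * v ^ (7 : ℕ)
      - 6000 * D.z * u ^ (2 : ℕ) * v ^ (8 : ℕ) - 2000 * D.z * u * v ^ (9 : ℕ)
      - 375 * D.z * v ^ (10 : ℕ) + 275 * u ^ (10 : ℕ) - 1500 * u ^ (9 : ℕ) * v
      + 5000 * u ^ (8 : ℕ) * v ^ (2 : ℕ) - 5500 * u ^ (7 : ℕ) * v ^ (3 : ℕ)
      + 13500 * u ^ (6 : ℕ) * v ^ (4 : ℕ) + 5150 * u ^ (5 : ℕ) * v ^ (5 : ℕ)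
      + 18000 * u ^ (4 : ℕ) * v ^ (6 : ℕ) + 12500 * u ^ (3 : ℕ) * v ^ (7 : ℕ)
      + 8500 * u ^ (2 : ℕ) * v ^ (8 : ℕ) + 3000 * u * v ^ (9 : ℕ) + 475 * v ^ (10 : ℕ)) * D.hz

theorem PQ1_mul_PQ2 (D : KleinData R) (u v : R) :
    D.PQ1 u v * D.PQ2 u v = D.N11 u v := by
  try simp only [s5, m1, m2, Mu, Mv, Su, Sv, b0, b1, b2, b3, b0c, xPP, yBB, yPP, xP, yP, PQ1, PQ2, XQ, YQ, XQS, YQS, klFF, klHH, klTT, klA, klB, klf, klH, klT, N20, N11, N02]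
  linear_combination (75 * D.z ^ (2 : ℕ) * u ^ (10 : ℕ) - 250 * D.z ^ (2 : ℕ) * u ^ (9 : ℕ) * v
      + 1000 * D.z ^ (2 : ℕ) * u ^ (8 : ℕ) * v ^ (2 : ℕ)
      - 2000 * D.z ^ (2 : ℕ) * u ^ (7 : ℕ) * v ^ (3 : ℕ)
      + 750 * D.z ^ (2 : ℕ) * u ^ (6 : ℕ) * v ^ (4 : ℕ)
      - 2300 * D.z ^ (2 : ℕ) * u ^ (5 : ℕ) * v ^ (5 : ℕ)
      - 750 * D.z ^ (2 : ℕ) * u ^ (4 : ℕ) * v ^ (6 : ℕ)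
      - 2000 * D.z ^ (2 : ℕ) * u ^ (3 : ℕ) * v ^ (7 : ℕ)
      - 1000 * D.z ^ (2 : ℕ) * u ^ (2 : ℕ) * v ^ (8 : ℕ) - 250 * D.z ^ (2 : ℕ) * u * v ^ (9 : ℕ)
      - 75 * D.z ^ (2 : ℕ) * v ^ (10 : ℕ) + 125 * D.z * u ^ (10 : ℕ) - 1250 * D.z * u ^ (9 : ℕ) * v
      + 2500 * D.z * u ^ (8 : ℕ) * v ^ (2 : ℕ) - 5000 * D.z * u ^ (7 : ℕ) * v ^ (3 : ℕ)
      + 3750 * D.z * u ^ (6 : ℕ) * v ^ (4 : ℕ) - 8000 * D.z * u ^ (5 : ℕ) * v ^ (5 : ℕ)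
      - 3750 * D.z * u ^ (4 : ℕ) * v ^ (6 : ℕ) - 5000 * D.z * u ^ (3 : ℕ) * v ^ (7 : ℕ)
      - 2500 * D.z * u ^ (2 : ℕ) * v ^ (8 : ℕ) - 1250 * D.z * u * v ^ (9 : ℕ)
      - 125 * D.z * v ^ (10 : ℕ) + 75 * u ^ (10 : ℕ) - 250 * u ^ (9 : ℕ) * v
      + 1000 * u ^ (8 : ℕ) * v ^ (2 : ℕ) - 2000 * u ^ (7 : ℕ) * v ^ (3 : ℕ)
      + 750 * u ^ (6 : ℕ) * v ^ (4 : ℕ) - 2300 * u ^ (5 : ℕ) * v ^ (5 : ℕ)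
      - 750 * u ^ (4 : ℕ) * v ^ (6 : ℕ) - 2000 * u ^ (3 : ℕ) * v ^ (7 : ℕ)
      - 1000 * u ^ (2 : ℕ) * v ^ (8 : ℕ) - 250 * u * v ^ (9 : ℕ) - 75 * v ^ (10 : ℕ)) * D.hz

theorem PQ2_sq (D : KleinData R) (u v : R) :
    D.PQ2 u v ^ (2 : ℕ) = D.N02 u v := by
  try simp only [s5, m1, m2, Mu, Mv, Su, Sv, b0, b1, b2, b3, b0c, xPP, yBB, yPP, xP, yP, PQ1, PQ2, XQ, YQ, XQS, YQS, klFF, klHH, klTT, klA, klB, klf, klH, klT, N20, N11, N02]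
  linear_combination (225 * D.z ^ (2 : ℕ) * u ^ (10 : ℕ) - 1500 * D.z ^ (2 : ℕ) * u ^ (9 : ℕ) * v
      + 4000 * D.z ^ (2 : ℕ) * u ^ (8 : ℕ) * v ^ (2 : ℕ)
      - 6500 * D.z ^ (2 : ℕ) * u ^ (7 : ℕ) * v ^ (3 : ℕ)
      + 7500 * D.z ^ (2 : ℕ) * u ^ (6 : ℕ) * v ^ (4 : ℕ)
      - 5150 * D.z ^ (2 : ℕ) * u ^ (5 : ℕ) * v ^ (5 : ℕ)
      + 3000 * D.z ^ (2 : ℕ) * u ^ (4 : ℕ) * v ^ (6 : ℕ)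
      - 500 * D.z ^ (2 : ℕ) * u ^ (3 : ℕ) * v ^ (7 : ℕ)
      + 500 * D.z ^ (2 : ℕ) * u ^ (2 : ℕ) * v ^ (8 : ℕ) + 25 * D.z ^ (2 : ℕ) * v ^ (10 : ℕ)
      - 375 * D.z * u ^ (10 : ℕ) + 2000 * D.z * u ^ (9 : ℕ) * v
      - 6000 * D.z * u ^ (8 : ℕ) * v ^ (2 : ℕ) + 10500 * D.z * u ^ (7 : ℕ) * v ^ (3 : ℕ)
      - 9000 * D.z * u ^ (6 : ℕ) * v ^ (4 : ℕ) + 9750 * D.z * u ^ (5 : ℕ) * v ^ (5 : ℕ)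
      - 1500 * D.z * u ^ (4 : ℕ) * v ^ (6 : ℕ) + 4500 * D.z * u ^ (3 : ℕ) * v ^ (7 : ℕ)
      + 1500 * D.z * u ^ (2 : ℕ) * v ^ (8 : ℕ) + 500 * D.z * u * v ^ (9 : ℕ)
      + 125 * D.z * v ^ (10 : ℕ) + 475 * u ^ (10 : ℕ) - 3000 * u ^ (9 : ℕ) * v
      + 8500 * u ^ (8 : ℕ) * v ^ (2 : ℕ) - 12500 * u ^ (7 : ℕ) * v ^ (3 : ℕ)
      + 18000 * u ^ (6 : ℕ) * v ^ (4 : ℕ) - 5150 * u ^ (5 : ℕ) * v ^ (5 : ℕ)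
      + 13500 * u ^ (4 : ℕ) * v ^ (6 : ℕ) + 5500 * u ^ (3 : ℕ) * v ^ (7 : ℕ)
      + 5000 * u ^ (2 : ℕ) * v ^ (8 : ℕ) + 1500 * u * v ^ (9 : ℕ) + 275 * v ^ (10 : ℕ)) * D.hz

/-- `klHH` as a polynomial in `p², pq, q²`. -/
def klHH2 (a b c : R) : R := -(a ^ (2 : ℕ) + c ^ (2 : ℕ)) + 228 * (a * b - b * c) - 494 * b ^ (2 : ℕ)

/-- `klTT` as a polynomial in `p², pq, q²`. -/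
def klTT2 (a b c : R) : R :=
  a ^ (3 : ℕ) + c ^ (3 : ℕ) + 522 * (a ^ (2 : ℕ) * b - b * c ^ (2 : ℕ))
    - 10005 * (a ^ (2 : ℕ) * c + a * c ^ (2 : ℕ))

theorem klHH_eq_klHH2 (p q : R) : klHH p q = klHH2 (p ^ (2 : ℕ)) (p * q) (q ^ (2 : ℕ)) := by
  simp only [klHH, klHH2]; ring

theorem klTT_eq_klTT2 (p q : R) : klTT p q = klTT2 (p ^ (2 : ℕ)) (p * q) (q ^ (2 : ℕ)) := by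
  simp only [klTT, klTT2]; ring

end KleinData

end Fermat.Agent.S52
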