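import Fermat.Agent.S52.Klein.TInvH

set_option autoImplicit false
set_option linter.unusedSimpArgs false
set_option linter.unusedVariables false
set_option maxRecDepth 1000000

namespace Fermat.Agent.S52

namespace KleinData

variable {R : Type*} [CommRing R]
/-- normal form of `N20²` -/
def NA2 (D : KleinData R) (u v : R) : R :=
  -171875 * D.z ^ (3 : ℕ) * u ^ (20 : ℕ) + 2125000 * D.z ^ (3 : ℕ) * u ^ (19 : ℕ) * v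
    - 12468750 * D.z ^ (3 : ℕ) * u ^ (18 : ℕ) * v ^ (2 : ℕ)
    + 46312500 * D.z ^ (3 : ℕ) * u ^ (17 : ℕ) * v ^ (3 : ℕ)
    - 121125000 * D.z ^ (3 : ℕ) * u ^ (16 : ℕ) * v ^ (4 : ℕ)
    + 242250000 * D.z ^ (3 : ℕ) * u ^ (15 : ℕ) * v ^ (5 : ℕ)
    - 363375000 * D.z ^ (3 : ℕ) * u ^ (14 : ℕ) * v ^ (6 : ℕ)
    + 484500000 * D.z ^ (3 : ℕ) * u ^ (13 : ℕ) * v ^ (7 : ℕ)
    - 393656250 * D.z ^ (3 : ℕ) * u ^ (12 : ℕ) * v ^ (8 : ℕ)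
    + 524875000 * D.z ^ (3 : ℕ) * u ^ (11 : ℕ) * v ^ (9 : ℕ)
    + 524875000 * D.z ^ (3 : ℕ) * u ^ (9 : ℕ) * v ^ (11 : ℕ)
    + 393656250 * D.z ^ (3 : ℕ) * u ^ (8 : ℕ) * v ^ (12 : ℕ)
    + 484500000 * D.z ^ (3 : ℕ) * u ^ (7 : ℕ) * v ^ (13 : ℕ)
    + 363375000 * D.z ^ (3 : ℕ) * u ^ (6 : ℕ) * v ^ (14 : ℕ)
    + 242250000 * D.z ^ (3 : ℕ) * u ^ (5 : ℕ) * v ^ (15 : ℕ)
    + 121125000 * D.z ^ (3 : ℕ) * u ^ (4 : ℕ) * v ^ (16 : ℕ)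
    + 46312500 * D.z ^ (3 : ℕ) * u ^ (3 : ℕ) * v ^ (17 : ℕ)
    + 12468750 * D.z ^ (3 : ℕ) * u ^ (2 : ℕ) * v ^ (18 : ℕ)
    + 2125000 * D.z ^ (3 : ℕ) * u * v ^ (19 : ℕ) + 171875 * D.z ^ (3 : ℕ) * v ^ (20 : ℕ)
    - 171875 * D.z ^ (2 : ℕ) * u ^ (20 : ℕ) + 2125000 * D.z ^ (2 : ℕ) * u ^ (19 : ℕ) * v
    - 12468750 * D.z ^ (2 : ℕ) * u ^ (18 : ℕ) * v ^ (2 : ℕ)
    + 46312500 * D.z ^ (2 : ℕ) * u ^ (17 : ℕ) * v ^ (3 : ℕ)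
    - 121125000 * D.z ^ (2 : ℕ) * u ^ (16 : ℕ) * v ^ (4 : ℕ)
    + 242250000 * D.z ^ (2 : ℕ) * u ^ (15 : ℕ) * v ^ (5 : ℕ)
    - 363375000 * D.z ^ (2 : ℕ) * u ^ (14 : ℕ) * v ^ (6 : ℕ)
    + 484500000 * D.z ^ (2 : ℕ) * u ^ (13 : ℕ) * v ^ (7 : ℕ)
    - 393656250 * D.z ^ (2 : ℕ) * u ^ (12 : ℕ) * v ^ (8 : ℕ)
    + 524875000 * D.z ^ (2 : ℕ) * u ^ (11 : ℕ) * v ^ (9 : ℕ)
    + 524875000 * D.z ^ (2 : ℕ) * u ^ (9 : ℕ) * v ^ (11 : ℕ)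
    + 393656250 * D.z ^ (2 : ℕ) * u ^ (8 : ℕ) * v ^ (12 : ℕ)
    + 484500000 * D.z ^ (2 : ℕ) * u ^ (7 : ℕ) * v ^ (13 : ℕ)
    + 363375000 * D.z ^ (2 : ℕ) * u ^ (6 : ℕ) * v ^ (14 : ℕ)
    + 242250000 * D.z ^ (2 : ℕ) * u ^ (5 : ℕ) * v ^ (15 : ℕ)
    + 121125000 * D.z ^ (2 : ℕ) * u ^ (4 : ℕ) * v ^ (16 : ℕ)
    + 46312500 * D.z ^ (2 : ℕ) * u ^ (3 : ℕ) * v ^ (17 : ℕ)
    + 12468750 * D.z ^ (2 : ℕ) * u ^ (2 : ℕ) * v ^ (18 : ℕ)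
    + 2125000 * D.z ^ (2 : ℕ) * u * v ^ (19 : ℕ) + 171875 * D.z ^ (2 : ℕ) * v ^ (20 : ℕ)
    + 106250 * u ^ (20 : ℕ) - 1312500 * u ^ (19 : ℕ) * v + 7718750 * u ^ (18 : ℕ) * v ^ (2 : ℕ)
    - 28500000 * u ^ (17 : ℕ) * v ^ (3 : ℕ) + 75703125 * u ^ (16 : ℕ) * v ^ (4 : ℕ)
    - 145350000 * u ^ (15 : ℕ) * v ^ (5 : ℕ) + 242250000 * u ^ (14 : ℕ) * v ^ (6 : ℕ)
    - 242250000 * u ^ (13 : ℕ) * v ^ (7 : ℕ) + 393656250 * u ^ (12 : ℕ) * v ^ (8 : ℕ)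
    + 577362500 * u ^ (10 : ℕ) * v ^ (10 : ℕ) + 524875000 * u ^ (9 : ℕ) * v ^ (11 : ℕ)
    + 787312500 * u ^ (8 : ℕ) * v ^ (12 : ℕ) + 726750000 * u ^ (7 : ℕ) * v ^ (13 : ℕ)
    + 605625000 * u ^ (6 : ℕ) * v ^ (14 : ℕ) + 387600000 * u ^ (5 : ℕ) * v ^ (15 : ℕ)
    + 196828125 * u ^ (4 : ℕ) * v ^ (16 : ℕ) + 74812500 * u ^ (3 : ℕ) * v ^ (17 : ℕ)
    + 20187500 * u ^ (2 : ℕ) * v ^ (18 : ℕ) + 3437500 * u * v ^ (19 : ℕ) + 278125 * v ^ (20 : ℕ)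

theorem N20_sq (D : KleinData R) (u v : R) :
    D.N20 u v ^ (2 : ℕ) = D.NA2 u v := by
  simp only [N20, NA2]
  linear_combination (75625 * D.z ^ (2 : ℕ) * u ^ (20 : ℕ) - 962500 * D.z ^ (2 : ℕ) * u ^ (19 : ℕ) * v
      + 5537500 * D.z ^ (2 : ℕ) * u ^ (18 : ℕ) * v ^ (2 : ℕ)
      - 20700000 * D.z ^ (2 : ℕ) * u ^ (17 : ℕ) * v ^ (3 : ℕ)
      + 54637500 * D.z ^ (2 : ℕ) * u ^ (16 : ℕ) * v ^ (4 : ℕ)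
      - 106305000 * D.z ^ (2 : ℕ) * u ^ (15 : ℕ) * v ^ (5 : ℕ)
      + 169462500 * D.z ^ (2 : ℕ) * u ^ (14 : ℕ) * v ^ (6 : ℕ)
      - 194475000 * D.z ^ (2 : ℕ) * u ^ (13 : ℕ) * v ^ (7 : ℕ)
      + 236137500 * D.z ^ (2 : ℕ) * u ^ (12 : ℕ) * v ^ (8 : ℕ)
      - 104012500 * D.z ^ (2 : ℕ) * u ^ (11 : ℕ) * v ^ (9 : ℕ)
      + 231108750 * D.z ^ (2 : ℕ) * u ^ (10 : ℕ) * v ^ (10 : ℕ)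
      + 104012500 * D.z ^ (2 : ℕ) * u ^ (9 : ℕ) * v ^ (11 : ℕ)
      + 236137500 * D.z ^ (2 : ℕ) * u ^ (8 : ℕ) * v ^ (12 : ℕ)
      + 194475000 * D.z ^ (2 : ℕ) * u ^ (7 : ℕ) * v ^ (13 : ℕ)
      + 169462500 * D.z ^ (2 : ℕ) * u ^ (6 : ℕ) * v ^ (14 : ℕ)
      + 106305000 * D.z ^ (2 : ℕ) * u ^ (5 : ℕ) * v ^ (15 : ℕ)
      + 54637500 * D.z ^ (2 : ℕ) * u ^ (4 : ℕ) * v ^ (16 : ℕ)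
      + 20700000 * D.z ^ (2 : ℕ) * u ^ (3 : ℕ) * v ^ (17 : ℕ)
      + 5537500 * D.z ^ (2 : ℕ) * u ^ (2 : ℕ) * v ^ (18 : ℕ)
      + 962500 * D.z ^ (2 : ℕ) * u * v ^ (19 : ℕ) + 75625 * D.z ^ (2 : ℕ) * v ^ (20 : ℕ)
      + 75625 * D.z * u ^ (20 : ℕ) - 962500 * D.z * u ^ (19 : ℕ) * v
      + 5537500 * D.z * u ^ (18 : ℕ) * v ^ (2 : ℕ) - 20700000 * D.z * u ^ (17 : ℕ) * v ^ (3 : ℕ)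
      + 54637500 * D.z * u ^ (16 : ℕ) * v ^ (4 : ℕ) - 106305000 * D.z * u ^ (15 : ℕ) * v ^ (5 : ℕ)
      + 169462500 * D.z * u ^ (14 : ℕ) * v ^ (6 : ℕ) - 194475000 * D.z * u ^ (13 : ℕ) * v ^ (7 : ℕ)
      + 236137500 * D.z * u ^ (12 : ℕ) * v ^ (8 : ℕ) - 104012500 * D.z * u ^ (11 : ℕ) * v ^ (9 : ℕ)
      + 231108750 * D.z * u ^ (10 : ℕ) * v ^ (10 : ℕ) + 104012500 * D.z * u ^ (9 : ℕ) * v ^ (11 : ℕ)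
      + 236137500 * D.z * u ^ (8 : ℕ) * v ^ (12 : ℕ) + 194475000 * D.z * u ^ (7 : ℕ) * v ^ (13 : ℕ)
      + 169462500 * D.z * u ^ (6 : ℕ) * v ^ (14 : ℕ) + 106305000 * D.z * u ^ (5 : ℕ) * v ^ (15 : ℕ)
      + 54637500 * D.z * u ^ (4 : ℕ) * v ^ (16 : ℕ) + 20700000 * D.z * u ^ (3 : ℕ) * v ^ (17 : ℕ)
      + 5537500 * D.z * u ^ (2 : ℕ) * v ^ (18 : ℕ) + 962500 * D.z * u * v ^ (19 : ℕ)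
      + 75625 * D.z * v ^ (20 : ℕ) - 75625 * u ^ (20 : ℕ) + 962500 * u ^ (19 : ℕ) * v
      - 5537500 * u ^ (18 : ℕ) * v ^ (2 : ℕ) + 20700000 * u ^ (17 : ℕ) * v ^ (3 : ℕ)
      - 54637500 * u ^ (16 : ℕ) * v ^ (4 : ℕ) + 106305000 * u ^ (15 : ℕ) * v ^ (5 : ℕ)
      - 169462500 * u ^ (14 : ℕ) * v ^ (6 : ℕ) + 194475000 * u ^ (13 : ℕ) * v ^ (7 : ℕ)
      - 236137500 * u ^ (12 : ℕ) * v ^ (8 : ℕ) + 104012500 * u ^ (11 : ℕ) * v ^ (9 : ℕ)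
      - 231108750 * u ^ (10 : ℕ) * v ^ (10 : ℕ) - 104012500 * u ^ (9 : ℕ) * v ^ (11 : ℕ)
      - 236137500 * u ^ (8 : ℕ) * v ^ (12 : ℕ) - 194475000 * u ^ (7 : ℕ) * v ^ (13 : ℕ)
      - 169462500 * u ^ (6 : ℕ) * v ^ (14 : ℕ) - 106305000 * u ^ (5 : ℕ) * v ^ (15 : ℕ)
      - 54637500 * u ^ (4 : ℕ) * v ^ (16 : ℕ) - 20700000 * u ^ (3 : ℕ) * v ^ (17 : ℕ)
      - 5537500 * u ^ (2 : ℕ) * v ^ (18 : ℕ) - 962500 * u * v ^ (19 : ℕ) - 75625 * v ^ (20 : ℕ)) * D.hz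


end KleinData

end Fermat.Agent.S52
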