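import Fermat.Agent.S52.Klein.TInvT2

set_option autoImplicit false
set_option linter.unusedSimpArgs false
set_option linter.unusedVariables false
set_option maxRecDepth 1000000

namespace Fermat.Agent.S52

namespace KleinData

variable {R : Type*} [CommRing R]
/-- normal form of `N20² (N20 + 522 N11 - 10005 N02)` -/
def NTA (D : KleinData R) (u v : R) : R :=
  -13507578125 * D.z ^ (3 : ℕ) * u ^ (30 : ℕ) + 3665625000 * D.z ^ (3 : ℕ) * u ^ (29 : ℕ) * v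
    + 43907812500 * D.z ^ (3 : ℕ) * u ^ (28 : ℕ) * v ^ (2 : ℕ)
    + 316825000000 * D.z ^ (3 : ℕ) * u ^ (27 : ℕ) * v ^ (3 : ℕ)
    + 1514819531250 * D.z ^ (3 : ℕ) * u ^ (26 : ℕ) * v ^ (4 : ℕ)
    - 2203533281250 * D.z ^ (3 : ℕ) * u ^ (25 : ℕ) * v ^ (5 : ℕ)
    + 10364554687500 * D.z ^ (3 : ℕ) * u ^ (24 : ℕ) * v ^ (6 : ℕ)
    + 10537875000000 * D.z ^ (3 : ℕ) * u ^ (23 : ℕ) * v ^ (7 : ℕ)
    - 11583914062500 * D.z ^ (3 : ℕ) * u ^ (22 : ℕ) * v ^ (8 : ℕ)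
    - 65642179687500 * D.z ^ (3 : ℕ) * u ^ (21 : ℕ) * v ^ (9 : ℕ)
    + 15977516015625 * D.z ^ (3 : ℕ) * u ^ (20 : ℕ) * v ^ (10 : ℕ)
    - 110555250000000 * D.z ^ (3 : ℕ) * u ^ (19 : ℕ) * v ^ (11 : ℕ)
    - 20197593750000 * D.z ^ (3 : ℕ) * u ^ (18 : ℕ) * v ^ (12 : ℕ)
    + 55246359375000 * D.z ^ (3 : ℕ) * u ^ (17 : ℕ) * v ^ (13 : ℕ)
    + 22722292968750 * D.z ^ (3 : ℕ) * u ^ (16 : ℕ) * v ^ (14 : ℕ)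
    - 48474225000000 * D.z ^ (3 : ℕ) * u ^ (15 : ℕ) * v ^ (15 : ℕ)
    - 22722292968750 * D.z ^ (3 : ℕ) * u ^ (14 : ℕ) * v ^ (16 : ℕ)
    + 55246359375000 * D.z ^ (3 : ℕ) * u ^ (13 : ℕ) * v ^ (17 : ℕ)
    + 20197593750000 * D.z ^ (3 : ℕ) * u ^ (12 : ℕ) * v ^ (18 : ℕ)
    - 110555250000000 * D.z ^ (3 : ℕ) * u ^ (11 : ℕ) * v ^ (19 : ℕ)
    - 15977516015625 * D.z ^ (3 : ℕ) * u ^ (10 : ℕ) * v ^ (20 : ℕ)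
    - 65642179687500 * D.z ^ (3 : ℕ) * u ^ (9 : ℕ) * v ^ (21 : ℕ)
    + 11583914062500 * D.z ^ (3 : ℕ) * u ^ (8 : ℕ) * v ^ (22 : ℕ)
    + 10537875000000 * D.z ^ (3 : ℕ) * u ^ (7 : ℕ) * v ^ (23 : ℕ)
    - 10364554687500 * D.z ^ (3 : ℕ) * u ^ (6 : ℕ) * v ^ (24 : ℕ)
    - 2203533281250 * D.z ^ (3 : ℕ) * u ^ (5 : ℕ) * v ^ (25 : ℕ)
    - 1514819531250 * D.z ^ (3 : ℕ) * u ^ (4 : ℕ) * v ^ (26 : ℕ)
    + 316825000000 * D.z ^ (3 : ℕ) * u ^ (3 : ℕ) * v ^ (27 : ℕ)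
    - 43907812500 * D.z ^ (3 : ℕ) * u ^ (2 : ℕ) * v ^ (28 : ℕ)
    + 3665625000 * D.z ^ (3 : ℕ) * u * v ^ (29 : ℕ) + 13507578125 * D.z ^ (3 : ℕ) * v ^ (30 : ℕ)
    - 13507578125 * D.z ^ (2 : ℕ) * u ^ (30 : ℕ) + 3665625000 * D.z ^ (2 : ℕ) * u ^ (29 : ℕ) * v
    + 43907812500 * D.z ^ (2 : ℕ) * u ^ (28 : ℕ) * v ^ (2 : ℕ)
    + 316825000000 * D.z ^ (2 : ℕ) * u ^ (27 : ℕ) * v ^ (3 : ℕ)
    + 1514819531250 * D.z ^ (2 : ℕ) * u ^ (26 : ℕ) * v ^ (4 : ℕ)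
    - 2203533281250 * D.z ^ (2 : ℕ) * u ^ (25 : ℕ) * v ^ (5 : ℕ)
    + 10364554687500 * D.z ^ (2 : ℕ) * u ^ (24 : ℕ) * v ^ (6 : ℕ)
    + 10537875000000 * D.z ^ (2 : ℕ) * u ^ (23 : ℕ) * v ^ (7 : ℕ)
    - 11583914062500 * D.z ^ (2 : ℕ) * u ^ (22 : ℕ) * v ^ (8 : ℕ)
    - 65642179687500 * D.z ^ (2 : ℕ) * u ^ (21 : ℕ) * v ^ (9 : ℕ)
    + 15977516015625 * D.z ^ (2 : ℕ) * u ^ (20 : ℕ) * v ^ (10 : ℕ)
    - 110555250000000 * D.z ^ (2 : ℕ) * u ^ (19 : ℕ) * v ^ (11 : ℕ)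
    - 20197593750000 * D.z ^ (2 : ℕ) * u ^ (18 : ℕ) * v ^ (12 : ℕ)
    + 55246359375000 * D.z ^ (2 : ℕ) * u ^ (17 : ℕ) * v ^ (13 : ℕ)
    + 22722292968750 * D.z ^ (2 : ℕ) * u ^ (16 : ℕ) * v ^ (14 : ℕ)
    - 48474225000000 * D.z ^ (2 : ℕ) * u ^ (15 : ℕ) * v ^ (15 : ℕ)
    - 22722292968750 * D.z ^ (2 : ℕ) * u ^ (14 : ℕ) * v ^ (16 : ℕ)
    + 55246359375000 * D.z ^ (2 : ℕ) * u ^ (13 : ℕ) * v ^ (17 : ℕ)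
    + 20197593750000 * D.z ^ (2 : ℕ) * u ^ (12 : ℕ) * v ^ (18 : ℕ)
    - 110555250000000 * D.z ^ (2 : ℕ) * u ^ (11 : ℕ) * v ^ (19 : ℕ)
    - 15977516015625 * D.z ^ (2 : ℕ) * u ^ (10 : ℕ) * v ^ (20 : ℕ)
    - 65642179687500 * D.z ^ (2 : ℕ) * u ^ (9 : ℕ) * v ^ (21 : ℕ)
    + 11583914062500 * D.z ^ (2 : ℕ) * u ^ (8 : ℕ) * v ^ (22 : ℕ)
    + 10537875000000 * D.z ^ (2 : ℕ) * u ^ (7 : ℕ) * v ^ (23 : ℕ)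
    - 10364554687500 * D.z ^ (2 : ℕ) * u ^ (6 : ℕ) * v ^ (24 : ℕ)
    - 2203533281250 * D.z ^ (2 : ℕ) * u ^ (5 : ℕ) * v ^ (25 : ℕ)
    - 1514819531250 * D.z ^ (2 : ℕ) * u ^ (4 : ℕ) * v ^ (26 : ℕ)
    + 316825000000 * D.z ^ (2 : ℕ) * u ^ (3 : ℕ) * v ^ (27 : ℕ)
    - 43907812500 * D.z ^ (2 : ℕ) * u ^ (2 : ℕ) * v ^ (28 : ℕ)
    + 3665625000 * D.z ^ (2 : ℕ) * u * v ^ (29 : ℕ) + 13507578125 * D.z ^ (2 : ℕ) * v ^ (30 : ℕ)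
    + 8505000000 * u ^ (30 : ℕ) + 1832812500 * u ^ (29 : ℕ) * v
    + 21953906250 * u ^ (28 : ℕ) * v ^ (2 : ℕ) + 158412500000 * u ^ (27 : ℕ) * v ^ (3 : ℕ)
    + 757409765625 * u ^ (26 : ℕ) * v ^ (4 : ℕ) + 6863321250000 * u ^ (25 : ℕ) * v ^ (5 : ℕ)
    + 5182277343750 * u ^ (24 : ℕ) * v ^ (6 : ℕ) + 5268937500000 * u ^ (23 : ℕ) * v ^ (7 : ℕ)
    - 5791957031250 * u ^ (22 : ℕ) * v ^ (8 : ℕ) - 32821089843750 * u ^ (21 : ℕ) * v ^ (9 : ℕ)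
    - 144675426562500 * u ^ (20 : ℕ) * v ^ (10 : ℕ) - 55277625000000 * u ^ (19 : ℕ) * v ^ (11 : ℕ)
    - 10098796875000 * u ^ (18 : ℕ) * v ^ (12 : ℕ) + 27623179687500 * u ^ (17 : ℕ) * v ^ (13 : ℕ)
    + 11361146484375 * u ^ (16 : ℕ) * v ^ (14 : ℕ) - 24237112500000 * u ^ (15 : ℕ) * v ^ (15 : ℕ)
    - 11361146484375 * u ^ (14 : ℕ) * v ^ (16 : ℕ) + 27623179687500 * u ^ (13 : ℕ) * v ^ (17 : ℕ)
    + 10098796875000 * u ^ (12 : ℕ) * v ^ (18 : ℕ) - 55277625000000 * u ^ (11 : ℕ) * v ^ (19 : ℕ)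
    - 160652942578125 * u ^ (10 : ℕ) * v ^ (20 : ℕ) - 32821089843750 * u ^ (9 : ℕ) * v ^ (21 : ℕ)
    + 5791957031250 * u ^ (8 : ℕ) * v ^ (22 : ℕ) + 5268937500000 * u ^ (7 : ℕ) * v ^ (23 : ℕ)
    - 5182277343750 * u ^ (6 : ℕ) * v ^ (24 : ℕ) - 9066854531250 * u ^ (5 : ℕ) * v ^ (25 : ℕ)
    - 757409765625 * u ^ (4 : ℕ) * v ^ (26 : ℕ) + 158412500000 * u ^ (3 : ℕ) * v ^ (27 : ℕ)
    - 21953906250 * u ^ (2 : ℕ) * v ^ (28 : ℕ) + 1832812500 * u * v ^ (29 : ℕ)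
    + 22012578125 * v ^ (30 : ℕ)

theorem NA2_mul (D : KleinData R) (u v : R) :
    D.NA2 u v * (D.N20 u v + 522 * D.N11 u v - 10005 * D.N02 u v) = D.NTA u v := by
  simp only [N20, N11, N02, NA2, NTA]
  linear_combination (-468453906250 * D.z ^ (2 : ℕ) * u ^ (30 : ℕ) + 8823840625000 * D.z ^ (2 : ℕ) * u ^ (29 : ℕ) * v
      - 79187912500000 * D.z ^ (2 : ℕ) * u ^ (28 : ℕ) * v ^ (2 : ℕ)
      + 457026487500000 * D.z ^ (2 : ℕ) * u ^ (27 : ℕ) * v ^ (3 : ℕ)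
      - 1906840556250000 * D.z ^ (2 : ℕ) * u ^ (26 : ℕ) * v ^ (4 : ℕ)
      + 6130086201562500 * D.z ^ (2 : ℕ) * u ^ (25 : ℕ) * v ^ (5 : ℕ)
      - 15779864109375000 * D.z ^ (2 : ℕ) * u ^ (24 : ℕ) * v ^ (6 : ℕ)
      + 33412734750000000 * D.z ^ (2 : ℕ) * u ^ (23 : ℕ) * v ^ (7 : ℕ)
      - 59472295031250000 * D.z ^ (2 : ℕ) * u ^ (22 : ℕ) * v ^ (8 : ℕ)
      + 89458464390625000 * D.z ^ (2 : ℕ) * u ^ (21 : ℕ) * v ^ (9 : ℕ)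
      - 117505530777343750 * D.z ^ (2 : ℕ) * u ^ (20 : ℕ) * v ^ (10 : ℕ)
      + 128091919406250000 * D.z ^ (2 : ℕ) * u ^ (19 : ℕ) * v ^ (11 : ℕ)
      - 135239074000000000 * D.z ^ (2 : ℕ) * u ^ (18 : ℕ) * v ^ (12 : ℕ)
      + 93584215593750000 * D.z ^ (2 : ℕ) * u ^ (17 : ℕ) * v ^ (13 : ℕ)
      - 113637976078125000 * D.z ^ (2 : ℕ) * u ^ (16 : ℕ) * v ^ (14 : ℕ)
      - 113637976078125000 * D.z ^ (2 : ℕ) * u ^ (14 : ℕ) * v ^ (16 : ℕ)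
      - 93584215593750000 * D.z ^ (2 : ℕ) * u ^ (13 : ℕ) * v ^ (17 : ℕ)
      - 135239074000000000 * D.z ^ (2 : ℕ) * u ^ (12 : ℕ) * v ^ (18 : ℕ)
      - 128091919406250000 * D.z ^ (2 : ℕ) * u ^ (11 : ℕ) * v ^ (19 : ℕ)
      - 117505530777343750 * D.z ^ (2 : ℕ) * u ^ (10 : ℕ) * v ^ (20 : ℕ)
      - 89458464390625000 * D.z ^ (2 : ℕ) * u ^ (9 : ℕ) * v ^ (21 : ℕ)
      - 59472295031250000 * D.z ^ (2 : ℕ) * u ^ (8 : ℕ) * v ^ (22 : ℕ)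
      - 33412734750000000 * D.z ^ (2 : ℕ) * u ^ (7 : ℕ) * v ^ (23 : ℕ)
      - 15779864109375000 * D.z ^ (2 : ℕ) * u ^ (6 : ℕ) * v ^ (24 : ℕ)
      - 6130086201562500 * D.z ^ (2 : ℕ) * u ^ (5 : ℕ) * v ^ (25 : ℕ)
      - 1906840556250000 * D.z ^ (2 : ℕ) * u ^ (4 : ℕ) * v ^ (26 : ℕ)
      - 457026487500000 * D.z ^ (2 : ℕ) * u ^ (3 : ℕ) * v ^ (27 : ℕ)
      - 79187912500000 * D.z ^ (2 : ℕ) * u ^ (2 : ℕ) * v ^ (28 : ℕ)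
      - 8823840625000 * D.z ^ (2 : ℕ) * u * v ^ (29 : ℕ)
      - 468453906250 * D.z ^ (2 : ℕ) * v ^ (30 : ℕ) - 468453906250 * D.z * u ^ (30 : ℕ)
      + 8823840625000 * D.z * u ^ (29 : ℕ) * v - 79187912500000 * D.z * u ^ (28 : ℕ) * v ^ (2 : ℕ)
      + 457026487500000 * D.z * u ^ (27 : ℕ) * v ^ (3 : ℕ)
      - 1906840556250000 * D.z * u ^ (26 : ℕ) * v ^ (4 : ℕ)
      + 6130086201562500 * D.z * u ^ (25 : ℕ) * v ^ (5 : ℕ)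
      - 15779864109375000 * D.z * u ^ (24 : ℕ) * v ^ (6 : ℕ)
      + 33412734750000000 * D.z * u ^ (23 : ℕ) * v ^ (7 : ℕ)
      - 59472295031250000 * D.z * u ^ (22 : ℕ) * v ^ (8 : ℕ)
      + 89458464390625000 * D.z * u ^ (21 : ℕ) * v ^ (9 : ℕ)
      - 117505530777343750 * D.z * u ^ (20 : ℕ) * v ^ (10 : ℕ)
      + 128091919406250000 * D.z * u ^ (19 : ℕ) * v ^ (11 : ℕ)
      - 135239074000000000 * D.z * u ^ (18 : ℕ) * v ^ (12 : ℕ)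
      + 93584215593750000 * D.z * u ^ (17 : ℕ) * v ^ (13 : ℕ)
      - 113637976078125000 * D.z * u ^ (16 : ℕ) * v ^ (14 : ℕ)
      - 113637976078125000 * D.z * u ^ (14 : ℕ) * v ^ (16 : ℕ)
      - 93584215593750000 * D.z * u ^ (13 : ℕ) * v ^ (17 : ℕ)
      - 135239074000000000 * D.z * u ^ (12 : ℕ) * v ^ (18 : ℕ)
      - 128091919406250000 * D.z * u ^ (11 : ℕ) * v ^ (19 : ℕ)
      - 117505530777343750 * D.z * u ^ (10 : ℕ) * v ^ (20 : ℕ)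
      - 89458464390625000 * D.z * u ^ (9 : ℕ) * v ^ (21 : ℕ)
      - 59472295031250000 * D.z * u ^ (8 : ℕ) * v ^ (22 : ℕ)
      - 33412734750000000 * D.z * u ^ (7 : ℕ) * v ^ (23 : ℕ)
      - 15779864109375000 * D.z * u ^ (6 : ℕ) * v ^ (24 : ℕ)
      - 6130086201562500 * D.z * u ^ (5 : ℕ) * v ^ (25 : ℕ)
      - 1906840556250000 * D.z * u ^ (4 : ℕ) * v ^ (26 : ℕ)
      - 457026487500000 * D.z * u ^ (3 : ℕ) * v ^ (27 : ℕ)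
      - 79187912500000 * D.z * u ^ (2 : ℕ) * v ^ (28 : ℕ) - 8823840625000 * D.z * u * v ^ (29 : ℕ)
      - 468453906250 * D.z * v ^ (30 : ℕ) + 468453906250 * u ^ (30 : ℕ)
      - 8823840625000 * u ^ (29 : ℕ) * v + 79187912500000 * u ^ (28 : ℕ) * v ^ (2 : ℕ)
      - 457026487500000 * u ^ (27 : ℕ) * v ^ (3 : ℕ) + 1906840556250000 * u ^ (26 : ℕ) * v ^ (4 : ℕ)
      - 6130086201562500 * u ^ (25 : ℕ) * v ^ (5 : ℕ)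
      + 15779864109375000 * u ^ (24 : ℕ) * v ^ (6 : ℕ)
      - 33412734750000000 * u ^ (23 : ℕ) * v ^ (7 : ℕ)
      + 59472295031250000 * u ^ (22 : ℕ) * v ^ (8 : ℕ)
      - 89458464390625000 * u ^ (21 : ℕ) * v ^ (9 : ℕ)
      + 117505530777343750 * u ^ (20 : ℕ) * v ^ (10 : ℕ)
      - 128091919406250000 * u ^ (19 : ℕ) * v ^ (11 : ℕ)
      + 135239074000000000 * u ^ (18 : ℕ) * v ^ (12 : ℕ)
      - 93584215593750000 * u ^ (17 : ℕ) * v ^ (13 : ℕ)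
      + 113637976078125000 * u ^ (16 : ℕ) * v ^ (14 : ℕ)
      + 113637976078125000 * u ^ (14 : ℕ) * v ^ (16 : ℕ)
      + 93584215593750000 * u ^ (13 : ℕ) * v ^ (17 : ℕ)
      + 135239074000000000 * u ^ (12 : ℕ) * v ^ (18 : ℕ)
      + 128091919406250000 * u ^ (11 : ℕ) * v ^ (19 : ℕ)
      + 117505530777343750 * u ^ (10 : ℕ) * v ^ (20 : ℕ)
      + 89458464390625000 * u ^ (9 : ℕ) * v ^ (21 : ℕ)
      + 59472295031250000 * u ^ (8 : ℕ) * v ^ (22 : ℕ)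
      + 33412734750000000 * u ^ (7 : ℕ) * v ^ (23 : ℕ)
      + 15779864109375000 * u ^ (6 : ℕ) * v ^ (24 : ℕ)
      + 6130086201562500 * u ^ (5 : ℕ) * v ^ (25 : ℕ)
      + 1906840556250000 * u ^ (4 : ℕ) * v ^ (26 : ℕ) + 457026487500000 * u ^ (3 : ℕ) * v ^ (27 : ℕ)
      + 79187912500000 * u ^ (2 : ℕ) * v ^ (28 : ℕ) + 8823840625000 * u * v ^ (29 : ℕ)
      + 468453906250 * v ^ (30 : ℕ)) * D.hz


end KleinData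

end Fermat.Agent.S52
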